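/-
S44, cell [E3] HECKE-RES, (E3-EIS) through the MODULAR UNIT (helper21; prefix `s44hu_`): DEFINITIONS.

`u = Δ(q)/Δ(q^p)` (the Mazur project's `mza_UB p ∈ Q̄(X₀(p))`, series `coeffEmb Q̄ (modularUnitSeries p)`
= `mzb_qi_U Q̄ p`) as an element of `F̄_N` for every level `N` divisible by `p`:

* `s44hu_U p N hpN : modularFunctionFieldBar N`, `s44hu_coe_U` (series, by `rfl`), `s44hu_U_ne_zero`;
* `s44hu_U_mem`, `s44hu_U_inv_mem` : `u` and `u⁻¹` lie in the Gauss ring `W∞ = s44pg_W A …` of ANY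
  valuation ring `A` of `Q̄` (integral `q`-expansions `mzb_qi_U ↥A p`, `mzb_qi_Uinv ↥A p`);
* `s44hu_res_U` : the Gauss residue of `u` is `mzb_qi_U kA p = Δ̄(q)/Δ̄(q^p)`.

Consumers: (U-T) `N_α (β u) = u^{ℓ+1}` (UnitHecke.lean), (U-W) `W̄_p u = p¹² u⁻¹`, (U-DIV), and the
`B_eis` instance.
-/
import Mathlib
import Fermat.Agent.MZ.A.Place.Main
import Fermat.Agent.MZ.B.QInt
import Fermat.Agent.S44.PsiEig.Gauss

set_option autoImplicit false
set_option linter.unusedSectionVars false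
set_option linter.style.haveILetI false

noncomputable section

namespace Fermat.Agent.S44

open ModularCurve IsLocalRing Fermat.Agent.JT3 Fermat.Agent.MZ

local notation "Qb" => AlgebraicClosure ℚ

section Def

variable (p N : ℕ) [NeZero p] [NeZero N] (hpN : p ∣ N)

include hpN in
theorem s44hu_series_mem :
    coeffEmb Qb (modularUnitSeries p) ∈ modularFunctionFieldBar N := by
  have h1 : coeffEmb Qb (modularUnitSeries p) ∈ modularFunctionFieldBar p := (mza_UB p).2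
  rw [← lg_F_eq_bar] at h1 ⊢
  exact full_degeneracyC_le Qb hpN h1

/-- **the modular unit `Δ(q)/Δ(q^p)` as an element of `F̄_N`**, `p ∣ N`. -/
def s44hu_U : modularFunctionFieldBar N :=
  ⟨coeffEmb Qb (modularUnitSeries p), s44hu_series_mem p N hpN⟩

theorem s44hu_coe_U :
    ((s44hu_U p N hpN : modularFunctionFieldBar N) : LaurentSeries Qb) =
      coeffEmb Qb (modularUnitSeries p) := rfl

theorem s44hu_coe_U' :
    ((s44hu_U p N hpN : modularFunctionFieldBar N) : LaurentSeries Qb) = mzb_qi_U Qb p := by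
  rw [s44hu_coe_U, mzb_qi_U_coeffEmb]

theorem s44hu_U_ne_zero : s44hu_U p N hpN ≠ 0 := by
  intro h
  have h1 := congrArg (fun z : modularFunctionFieldBar N => (z : LaurentSeries Qb)) h
  simp only [s44hu_coe_U, ZeroMemClass.coe_zero] at h1
  have h2 := congrArg (fun z : LaurentSeries Qb => z.coeff (1 - (p : ℤ))) h1
  simp only [coeffEmb_coeff, coeff_modularUnitSeries_self, map_one, HahnSeries.coeff_zero] at h2
  exact one_ne_zero h2

theorem s44hu_coe_U_inv :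
    (((s44hu_U p N hpN)⁻¹ : modularFunctionFieldBar N) : LaurentSeries Qb) = mzb_qi_Uinv Qb p := by
  rw [IntermediateField.coe_inv, s44hu_coe_U']
  exact inv_eq_of_mul_eq_one_right (mzb_qi_U_mul_inv Qb p)

end Def

section Gauss

variable (A : ValuationSubring Qb) {ℓ : ℕ} (hℓ : A.LiesOverPrime ℓ) (hℓ0 : ℓ ≠ 0)
  (p N : ℕ) [NeZero p] [NeZero N] (hpN : p ∣ N)

theorem s44hu_isBdd_U : gq_IsBdd ↥A Qb (mzb_qi_U Qb p) := by
  rw [← mzb_qi_coeffMap_U (algebraMap ↥A Qb) p]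
  exact gq_isBdd_iota _

theorem s44hu_isBdd_Uinv : gq_IsBdd ↥A Qb (mzb_qi_Uinv Qb p) := by
  rw [← mzb_qi_coeffMap_Uinv (algebraMap ↥A Qb) p]
  exact gq_isBdd_iota _

/-- `u` lies in the Gauss ring. -/
theorem s44hu_U_mem : s44hu_U p N hpN ∈ s44pg_W A hℓ hℓ0 N := by
  rw [s44pg_mem_iff, s44hu_coe_U']
  exact s44hu_isBdd_U A p

/-- `u⁻¹` lies in the Gauss ring: `u` is a Gauss unit. -/
theorem s44hu_U_inv_mem : (s44hu_U p N hpN)⁻¹ ∈ s44pg_W A hℓ hℓ0 N := by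
  rw [s44pg_mem_iff, s44hu_coe_U_inv]
  exact s44hu_isBdd_Uinv A p

/-- the Gauss residue of `u` is `Δ̄(q)/Δ̄(q^p)`. -/
theorem s44hu_res_U :
    gq_res ↥A Qb ⟨mzb_qi_U Qb p, s44hu_isBdd_U A p⟩ = mzb_qi_U (ResidueField ↥A) p := by
  have h := gq_res_iota (O := ↥A) (K := Qb) (mzb_qi_U ↥A p)
  have e : (⟨mzb_qi_U Qb p, s44hu_isBdd_U A p⟩ : ↥(gq_bddSubring ↥A Qb)) =
      ⟨coeffMap (algebraMap ↥A Qb) (mzb_qi_U ↥A p), gq_isBdd_iota _⟩ :=
    Subtype.ext (mzb_qi_coeffMap_U (algebraMap ↥A Qb) p).symm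
  rw [e, h, mzb_qi_coeffMap_U]

end Gauss

end Fermat.Agent.S44

end
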