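/-
S44, cell [E3] HECKE-RES, (E3-EIS) through the MODULAR UNIT, leaf (U-W) (helper27; prefix `s44hw_`).

**The Atkin–Lehner involution inverts the modular unit**: for `u = Δ(q)/Δ(q^p) ∈ F̄_{M p}`
(`s44hu_U p (M p)`, `p ∤ M` prime),

  `s44hw_unit_W : W̄_p u = p¹² · u⁻¹`     (`W̄_p = ssm_al_Wbar M p hp hpM`).

Route: `W̄_p` is the unique `Q̄`-algebra endomorphism of `F̄_{M p}` swapping the two degeneracy
maps (`s44hw_W_unique`), hence equals helper24's `nls_W h` for any Bezout datum `p a − M c = 1`, which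
on `A0 (M p) = Q̄[j(q^d)]` is precomposition of the analytic realisation `br_an` with the matrix
`nls_mat M p a c h = [[p a, 1], [M p c, p]]` (`nls_W0_spec`).  Analytically
`U(τ) = Δ(τ)/Δ(pτ)` satisfies `U(Wτ) · U(τ) = p¹²` (`s44hw_Uan_W`: `Wτ = γ₁(pτ)`, `p·Wτ = γ₂ τ` with
`γ₁, γ₂ ∈ SL₂(ℤ)`, and `Δ(γτ) = (cτ+d)¹² Δ(τ)`), and `u = r/s` with `r, s ∈ A0 (M p)` has
`br_an r = U · br_an s` (`q`-expansions, `mza_pl_qexp`).
-/
import Mathlib
import Fermat.Agent.S44.HeckeRes.UnitDef
import Fermat.Agent.SS.Model.AL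
import Fermat.Agent.JT3.NL.Swap
import Fermat.Agent.MZ.A.Place.Main

set_option autoImplicit false
set_option linter.unusedSectionVars false
set_option linter.style.haveILetI false
set_option linter.unusedVariables false

noncomputable section

namespace Fermat.Agent.S44

open UpperHalfPlane Matrix ModularCurve ModularForm
open Fermat.Agent.S24 Fermat.Agent.S23 Fermat.Agent.JT3 Fermat.Agent.SS Fermat.Agent.MZ
  Fermat.Agent.S28
open scoped MatrixGroups

local notation "Qb" => AlgebraicClosure ℚ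

/-! ### uniqueness of the swap -/

section Unique

variable {N l : ℕ} [NeZero N] [NeZero l]

/-- two `Q̄`-algebra endomorphisms of `F̄_{N l}` which agree on both degeneracy images are equal. -/
theorem s44hw_W_unique (hl : l.Prime) (hlN : ¬ l ∣ N)
    (W W' : Fbar (N * l) →ₐ[Kbar] Fbar (N * l))
    (hα : ∀ x : Fbar N, W (heckeAlphaBar Kbar N l x) = W' (heckeAlphaBar Kbar N l x))
    (hβ : ∀ x : Fbar N, W (heckeBetaBar Kbar N l x) = W' (heckeBetaBar Kbar N l x)) :
    W = W' := by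
  have key : W.comp (IsScalarTower.toAlgHom Kbar (A0 (N * l)) (Fbar (N * l))) =
      W'.comp (IsScalarTower.toAlgHom Kbar (A0 (N * l)) (Fbar (N * l))) := by
    refine AlgHom.ext_of_eq_adjoin (S := A0 (N * l)) (s := barGens (N * l)) rfl ?_
    rintro x ⟨d, hd, hdN, rfl⟩
    haveI := hd
    rcases nls_dvd_cases hl hlN hdN with hdN' | ⟨e, rfl, heN⟩
    · change W (algebraMap (A0 (N * l)) (Fbar (N * l))
          ⟨barGen d, Algebra.subset_adjoin (barGen_mem_barGens hdN)⟩) =
        W' (algebraMap (A0 (N * l)) (Fbar (N * l))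
          ⟨barGen d, Algebra.subset_adjoin (barGen_mem_barGens hdN)⟩)
      rw [← nls_alpha_gen hdN' hdN]
      exact hα _
    · haveI : NeZero e := ⟨fun h0 => by subst h0; exact NeZero.ne (l * 0) (by simp)⟩
      change W (algebraMap (A0 (N * l)) (Fbar (N * l))
          ⟨barGen (l * e), Algebra.subset_adjoin (barGen_mem_barGens hdN)⟩) =
        W' (algebraMap (A0 (N * l)) (Fbar (N * l))
          ⟨barGen (l * e), Algebra.subset_adjoin (barGen_mem_barGens hdN)⟩)
      rw [← nls_beta_gen heN hdN]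
      exact hβ _
  apply AlgHom.ext
  intro x
  obtain ⟨r, s, -, rfl⟩ := nls_exists_div x
  have er := DFunLike.congr_fun key r
  have es := DFunLike.congr_fun key s
  simp only [AlgHom.comp_apply, IsScalarTower.coe_toAlgHom'] at er es
  rw [map_div₀, map_div₀, er, es]

/-- `ssm_al_Wbar` is helper24's `nls_W`, for every Bezout datum. -/
theorem s44hw_Wbar_eq (hl : l.Prime) (hlN : ¬ l ∣ N) {a c : ℤ} (h : (l : ℤ) * a - N * c = 1) :
    ssm_al_Wbar N l hl hlN = nls_W h hl hlN := by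
  refine s44hw_W_unique hl hlN _ _ (fun x => ?_) (fun x => ?_)
  · rw [ssm_al_Wbar_alpha, nls_W_alpha]
  · rw [ssm_al_Wbar_beta, nls_W_beta]

end Unique

/-! ### the analytic identity `U(Wτ) · U(τ) = p¹²` -/

section Analytic

variable {N l : ℕ} [NeZero l] {a c : ℤ}

/-- `W τ = γ₁ (l τ)`, `γ₁ = [[a, 1], [N c, l]] ∈ SL₂(ℤ)`. -/
theorem s44hw_smul_eq1 (h : (l : ℤ) * a - N * c = 1) (z : ℍ) :
    nls_mat N l a c h • z = nls_gam1 1 N (one_mul N).symm h • (alphaN l • z) := by
  apply UpperHalfPlane.ext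
  have hden := nls_denom_ne_zero h z
  rw [nls_coe_mat_smul, UpperHalfPlane.coe_specialLinearGroup_apply, coe_alphaN_smul]
  simp only [nls_gam1, Matrix.SpecialLinearGroup.coe_mk, Matrix.of_apply, Matrix.cons_val',
    Matrix.cons_val_zero, Matrix.cons_val_one, Matrix.empty_val', Matrix.cons_val_fin_one,
    algebraMap_int_eq, Int.coe_castRingHom]
  have hden' : ((N : ℂ) * c) * ((l : ℂ) * (z : ℂ)) + l ≠ 0 := by
    have : ((N : ℂ) * c) * ((l : ℂ) * (z : ℂ)) + l = (N : ℂ) * l * c * z + l := by ring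
    rw [this]; exact hden
  push_cast
  rw [div_eq_div_iff hden hden']
  ring

/-- `l · W τ = γ₂ τ`, `γ₂ = [[l a, 1], [N c, 1]] ∈ SL₂(ℤ)`. -/
theorem s44hw_smul_eq2 (h : (l : ℤ) * a - N * c = 1) (z : ℍ) :
    alphaN l • (nls_mat N l a c h • z) = nls_gam2 1 N (one_mul N).symm h • z := by
  apply UpperHalfPlane.ext
  have hden := nls_denom_ne_zero h z
  rw [coe_alphaN_smul, nls_coe_mat_smul, UpperHalfPlane.coe_specialLinearGroup_apply]
  simp only [nls_gam2, Matrix.SpecialLinearGroup.coe_mk, Matrix.of_apply, Matrix.cons_val',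
    Matrix.cons_val_zero, Matrix.cons_val_one, Matrix.empty_val', Matrix.cons_val_fin_one,
    algebraMap_int_eq, Int.coe_castRingHom]
  have hl0 : (l : ℂ) ≠ 0 := by exact_mod_cast NeZero.ne l
  have hden' : ((N : ℂ) * c) * (z : ℂ) + 1 ≠ 0 := by
    intro h0
    apply hden
    linear_combination (l : ℂ) * h0
  push_cast
  rw [mul_div_assoc', div_eq_div_iff hden hden']
  ring

/-- **`U(Wτ) · U(τ) = l¹²`** for `U(τ) = Δ(τ)/Δ(lτ)`. -/
theorem s44hw_Uan_W (h : (l : ℤ) * a - N * c = 1) (z : ℍ) :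
    mza_Uan l (nls_mat N l a c h • z) * mza_Uan l z = (l : ℂ) ^ 12 := by
  unfold mza_Uan
  rw [mza_plu_mulH_eq, mza_plu_mulH_eq, s44hw_smul_eq2 h z, tx_discriminant_smul]
  conv_lhs => rw [s44hw_smul_eq1 h z, tx_discriminant_smul]
  have h1 := discriminant_ne_zero z
  have h2 := discriminant_ne_zero (alphaN l • z)
  have hden := nls_denom_ne_zero h z
  have hl0 : (l : ℂ) ≠ 0 := by exact_mod_cast NeZero.ne l
  have hd2 : denom (nls_gam2 1 N (one_mul N).symm h) z = (N : ℂ) * c * z + 1 := by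
    rw [ModularGroup.denom_apply]
    simp [nls_gam2]
  have hd1 : denom (nls_gam1 1 N (one_mul N).symm h) ((alphaN l • z : ℍ) : ℂ) =
      (l : ℂ) * ((N : ℂ) * c * z + 1) := by
    rw [ModularGroup.denom_apply, coe_alphaN_smul]
    simp [nls_gam1]
    ring
  have hd2' : (N : ℂ) * c * z + 1 ≠ 0 := by
    intro h0
    apply hden
    linear_combination (l : ℂ) * h0
  rw [hd1, hd2]
  field_simp

end Analytic

/-! ### the main statement -/

section Main

variable (M p : ℕ) [NeZero M] [NeZero p] (hp : p.Prime) (hpM : ¬ p ∣ M)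

/-- if `r = u · s` on `q`-expansions (`r, s ∈ A0 (M p)`, `u` the modular unit), then
`br_an r = U · br_an s`. -/
theorem s44hw_an_mul (N : ℕ) [NeZero N] (r s : A0 N)
    (hrs : (r : LaurentSeries Qb) = coeffEmb Qb (modularUnitSeries p) * (s : LaurentSeries Qb)) :
    ((br_an N r : jdAlgebra N) : ℍ → ℂ) =
      mza_Uan p * ((br_an N s : jdAlgebra N) : ℍ → ℂ) := by
  rw [br_an_coe]
  refine br_anFun_eq N r ?_
  rw [hrs, map_mul]
  exact (mza_pl_qexp p).mul (br_an_spec N s)

/-- **(U-W)**: the Atkin–Lehner involution inverts the modular unit, `W̄_p u = p¹² u⁻¹`. -/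
theorem s44hw_unit_W :
    ssm_al_Wbar M p hp hpM (s44hu_U p (M * p) ⟨M, mul_comm _ _⟩) =
      algebraMap Qb (modularFunctionFieldBar (M * p)) ((p : Qb) ^ 12) *
        (s44hu_U p (M * p) ⟨M, mul_comm _ _⟩)⁻¹ := by
  obtain ⟨a, c, h⟩ := nls_exists_bezout (N := M) hp hpM
  rw [s44hw_Wbar_eq hp hpM h]
  set u : Fbar (M * p) := s44hu_U p (M * p) ⟨M, mul_comm _ _⟩ with hu
  have hu0 : u ≠ 0 := s44hu_U_ne_zero p (M * p) ⟨M, mul_comm _ _⟩
  obtain ⟨r, s, hs0, hdiv⟩ := nls_exists_div u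
  have hinj := FaithfulSMul.algebraMap_injective (A0 (M * p)) (Fbar (M * p))
  -- `r = u s` on series
  have hr : algebraMap (A0 (M * p)) (Fbar (M * p)) r =
      u * algebraMap (A0 (M * p)) (Fbar (M * p)) s := by
    rw [hdiv, div_mul_cancel₀ _ hs0]
  have hr0 : algebraMap (A0 (M * p)) (Fbar (M * p)) r ≠ 0 := by
    rw [hr]; exact mul_ne_zero hu0 hs0
  have hrs : (r : LaurentSeries Qb) =
      coeffEmb Qb (modularUnitSeries p) * (s : LaurentSeries Qb) := by
    have := congrArg (fun x : Fbar (M * p) => (x : LaurentSeries Qb)) hr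
    exact this
  have han := s44hw_an_mul p (M * p) r s hrs
  -- the key identity in `A0 (M p)`
  have key : nls_W0 h hp hpM r * r =
      algebraMap Kbar (A0 (M * p)) ((p : Qb) ^ 12) * (nls_W0 h hp hpM s * s) := by
    apply br_an_injective (M * p)
    apply Subtype.ext
    funext z
    rw [map_mul, map_mul, map_mul]
    change ((br_an (M * p) (nls_W0 h hp hpM r) : jdAlgebra (M * p)) : ℍ → ℂ) z *
        ((br_an (M * p) r : jdAlgebra (M * p)) : ℍ → ℂ) z =
      ((br_an (M * p) (algebraMap Kbar (A0 (M * p)) ((p : Qb) ^ 12)) : jdAlgebra (M * p)) :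
          ℍ → ℂ) z *
        (((br_an (M * p) (nls_W0 h hp hpM s) : jdAlgebra (M * p)) : ℍ → ℂ) z *
          ((br_an (M * p) s : jdAlgebra (M * p)) : ℍ → ℂ) z)
    rw [nls_W0_spec, nls_W0_spec, br_an_algebraMap, han]
    simp only [Pi.mul_apply]
    have hU := s44hw_Uan_W h z
    have hι : br_iota ((p : Qb) ^ 12) = (p : ℂ) ^ 12 := by
      rw [map_pow, map_natCast]
    rw [hι, ← hU]
    ring
  have hWs0 : algebraMap (A0 (M * p)) (Fbar (M * p)) (nls_W0 h hp hpM s) ≠ 0 := by
    intro h0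
    apply hs0
    have h1 : nls_W0 h hp hpM s = 0 := hinj (by rw [h0, map_zero])
    have h2 : s = 0 := nls_W0_injective h hp hpM (by rw [h1, map_zero])
    rw [h2, map_zero]
  have key' := congrArg (algebraMap (A0 (M * p)) (Fbar (M * p))) key
  rw [map_mul, map_mul, map_mul, ← IsScalarTower.algebraMap_apply] at key'
  rw [hdiv, map_div₀, nls_W_algebraMap, nls_W_algebraMap, inv_div, div_eq_iff hWs0]
  field_simp
  linear_combination key'

end Main

end Fermat.Agent.S44

end
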