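/-
S44 cell [E3] HECKE-RES, abstract half of (E3a)/(E3b) (helper5; prefix `s44hk_`).

The action of a correspondence `T = ψ_* φ^*` (`φ, ψ : F → F'`; Prelude `Divisor.correspondence φ ψ`,
`Pic0.correspondence φ ψ`) on KUMMER REPRESENTATIVES, in ANY characteristic:

* `s44hk_corr_ord`  : `div f = D` ⟹ `(T D)(v) = ord_v (N_ψ (φ f))` for every place `v` of `F`;
* `s44hk_rep_corr`  : `(D, f)` represents the `m`-torsion class `z` (`[D] = z`, `m D = div f`) ⟹
  `(T D, N_ψ (φ f))` represents `T z`;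
* `s44hk_ord_corr_sum` : `ord_v (N_ψ (φ f)) = Σ_{w ↦_ψ v} f(w|v) · e_φ(w) · ord_{φ^{-1} w}(f)` — the shape of
  the operator `B_ℓ` of [E3a] on the orders `ν_Q = ord_Q f̄ mod p`.

In use: `K = k = F̄_p`, `F = FF_M`, `F' = FF_{Mℓ}`, `φ = β̄ = mzrh_beC k M ℓ`, `ψ = ᾱ = mzrh_alC k M ℓ`
(`mzrh_heckeInputsC`), `f = f̄_z` the `w_∞`-reduction of a Kummer representative of `z ∈ J₀(Mp)[p]`.
-/
import Mathlib
import Fermat.Prelude.Def_AlgebraicCurve_Correspondence
import Fermat.Agent.S35.PEquiv.NormAlong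

set_option autoImplicit false
set_option linter.style.haveILetI false
set_option linter.unusedSectionVars false

namespace Fermat.Agent.S44

open AlgebraicCurve Fermat.Agent.S35

universe u v w
variable {K : Type u} {F : Type v} {F' : Type w} [Field K] [Field F] [Field F'] [Algebra K F]
  [Algebra K F'] [HasPrincipalDivisors K F']
variable (φ ψ : F →ₐ[K] F') (hφ : φ.toRingHom.IsIntegral) (hψ : ψ.toRingHom.IsIntegral)

/-- `div (φ f) = φ^* (div f)` -/
theorem s44hk_pullback_ord {f : F} {D : Divisor K F} (hD : ∀ v : Place K F, D v = v.ord f)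
    (w : Place K F') : Divisor.pullbackAlong φ hφ D w = w.ord (φ f) := by
  rw [Divisor.pullbackAlong_apply, hD, ← Place.ord_restrictAlong]

theorem s44hk_normAlong_ne_zero (hfin : FiniteAlong K ψ) {x : F'} (hx : x ≠ 0) :
    s35pe_normAlong ψ x ≠ 0 := by
  letI := algebraAlong ψ
  haveI : Module.Finite F F' := hfin
  exact Algebra.norm_ne_zero_iff.mpr hx

/-- **the correspondence on divisors of functions**: `(ψ_* φ^* div f)(v) = ord_v N_ψ(φ f)`. -/
theorem s44hk_corr_ord (hfin : FiniteAlong K ψ) (hN : NormFormulaAlong K ψ hfin) {f : F}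
    (hf : f ≠ 0) {D : Divisor K F} (hD : ∀ v : Place K F, D v = v.ord f) (v : Place K F) :
    Divisor.correspondence φ ψ hφ hψ D v = v.ord (s35pe_normAlong ψ (φ f)) := by
  have hφf : φ f ≠ 0 := by
    rw [Ne, map_eq_zero]
    exact hf
  rw [Divisor.correspondence_apply]
  letI := algebraAlong ψ
  haveI := isScalarTower_along ψ
  haveI := isIntegral_along ψ hψ
  haveI : Module.Finite F F' := hfin
  exact hN (φ f) hφf (Divisor.pullbackAlong φ hφ D) (s44hk_pullback_ord φ hφ hD) v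

/-- the same for `m D = div f`. -/
theorem s44hk_corr_ord_mul (hfin : FiniteAlong K ψ) (hN : NormFormulaAlong K ψ hfin) {f : F}
    (hf : f ≠ 0) {m : ℤ} {D : Divisor K F} (hD : ∀ v : Place K F, m * D v = v.ord f)
    (v : Place K F) :
    m * Divisor.correspondence φ ψ hφ hψ D v = v.ord (s35pe_normAlong ψ (φ f)) := by
  have h1 : ∀ v : Place K F, (m • D) v = v.ord f := fun v => by
    rw [Finsupp.smul_apply, smul_eq_mul]
    exact hD v
  rw [← s44hk_corr_ord φ ψ hφ hψ hfin hN hf h1 v, map_zsmul, Finsupp.smul_apply, smul_eq_mul]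

/-- the push-forward of a divisor at a place is the sum over the fibre. -/
theorem s44hk_pushforwardAlong_apply (D' : Divisor K F') (v : Place K F) :
    Divisor.pushforwardAlong ψ hψ D' v =
      ∑ w ∈ Place.fiberAlong ψ hψ v, D' w * (w.inertiaDegAlong ψ hψ : ℤ) := by
  classical
  letI := algebraAlong ψ
  haveI := isScalarTower_along ψ
  haveI := isIntegral_along ψ hψ
  show Divisor.pushforward F D' v = ∑ w ∈ Place.fiber F' v, D' w * (w.inertiaDeg F : ℤ)
  rw [Divisor.pushforward_apply, ← Finset.sum_filter]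
  refine Finset.sum_subset_zero_on_sdiff ?_ ?_ (fun _ _ => rfl)
  · intro w hw
    rw [Finset.mem_filter] at hw
    exact Place.mem_fiber.mpr hw.2
  · intro w hw
    rw [Finset.mem_sdiff, Finset.mem_filter, Place.mem_fiber] at hw
    have h0 : D' w = 0 := by
      by_contra h
      exact hw.2 ⟨Finsupp.mem_support_iff.mpr h, hw.1⟩
    rw [h0, zero_mul]

/-- **the shape of `B_ℓ`**: `ord_v N_ψ(φ f) = Σ_{w ↦_ψ v} e_φ(w) · ord_{w|_φ}(f) · f_ψ(w)`. -/
theorem s44hk_ord_corr_sum (hfin : FiniteAlong K ψ) (hN : NormFormulaAlong K ψ hfin) {f : F}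
    (hf : f ≠ 0) {D : Divisor K F} (hD : ∀ v : Place K F, D v = v.ord f) (v : Place K F) :
    v.ord (s35pe_normAlong ψ (φ f)) =
      ∑ w ∈ Place.fiberAlong ψ hψ v,
        ((w.ramificationIndexAlong φ : ℤ) * (w.restrictAlong φ hφ).ord f) *
          (w.inertiaDegAlong ψ hψ : ℤ) := by
  rw [← s44hk_corr_ord φ ψ hφ hψ hfin hN hf hD v, Divisor.correspondence_apply,
    s44hk_pushforwardAlong_apply]
  refine Finset.sum_congr rfl fun w _ => ?_
  rw [Divisor.pullbackAlong_apply, hD]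

variable (hFI : FundamentalIdentityAlong K φ hφ)

/-- **Hecke on Kummer representatives**: if `(D, f)` represents `z` (`[D] = z`, `m D = div f`) then
`(T D, N_ψ (φ f))` represents `T z`. -/
theorem s44hk_rep_corr (hfin : FiniteAlong K ψ) (hN : NormFormulaAlong K ψ hfin) {m : ℤ}
    {z : Pic0 K F} {D : Divisor.degZero (K := K) (F := F)} {f : F} (hf : f ≠ 0)
    (hz : Pic0.mk D = z) (hD : ∀ v : Place K F, m * (D : Divisor K F) v = v.ord f) :
    s35pe_normAlong ψ (φ f) ≠ 0 ∧
    Pic0.mk (Pic0.degZeroCorrespondence φ ψ hφ hψ hFI D) =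
      Pic0.correspondence φ ψ hφ hψ hFI hfin hN z ∧
    ∀ v : Place K F, m * (Pic0.degZeroCorrespondence φ ψ hφ hψ hFI D : Divisor K F) v =
      v.ord (s35pe_normAlong ψ (φ f)) := by
  have hφf : φ f ≠ 0 := by
    rw [Ne, map_eq_zero]
    exact hf
  refine ⟨s44hk_normAlong_ne_zero ψ hfin hφf, ?_, fun v => ?_⟩
  · rw [← hz, Pic0.correspondence_mk]
  · rw [Pic0.coe_degZeroCorrespondence]
    exact s44hk_corr_ord_mul φ ψ hφ hψ hfin hN hf hD v

end Fermat.Agent.S44
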