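/-
S44, cell [E3] HECKE-RES, leaf [E3-ABS-HK] (helper21; prefix `s44he_`): THE OPERATOR `B_ℓ` ON THE
RESIDUES, ABSTRACTLY (Prelude vocabulary; any characteristic).

`φ, ψ : F → F'` function fields over `K`, `T = ψ_* φ^*`, `SS` a set of places of `F`, `p` a number.
* `s44he_B φ ψ hφ hψ p SS : (SS → ZMod p) →+ (SS → ZMod p)`,
  `(B r)(Q) = Σ_{w ↦_ψ Q} e_φ(w) · f_ψ(w) · r̃(w|_φ)` (`r̃` = extension by zero off `SS`);
* `s44he_ord_B` : if `p ∣ ord_Q f` for every `Q ∉ SS`, then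
  `ord_Q (N_ψ (φ f)) mod p = B (Q' ↦ ord_{Q'} f mod p) (Q)` for `Q ∈ SS`   [(E3a)];
* `s44he_B_eis` : if (INV) `w|_ψ ∈ SS ⟹ w|_φ ∈ SS`, (RAM) `e_φ(w) · kk(w|_ψ) = e_ψ(w) · kk(w|_φ)` and
  (FI) `Σ_{w ↦_ψ Q} e_ψ(w) f_ψ(w) = n`, then `B (1/kk) = n • (1/kk)`   [(E3-EIS)];
* `s44he_sum_e_f` : (FI) from the prelude's `FundamentalIdentityAlong` when all places have degree 1.

In use: `K = k`, `F = FF_M`, `F' = FF_{Mℓ}`, `φ = β̄ = mzrh_beC k M ℓ`, `ψ = ᾱ = mzrh_alC k M ℓ`.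
-/
import Mathlib
import Fermat.Agent.S44.HeckeRes.KumCorr

set_option autoImplicit false
set_option linter.style.haveILetI false
set_option linter.unusedSectionVars false

noncomputable section

namespace Fermat.Agent.S44

open AlgebraicCurve Fermat.Agent.S35

universe u v w
variable {K : Type u} {F : Type v} {F' : Type w} [Field K] [Field F] [Field F'] [Algebra K F]
  [Algebra K F'] [HasPrincipalDivisors K F']
variable (φ ψ : F →ₐ[K] F') (hφ : φ.toRingHom.IsIntegral) (hψ : ψ.toRingHom.IsIntegral)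
variable (p : ℕ) (SS : Set (Place K F))

open Classical in
/-- extension by zero off `SS` -/
def s44he_ext (r : ↥SS → ZMod p) (Q : Place K F) : ZMod p :=
  if h : Q ∈ SS then r ⟨Q, h⟩ else 0

theorem s44he_ext_mem (r : ↥SS → ZMod p) {Q : Place K F} (h : Q ∈ SS) :
    s44he_ext p SS r Q = r ⟨Q, h⟩ := by
  rw [s44he_ext, dif_pos h]

theorem s44he_ext_not_mem (r : ↥SS → ZMod p) {Q : Place K F} (h : Q ∉ SS) :
    s44he_ext p SS r Q = 0 := by
  rw [s44he_ext, dif_neg h]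

theorem s44he_ext_add (r s : ↥SS → ZMod p) (Q : Place K F) :
    s44he_ext p SS (r + s) Q = s44he_ext p SS r Q + s44he_ext p SS s Q := by
  by_cases h : Q ∈ SS
  · rw [s44he_ext_mem p SS _ h, s44he_ext_mem p SS _ h, s44he_ext_mem p SS _ h, Pi.add_apply]
  · rw [s44he_ext_not_mem p SS _ h, s44he_ext_not_mem p SS _ h, s44he_ext_not_mem p SS _ h,
      add_zero]

theorem s44he_ext_zero (Q : Place K F) : s44he_ext p SS (0 : ↥SS → ZMod p) Q = 0 := by
  by_cases h : Q ∈ SS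
  · rw [s44he_ext_mem p SS _ h, Pi.zero_apply]
  · rw [s44he_ext_not_mem p SS _ h]

/-- **the operator `B`** on `SS → ZMod p`:
`(B r)(Q) = Σ_{w ↦_ψ Q} e_φ(w) · f_ψ(w) · r̃(w|_φ)`. -/
def s44he_B : (↥SS → ZMod p) →+ (↥SS → ZMod p) where
  toFun r Q := ∑ w ∈ Place.fiberAlong ψ hψ (Q : Place K F),
    (((w.ramificationIndexAlong φ : ℕ) : ZMod p) * ((w.inertiaDegAlong ψ hψ : ℕ) : ZMod p)) *
      s44he_ext p SS r (w.restrictAlong φ hφ)
  map_zero' := by
    funext Q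
    simp only [s44he_ext_zero, mul_zero, Finset.sum_const_zero, Pi.zero_apply]
  map_add' r s := by
    funext Q
    simp only [s44he_ext_add, mul_add, Finset.sum_add_distrib, Pi.add_apply]

theorem s44he_B_apply (r : ↥SS → ZMod p) (Q : ↥SS) :
    s44he_B φ ψ hφ hψ p SS r Q = ∑ w ∈ Place.fiberAlong ψ hψ (Q : Place K F),
      (((w.ramificationIndexAlong φ : ℕ) : ZMod p) * ((w.inertiaDegAlong ψ hψ : ℕ) : ZMod p)) *
        s44he_ext p SS r (w.restrictAlong φ hφ) := rfl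

/-- **(E3a), abstract**: the orders of `N_ψ (φ f)` on `SS`, mod `p`, are `B` of the orders of `f`,
when `p` divides the orders of `f` off `SS`. -/
theorem s44he_ord_B (hfin : FiniteAlong K ψ) (hN : NormFormulaAlong K ψ hfin) {f : F}
    (hf : f ≠ 0) {D : Divisor K F} (hD : ∀ v : Place K F, D v = v.ord f)
    (hoff : ∀ Q : Place K F, Q ∉ SS → (p : ℤ) ∣ Q.ord f) (Q : ↥SS) :
    (((Q : Place K F).ord (s35pe_normAlong ψ (φ f)) : ℤ) : ZMod p) =
      s44he_B φ ψ hφ hψ p SS (fun Q' => (((Q' : Place K F).ord f : ℤ) : ZMod p)) Q := by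
  rw [s44hk_ord_corr_sum φ ψ hφ hψ hfin hN hf hD, s44he_B_apply, Int.cast_sum]
  refine Finset.sum_congr rfl fun w _ => ?_
  by_cases h : w.restrictAlong φ hφ ∈ SS
  · rw [s44he_ext_mem p SS _ h]
    push_cast
    ring
  · rw [s44he_ext_not_mem p SS _ h, mul_zero]
    have h0 : (((w.restrictAlong φ hφ).ord f : ℤ) : ZMod p) = 0 :=
      (ZMod.intCast_zmod_eq_zero_iff_dvd _ _).mpr (hoff _ h)
    push_cast
    rw [h0, mul_zero, zero_mul]

/-- **(E3-EIS), abstract**: `B (1/kk) = n • (1/kk)`. -/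
theorem s44he_B_eis [Fact p.Prime] (kk : ↥SS → ZMod p) (hkk : ∀ Q, kk Q ≠ 0) (n : ℕ)
    (hINV : ∀ w : Place K F', w.restrictAlong ψ hψ ∈ SS → w.restrictAlong φ hφ ∈ SS)
    (hRAM : ∀ (w : Place K F') (h : w.restrictAlong ψ hψ ∈ SS) (h' : w.restrictAlong φ hφ ∈ SS),
      ((w.ramificationIndexAlong φ : ℕ) : ZMod p) * kk ⟨_, h⟩ =
        ((w.ramificationIndexAlong ψ : ℕ) : ZMod p) * kk ⟨_, h'⟩)
    (hFI : ∀ Q : ↥SS, ∑ w ∈ Place.fiberAlong ψ hψ (Q : Place K F),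
      ((w.ramificationIndexAlong ψ : ℕ) : ZMod p) * ((w.inertiaDegAlong ψ hψ : ℕ) : ZMod p) =
        (n : ZMod p)) :
    s44he_B φ ψ hφ hψ p SS (fun Q => (kk Q)⁻¹) = (n : ZMod p) • fun Q => (kk Q)⁻¹ := by
  funext Q
  rw [s44he_B_apply, Pi.smul_apply, smul_eq_mul, ← hFI Q, Finset.sum_mul]
  refine Finset.sum_congr rfl fun w hw => ?_
  have hQ : w.restrictAlong ψ hψ = (Q : Place K F) := Place.mem_fiberAlong.mp hw
  have h : w.restrictAlong ψ hψ ∈ SS := by rw [hQ]; exact Q.2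
  have h' := hINV w h
  rw [s44he_ext_mem p SS _ h']
  have hR := hRAM w h h'
  have hQ' : (⟨w.restrictAlong ψ hψ, h⟩ : ↥SS) = Q := Subtype.ext hQ
  rw [hQ'] at hR
  have h1 := hkk Q
  have h2 := hkk ⟨w.restrictAlong φ hφ, h'⟩
  field_simp
  linear_combination ((w.inertiaDegAlong ψ hψ : ℕ) : ZMod p) * hR

/-- (FI) for `s44he_B_eis` from the prelude's fundamental identity, when all places have degree 1
(algebraically closed constant field). -/
theorem s44he_sum_e_f (hFI : FundamentalIdentityAlong K ψ hψ)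
    (hdeg : ∀ v : Place K F, v.deg = 1) (hdeg' : ∀ w : Place K F', w.deg = 1) (Q : Place K F) :
    ∑ w ∈ Place.fiberAlong ψ hψ Q,
      ((w.ramificationIndexAlong ψ : ℕ) : ZMod p) * ((w.inertiaDegAlong ψ hψ : ℕ) : ZMod p) =
        ((finrankAlong K ψ : ℕ) : ZMod p) := by
  letI := algebraAlong ψ
  haveI := isScalarTower_along ψ
  haveI := isIntegral_along ψ hψ
  haveI : FundamentalIdentity K F F' := hFI
  have h1 := FundamentalIdentity.sum_ramificationIndex_mul_deg (K := K) (F := F) (F' := F') Q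
  have hf : ∀ w : Place K F', w.inertiaDeg F = 1 := fun w => by
    have := w.deg_restrict_mul_inertiaDeg (F := F)
    rw [hdeg, hdeg', one_mul] at this
    exact this
  have h2 : ∑ w ∈ Place.fiber F' Q, ((w.ramificationIndex F : ℕ) : ℤ) * ((w.inertiaDeg F : ℕ) : ℤ)
      = (Module.finrank F F' : ℤ) := by
    rw [← mul_one (Module.finrank F F' : ℤ), ← Nat.cast_one, ← hdeg Q, ← h1]
    refine Finset.sum_congr rfl fun w _ => ?_
    rw [hf w, hdeg' w]
  have h3 := congrArg (Int.cast : ℤ → ZMod p) h2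
  push_cast at h3
  exact h3

end Fermat.Agent.S44

end
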