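/-
S44, cell [E3] HECKE-RES, leaf [E3-ABS-EIS] (helper21; prefix `s44he_`): `B_eis` FROM A HECKE-EIGEN
UNIT, ABSTRACTLY (Prelude vocabulary; any characteristic).  NO (INV), NO (RAM).

`φ, ψ : F → F'`, `T = ψ_* φ^*`, `SS` a set of places of `F`, `B = s44he_B φ ψ hφ hψ p SS` (AbsHK.lean).
* `s44he_ord_B'` : `s44he_ord_B` with the hypothesis "`p ∣ ord f` off `SS`" required ONLY at the places
  `w|_φ` with `w|_ψ ∈ SS` (in use: only at NON-CUSPIDAL places);
* `s44he_B_eis_of_unit` : if `ū ∈ F^×` satisfies `ord_Q (N_ψ (φ ū)) = n · ord_Q ū` on `SS`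
  (e.g. `N_ψ (φ ū) = ū ^ n`), `kk(Q) · ord_Q ū = c ≠ 0` on `SS`, and `p ∣ ord ū` at the places `w|_φ ∉ SS`
  with `w|_ψ ∈ SS`, then `B (1/kk) = n • (1/kk)`.

In use: `ū` = the `w_∞`-reduction of the modular unit `Δ(q)/Δ(q^p)` (`mza_UB p`), `n = ℓ + 1`
(`N_α (β u) = u^{ℓ+1}`: `nln_norm` + the eta-product identity), `c = 12`.
-/
import Mathlib
import Fermat.Agent.S44.HeckeRes.AbsHK

set_option autoImplicit false
set_option linter.style.haveILetI false
set_option linter.unusedSectionVars false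

noncomputable section

namespace Fermat.Agent.S44

open AlgebraicCurve Fermat.Agent.S35

universe u v w
variable {K : Type u} {F : Type v} {F' : Type w} [Field K] [Field F] [Field F'] [Algebra K F]
  [Algebra K F'] [HasPrincipalDivisors K F']
variable (φ ψ : F →ₐ[K] F') (hφ : φ.toRingHom.IsIntegral) (hψ : ψ.toRingHom.IsIntegral)
variable (p : ℕ) (SS : Set (Place K F))

/-- **(E3a), abstract, sharp form**: the hypothesis off `SS` is needed only at the places `w|_φ`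
with `w|_ψ ∈ SS`. -/
theorem s44he_ord_B' (hfin : FiniteAlong K ψ) (hN : NormFormulaAlong K ψ hfin) {f : F}
    (hf : f ≠ 0) {D : Divisor K F} (hD : ∀ v : Place K F, D v = v.ord f)
    (hoff : ∀ w : Place K F', w.restrictAlong ψ hψ ∈ SS → w.restrictAlong φ hφ ∉ SS →
      (p : ℤ) ∣ (w.restrictAlong φ hφ).ord f) (Q : ↥SS) :
    (((Q : Place K F).ord (s35pe_normAlong ψ (φ f)) : ℤ) : ZMod p) =
      s44he_B φ ψ hφ hψ p SS (fun Q' => (((Q' : Place K F).ord f : ℤ) : ZMod p)) Q := by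
  rw [s44hk_ord_corr_sum φ ψ hφ hψ hfin hN hf hD, s44he_B_apply, Int.cast_sum]
  refine Finset.sum_congr rfl fun w hw => ?_
  have hQ : w.restrictAlong ψ hψ = (Q : Place K F) := Place.mem_fiberAlong.mp hw
  by_cases h : w.restrictAlong φ hφ ∈ SS
  · rw [s44he_ext_mem p SS _ h]
    push_cast
    ring
  · rw [s44he_ext_not_mem p SS _ h, mul_zero]
    have h0 : (((w.restrictAlong φ hφ).ord f : ℤ) : ZMod p) = 0 :=
      (ZMod.intCast_zmod_eq_zero_iff_dvd _ _).mpr (hoff w (by rw [hQ]; exact Q.2) h)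
    push_cast
    rw [h0, mul_zero, zero_mul]

/-- **(E3-EIS) from a Hecke-eigen unit**: `B (1/kk) = n • (1/kk)`. -/
theorem s44he_B_eis_of_unit [Fact p.Prime] (hfin : FiniteAlong K ψ)
    (hN : NormFormulaAlong K ψ hfin) (kk : ↥SS → ZMod p) (n : ℕ) {ub : F} (hub : ub ≠ 0)
    {D : Divisor K F} (hD : ∀ v : Place K F, D v = v.ord ub)
    (hT : ∀ Q : ↥SS, (Q : Place K F).ord (s35pe_normAlong ψ (φ ub)) =
      (n : ℤ) * (Q : Place K F).ord ub)
    (c : ZMod p) (hc : c ≠ 0)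
    (hSS : ∀ Q : ↥SS, kk Q * (((Q : Place K F).ord ub : ℤ) : ZMod p) = c)
    (hoff : ∀ w : Place K F', w.restrictAlong ψ hψ ∈ SS → w.restrictAlong φ hφ ∉ SS →
      (p : ℤ) ∣ (w.restrictAlong φ hφ).ord ub) :
    s44he_B φ ψ hφ hψ p SS (fun Q => (kk Q)⁻¹) = (n : ZMod p) • fun Q => (kk Q)⁻¹ := by
  have hinv : ∀ Q : ↥SS, (kk Q)⁻¹ = c⁻¹ * (((Q : Place K F).ord ub : ℤ) : ZMod p) := by
    intro Q
    have h1 := hSS Q
    have hk : kk Q ≠ 0 := by
      intro h0
      rw [h0, zero_mul] at h1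
      exact hc h1.symm
    have ho : (((Q : Place K F).ord ub : ℤ) : ZMod p) ≠ 0 := by
      intro h0
      rw [h0, mul_zero] at h1
      exact hc h1.symm
    rw [← h1]
    field_simp
  have hfun : (fun Q : ↥SS => (kk Q)⁻¹) =
      fun Q : ↥SS => c⁻¹ * (((Q : Place K F).ord ub : ℤ) : ZMod p) := funext hinv
  funext Q
  rw [Pi.smul_apply, smul_eq_mul, hinv Q, hfun, s44he_B_apply]
  have h2 := s44he_ord_B' φ ψ hφ hψ p SS hfin hN hub hD hoff Q
  rw [s44he_B_apply, hT Q] at h2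
  -- pull the constant out of the sum
  have h3 : ∀ w : Place K F',
      s44he_ext p SS (fun Q : ↥SS => c⁻¹ * (((Q : Place K F).ord ub : ℤ) : ZMod p))
          (w.restrictAlong φ hφ) =
        c⁻¹ * s44he_ext p SS (fun Q : ↥SS => (((Q : Place K F).ord ub : ℤ) : ZMod p))
          (w.restrictAlong φ hφ) := by
    intro w
    by_cases h : w.restrictAlong φ hφ ∈ SS
    · rw [s44he_ext_mem p SS _ h, s44he_ext_mem p SS _ h]
    · rw [s44he_ext_not_mem p SS _ h, s44he_ext_not_mem p SS _ h, mul_zero]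
  simp only [h3]
  have h4 : ∀ w : Place K F',
      (((w.ramificationIndexAlong φ : ℕ) : ZMod p) * ((w.inertiaDegAlong ψ hψ : ℕ) : ZMod p)) *
          (c⁻¹ * s44he_ext p SS (fun Q : ↥SS => (((Q : Place K F).ord ub : ℤ) : ZMod p))
            (w.restrictAlong φ hφ)) =
        c⁻¹ * ((((w.ramificationIndexAlong φ : ℕ) : ZMod p) *
          ((w.inertiaDegAlong ψ hψ : ℕ) : ZMod p)) *
          s44he_ext p SS (fun Q : ↥SS => (((Q : Place K F).ord ub : ℤ) : ZMod p))
            (w.restrictAlong φ hφ)) := fun w => by ring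
  simp only [h4]
  rw [← Finset.mul_sum, ← h2]
  push_cast
  ring

end Fermat.Agent.S44

end
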