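/-
S44 cell [E3] HECKE-RES, the characteristic-zero instance of (E3-REP) (helper11; prefix `s44hr_`).

`heckeOperatorBar N ℓ` is the Prelude correspondence `α_* β^*` (pull back along
`β = heckeBetaBar` (`q ↦ q^ℓ`), push forward along `α = heckeAlphaBar` (the inclusion)).  Hence, if
`f` represents `z ∈ J₀(N)` in the sense of the frame (`s44f_Rep N p z f`: `div f = p D`, `[D] = z`),
then `N_α (β f)` represents `T_ℓ z`:

* `s44hr_rep_hecke` : `s44f_Rep N p z f → s44f_Rep N p (T_ℓ z) (N_α (β f))`.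

Instance of helper5's abstract `s44hk_rep_corr` (`HeckeRes/KumCorr.lean`) at the `hib_*` inputs of
`JT3/Hecke/InputsBar.lean`.
-/
import Fermat.Agent.S44.HeckeRes.KumCorr
import Fermat.Agent.S44.Frame
import Fermat.Agent.JT3.Hecke.InputsBar

set_option autoImplicit false
set_option linter.unusedSectionVars false
set_option linter.style.haveILetI false
set_option synthInstance.maxHeartbeats 400000
set_option maxHeartbeats 1000000

noncomputable section

namespace Fermat.Agent.S44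

open ModularCurve AlgebraicCurve Fermat.Agent.JT3 Fermat.Agent.S24 Fermat.Agent.S35

/-- the multiplicative Hecke operator on functions: `f ↦ N_α (β f)`. -/
def s44hr_T (N ℓ : ℕ) [NeZero N] [NeZero ℓ] (f : modularFunctionFieldBar N) :
    modularFunctionFieldBar N :=
  s35pe_normAlong (heckeAlphaBar (AlgebraicClosure ℚ) N ℓ)
    (heckeBetaBar (AlgebraicClosure ℚ) N ℓ f)

theorem s44hr_T_apply (N ℓ : ℕ) [NeZero N] [NeZero ℓ] (f : modularFunctionFieldBar N) :
    s44hr_T N ℓ f = s35pe_normAlong (heckeAlphaBar (AlgebraicClosure ℚ) N ℓ)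
      (heckeBetaBar (AlgebraicClosure ℚ) N ℓ f) := rfl

theorem s44hr_T_one (N ℓ : ℕ) [NeZero N] [NeZero ℓ] : s44hr_T N ℓ 1 = 1 := by
  rw [s44hr_T_apply, map_one, map_one]

theorem s44hr_T_mul (N ℓ : ℕ) [NeZero N] [NeZero ℓ] (f g : modularFunctionFieldBar N) :
    s44hr_T N ℓ (f * g) = s44hr_T N ℓ f * s44hr_T N ℓ g := by
  rw [s44hr_T_apply, map_mul, map_mul]
  rfl

theorem s44hr_T_pow (N ℓ : ℕ) [NeZero N] [NeZero ℓ] (f : modularFunctionFieldBar N) (n : ℕ) :
    s44hr_T N ℓ (f ^ n) = s44hr_T N ℓ f ^ n := by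
  rw [s44hr_T_apply, map_pow, map_pow]
  rfl

theorem s44hr_T_ne_zero (N ℓ : ℕ) [NeZero N] [NeZero ℓ] {f : modularFunctionFieldBar N}
    (hf : f ≠ 0) : s44hr_T N ℓ f ≠ 0 := by
  have hβf : heckeBetaBar (AlgebraicClosure ℚ) N ℓ f ≠ 0 := by
    rw [Ne, map_eq_zero]
    exact hf
  exact s44hk_normAlong_ne_zero _ (hib_finiteAlong_alpha N ℓ) hβf

/-- **(E3-REP), characteristic zero**: if `f` represents `z`, then `N_α (β f)` represents
`T_ℓ z`. -/
theorem s44hr_rep_hecke (N p : ℕ) [NeZero N] (ℓ : Nat.Primes) (z : JZero N)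
    (f : modularFunctionFieldBar N) (hf : s44f_Rep N p z f) :
    haveI : NeZero (ℓ : ℕ) := ⟨ℓ.2.ne_zero⟩
    s44f_Rep N p (heckeOperatorBar N ℓ z) (s44hr_T N ℓ f) := by
  haveI : NeZero (ℓ : ℕ) := ⟨ℓ.2.ne_zero⟩
  obtain ⟨hf0, D, hDz, hD⟩ := hf
  have e : heckeOperatorBar N ℓ z
      = heckePic0Bar (hib_alphaIntegral N ℓ) (hib_betaIntegral N ℓ)
          (hib_fundamentalIdentityAlong_beta N ℓ) (hib_finiteAlong_alpha N ℓ)
          (hib_normFormulaAlong_alpha N ℓ) z := by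
    show heckeOperatorAlong (AlgebraicClosure ℚ) N ℓ z = _
    rw [hib_heckeOperatorAlong_eq]
  obtain ⟨h1, h2, h3⟩ := s44hk_rep_corr (heckeBetaBar (AlgebraicClosure ℚ) N ℓ)
    (heckeAlphaBar (AlgebraicClosure ℚ) N ℓ) (hib_betaIntegral N ℓ) (hib_alphaIntegral N ℓ)
    (hib_fundamentalIdentityAlong_beta N ℓ) (hib_finiteAlong_alpha N ℓ)
    (hib_normFormulaAlong_alpha N ℓ) (m := (p : ℤ)) hf0 hDz hD
  refine ⟨h1, _, ?_, h3⟩
  rw [e, h2]
  rfl

end Fermat.Agent.S44
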