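/-
S44 cell [E3] HECKE-RES, assembly, part 1 (helper11; prefix `s44ha_`): THE PREDICATE
"`fb` IS THE REDUCTION OF A `w_∞`-UNIT REPRESENTATIVE OF `z`" AND ITS CALCULUS.

`A` over `p`, `p ∤ M`, `N = M p`, `kA` the residue field of `A`, `W∞ = s44pg_W A … N` the Gauss
valuation ring of `F̄_N`, `red = s44rd_red : W∞ →+* F_M(kA)` (helper28's residue dictionary).

* `s44ha_Red A hA M hpM z fb` : `∃ f`, `s44f_Rep N p z f` (`div f = p D`, `[D] = z`), `f ∈ W∞ˣ`,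
  `red f = fb`;
* `s44ha_red_exists`  : every `z ∈ J₀(N)[p]` has such an `fb`;
* `s44ha_red_ne_zero` : `fb ≠ 0`;
* `s44ha_red_unique`  : `fb` is well defined up to `kA^× · (F_M(kA)^×)^p`;
* `s44ha_red_zero`, `s44ha_red_mul`, `s44ha_red_inv`, `s44ha_red_pow` : additivity;
* `s44ha_ord_unique`  : `ord_Q fb mod p` does not depend on the choice of `fb`;
* `s44ha_red_hecke`   : **(★★)-glue** `Red z fb → Red (T_ℓ z) (N_ᾱ (β̄ fb))`, from the statement
  "`red` commutes with the norms along `α`, `ᾱ`" (= (E3-2), helper2's `NormBar`).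
-/
import Mathlib
import Fermat.Agent.S44.HeckeRes.RepHecke
import Fermat.Agent.S44.Res.DictMaps
import Fermat.Agent.S44.Bridge.Rep

set_option autoImplicit false
set_option linter.unusedSectionVars false
set_option linter.unusedVariables false
set_option linter.style.haveILetI false
set_option synthInstance.maxHeartbeats 400000
set_option maxHeartbeats 1000000

noncomputable section

namespace Fermat.Agent.S44

open ModularCurve AlgebraicCurve IntermediateField IsLocalRing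
open Fermat.Agent.JT3 Fermat.Agent.SS Fermat.Agent.S35 Fermat.Agent.S24 Fermat.Agent.S28
open Fermat.Agent.MZ

local notation "Qb" => AlgebraicClosure ℚ

theorem s44ha_field_aux1 {F : Type*} [Field F] (a f u : F) (n : ℕ) (hf : f ≠ 0) (hu : u ≠ 0) :
    a = a * f * u ^ n * f⁻¹ * (u⁻¹) ^ n := by
  have := pow_ne_zero n hu
  rw [inv_pow]
  field_simp

theorem s44ha_field_aux2 {F : Type*} [Field F] (a f u : F) (n : ℕ) (ha : a ≠ 0) (hf : f ≠ 0)
    (hu : u ≠ 0) : a⁻¹ = (a * f * u ^ n)⁻¹ * f * u ^ n := by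
  have := pow_ne_zero n hu
  field_simp

section Red

variable (A : ValuationSubring Qb) {p : ℕ} [hp : Fact p.Prime] (hA : A.LiesOverPrime p)
  (M : ℕ) [NeZero M] [NeZero p] (hpM : ¬ p ∣ M)

/-- `fb ∈ F_M(kA)` is the reduction of a `w_∞`-unit representative of `z ∈ J₀(M p)`. -/
def s44ha_Red (z : JZero (M * p))
    (fb : ↥(modularFunctionFieldFullC (ResidueField ↥A) M)) : Prop :=
  ∃ f : Fbar (M * p), s44f_Rep (M * p) p z f ∧
    ∃ h : f ∈ s44pg_W A hA hp.out.ne_zero (M * p),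
      f⁻¹ ∈ s44pg_W A hA hp.out.ne_zero (M * p) ∧ s44rd_red A hA M hpM ⟨f, h⟩ = fb

variable {A hA M hpM}

theorem s44ha_red_ne_zero {z : JZero (M * p)}
    {fb : ↥(modularFunctionFieldFullC (ResidueField ↥A) M)} (h : s44ha_Red A hA M hpM z fb) :
    fb ≠ 0 := by
  obtain ⟨f, hf, h1, h2, rfl⟩ := h
  exact (s44rd_red_ne_zero_iff A hA M hpM ⟨f, h1⟩).2 ⟨hf.1, h2⟩

variable (A hA M hpM)

/-- every `p`-torsion class has a `w_∞`-unit representative. -/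
theorem s44ha_red_exists {z : JZero (M * p)} (hz : p • z = 0) :
    ∃ fb, s44ha_Red A hA M hpM z fb := by
  obtain ⟨f, hf⟩ := s44b_rep_exists (M * p) hz
  obtain ⟨c, hc0, h1, h2⟩ := s44pg_nrm A hA hp.out.ne_zero (M * p) hf.1
  refine ⟨_, algebraMap Qb (Fbar (M * p)) c * f, ?_, h1, h2, rfl⟩
  have := (s44b_rep_pth (M * p) (p := p) (z := z) (f := f) hc0 (one_ne_zero (α := Fbar (M * p)))).2 hf
  rwa [one_pow, mul_one] at this

theorem s44ha_red_zero : s44ha_Red A hA M hpM 0 1 := by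
  refine ⟨1, s44b_rep_one (M * p), (s44pg_W A hA hp.out.ne_zero (M * p)).one_mem, ?_, ?_⟩
  · rw [inv_one]
    exact (s44pg_W A hA hp.out.ne_zero (M * p)).one_mem
  · exact map_one _

variable {A hA M hpM}

theorem s44ha_red_mul {z z' : JZero (M * p)}
    {fb fb' : ↥(modularFunctionFieldFullC (ResidueField ↥A) M)}
    (h : s44ha_Red A hA M hpM z fb) (h' : s44ha_Red A hA M hpM z' fb') :
    s44ha_Red A hA M hpM (z + z') (fb * fb') := by
  obtain ⟨f, hf, h1, h2, rfl⟩ := h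
  obtain ⟨f', hf', h1', h2', rfl⟩ := h'
  refine ⟨f * f', s44b_rep_mul (M * p) hf hf',
    (s44pg_W A hA hp.out.ne_zero (M * p)).mul_mem _ _ h1 h1', ?_, ?_⟩
  · rw [mul_inv]
    exact (s44pg_W A hA hp.out.ne_zero (M * p)).mul_mem _ _ h2 h2'
  · rw [← map_mul]
    rfl

theorem s44ha_red_inv {z : JZero (M * p)}
    {fb : ↥(modularFunctionFieldFullC (ResidueField ↥A) M)}
    (h : s44ha_Red A hA M hpM z fb) : s44ha_Red A hA M hpM (-z) fb⁻¹ := by
  obtain ⟨f, hf, h1, h2, rfl⟩ := h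
  refine ⟨f⁻¹, s44b_rep_inv (M * p) hf, h2, ?_, ?_⟩
  · rw [inv_inv]
    exact h1
  · have hmul : (⟨f, h1⟩ : ↥(s44pg_W A hA hp.out.ne_zero (M * p))) * ⟨f⁻¹, h2⟩ = 1 :=
      Subtype.ext (mul_inv_cancel₀ hf.1)
    have h3 := congrArg (s44rd_red A hA M hpM) hmul
    rw [map_mul, map_one] at h3
    exact eq_inv_of_mul_eq_one_right h3

theorem s44ha_red_pow {z : JZero (M * p)}
    {fb : ↥(modularFunctionFieldFullC (ResidueField ↥A) M)}
    (h : s44ha_Red A hA M hpM z fb) (n : ℕ) : s44ha_Red A hA M hpM (n • z) (fb ^ n) := by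
  induction n with
  | zero => rw [zero_nsmul, pow_zero]; exact s44ha_red_zero A hA M hpM
  | succ n ih => rw [succ_nsmul, pow_succ]; exact s44ha_red_mul ih h

/-- **well-definedness**: two reductions of `w_∞`-unit representatives of the same class differ by
a nonzero constant and a `p`-th power. -/
theorem s44ha_red_unique {z : JZero (M * p)}
    {fb fb' : ↥(modularFunctionFieldFullC (ResidueField ↥A) M)}
    (h : s44ha_Red A hA M hpM z fb) (h' : s44ha_Red A hA M hpM z fb') :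
    ∃ (κ : ResidueField ↥A) (g : ↥(modularFunctionFieldFullC (ResidueField ↥A) M)),
      κ ≠ 0 ∧ g ≠ 0 ∧
        fb' = algebraMap (ResidueField ↥A) ↥(modularFunctionFieldFullC (ResidueField ↥A) M) κ *
          fb * g ^ p := by
  obtain ⟨f, hf, h1, h2, rfl⟩ := h
  obtain ⟨f', hf', h1', h2', rfl⟩ := h'
  obtain ⟨c, t, hc0, ht0, e⟩ := s44b_rep_unique (M * p) hf hf'
  obtain ⟨c', hc'0, hu1, hu2⟩ := s44pg_nrm A hA hp.out.ne_zero (M * p) ht0
  set W := s44pg_W A hA hp.out.ne_zero (M * p) with hW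
  set u : Fbar (M * p) := algebraMap Qb (Fbar (M * p)) c' * t with hu
  have hu0 : u ≠ 0 := mul_ne_zero ((_root_.map_ne_zero _).2 hc'0) ht0
  -- the constant `d = c / c'^p`
  set d : Qb := c / c' ^ p with hd
  have hd0 : d ≠ 0 := div_ne_zero hc0 (pow_ne_zero _ hc'0)
  have e' : f' = algebraMap Qb (Fbar (M * p)) d * f * u ^ p := by
    rw [e, hu, hd, map_div₀, map_pow, mul_pow]
    have : algebraMap Qb (Fbar (M * p)) c' ≠ 0 := (_root_.map_ne_zero _).2 hc'0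
    field_simp
  have hdW : algebraMap Qb (Fbar (M * p)) d ∈ W := by
    have : algebraMap Qb (Fbar (M * p)) d = f' * f⁻¹ * (u⁻¹) ^ p := by
      rw [e']
      exact s44ha_field_aux1 _ _ _ p hf.1 hu0
    rw [this]
    exact W.mul_mem _ _ (W.mul_mem _ _ h1' h2) (W.pow_mem hu2 p)
  have hdW' : (algebraMap Qb (Fbar (M * p)) d)⁻¹ ∈ W := by
    have : (algebraMap Qb (Fbar (M * p)) d)⁻¹ = f'⁻¹ * f * u ^ p := by
      rw [e']
      exact s44ha_field_aux2 _ _ _ p ((_root_.map_ne_zero _).2 hd0) hf.1 hu0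
    rw [this]
    exact W.mul_mem _ _ (W.mul_mem _ _ h2' h1) (W.pow_mem hu1 p)
  have hdA : d ∈ A := (s44pg_const A hA hp.out.ne_zero (M * p) d).1 hdW
  have hdA' : d⁻¹ ∈ A := by
    rw [← map_inv₀] at hdW'
    exact (s44pg_const A hA hp.out.ne_zero (M * p) d⁻¹).1 hdW'
  refine ⟨residue ↥A ⟨d, hdA⟩, s44rd_red A hA M hpM ⟨u, hu1⟩, ?_, ?_, ?_⟩
  · intro h0
    have hunit : IsUnit (⟨d, hdA⟩ : ↥A) := by
      refine IsUnit.of_mul_eq_one ⟨d⁻¹, hdA'⟩ (Subtype.ext ?_)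
      show d * d⁻¹ = 1
      exact mul_inv_cancel₀ hd0
    exact ((residue_eq_zero_iff _).1 h0) hunit
  · exact (s44rd_red_ne_zero_iff A hA M hpM ⟨u, hu1⟩).2 ⟨hu0, hu2⟩
  · rw [← s44rd_red_const A hA M hpM ⟨d, hdA⟩, ← map_pow, ← map_mul, ← map_mul]
    congr 1
    exact Subtype.ext e'

/-- the order of `fb` at a place, mod `p`, depends on `z` only. -/
theorem s44ha_ord_unique {z : JZero (M * p)}
    {fb fb' : ↥(modularFunctionFieldFullC (ResidueField ↥A) M)}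
    (h : s44ha_Red A hA M hpM z fb) (h' : s44ha_Red A hA M hpM z fb')
    (Q : Place (ResidueField ↥A) ↥(modularFunctionFieldFullC (ResidueField ↥A) M)) :
    ((Q.ord fb' : ℤ) : ZMod p) = ((Q.ord fb : ℤ) : ZMod p) := by
  obtain ⟨κ, g, hκ, hg, e⟩ := s44ha_red_unique h h'
  have hfb := s44ha_red_ne_zero h
  have hκ' : algebraMap (ResidueField ↥A) ↥(modularFunctionFieldFullC (ResidueField ↥A) M) κ ≠ 0 :=
    (_root_.map_ne_zero _).2 hκ
  rw [e, Q.ord_mul (mul_ne_zero hκ' hfb) (pow_ne_zero _ hg), Q.ord_mul hκ' hfb,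
    hw_ord_algebraMap, zero_add, jt_ord_pow]
  push_cast
  rw [ZMod.natCast_self, zero_mul, add_zero]

end Red

/-! ### the (★★)-glue -/

section Hecke

variable (A : ValuationSubring Qb) {p : ℕ} [hp : Fact p.Prime] (hA : A.LiesOverPrime p)
  (M : ℕ) [NeZero M] [NeZero p] (hpM : ¬ p ∣ M) (ℓ : ℕ) [NeZero ℓ] (hpMℓ : ¬ p ∣ M * ℓ)

/-- the statement **(E3-2)** at the level `N = M p`: the residue map commutes with the norms along
`α : F̄_N → F̄_{N ℓ}` and `ᾱ : F_M(kA) → F_{M ℓ}(kA)`. -/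
def s44ha_NormRed_stmt : Prop :=
  ∀ g : ↥(s44pg_W A hA hp.out.ne_zero (M * p * ℓ)),
    ∃ h : s35pe_normAlong (heckeAlphaBar Qb (M * p) ℓ) (g : Fbar (M * p * ℓ)) ∈
        s44pg_W A hA hp.out.ne_zero (M * p),
      s44rd_red A hA M hpM ⟨_, h⟩ =
        s35pe_normAlong (mzrh_alC (ResidueField ↥A) M ℓ)
          (s44rd_redG A hA (s44rd_level_mul (rfl : M * p = M * p) ℓ) hpMℓ g)

variable {A hA M hpM}

/-- **(★★)-glue**: if `fb` is the reduction of a `w_∞`-unit representative of `z`, then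
`N_ᾱ (β̄ fb)` is the reduction of a `w_∞`-unit representative of `T_ℓ z`. -/
theorem s44ha_red_hecke (ℓ : Nat.Primes) (hpℓ : ¬ p ∣ (ℓ : ℕ))
    (hnorm : haveI : NeZero (ℓ : ℕ) := ⟨ℓ.2.ne_zero⟩
      s44ha_NormRed_stmt A hA M hpM (ℓ : ℕ) (mzrh_not_dvd_mul M (ℓ : ℕ) hpM hpℓ))
    {z : JZero (M * p)} {fb : ↥(modularFunctionFieldFullC (ResidueField ↥A) M)}
    (h : s44ha_Red A hA M hpM z fb) :
    haveI : NeZero (ℓ : ℕ) := ⟨ℓ.2.ne_zero⟩
    s44ha_Red A hA M hpM (heckeOperatorBar (M * p) ℓ z)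
      (s35pe_normAlong (mzrh_alC (ResidueField ↥A) M ℓ)
        (mzrh_beC (ResidueField ↥A) M ℓ fb)) := by
  haveI : NeZero (ℓ : ℕ) := ⟨ℓ.2.ne_zero⟩
  haveI := jcr_charP A hA
  haveI := jcr_isAlgClosed A
  have hpMℓ : ¬ p ∣ M * (ℓ : ℕ) := mzrh_not_dvd_mul M (ℓ : ℕ) hpM hpℓ
  obtain ⟨f, hf, h1, h2, rfl⟩ := h
  -- `β f` is a unit of `W∞(N ℓ)`
  have hβ1 : heckeBetaBar Qb (M * p) ℓ f ∈ s44pg_W A hA hp.out.ne_zero (M * p * ℓ) :=
    (s44rd_beta_mem_iff A hA (ℓ : ℕ) f).2 h1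
  have hβ2 : (heckeBetaBar Qb (M * p) ℓ f)⁻¹ ∈ s44pg_W A hA hp.out.ne_zero (M * p * ℓ) := by
    rw [← map_inv₀]
    exact (s44rd_beta_mem_iff A hA (ℓ : ℕ) f⁻¹).2 h2
  have hβ0 : heckeBetaBar Qb (M * p) ℓ f ≠ 0 := by
    rw [Ne, map_eq_zero]
    exact hf.1
  -- its reduction is `β̄ (red f)`
  have hredβ : s44rd_redG A hA (s44rd_level_mul (rfl : M * p = M * p) (ℓ : ℕ)) hpMℓ
      ⟨heckeBetaBar Qb (M * p) ℓ f, hβ1⟩ =
      mzrh_beC (ResidueField ↥A) M ℓ (s44rd_red A hA M hpM ⟨f, h1⟩) := by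
    rw [← s44rd_redG_eq_red]
    exact s44rd_red_beta A hA (rfl : M * p = M * p) hpM (ℓ : ℕ) hpMℓ ⟨f, h1⟩
  obtain ⟨hn, hnred⟩ := hnorm ⟨heckeBetaBar Qb (M * p) ℓ f, hβ1⟩
  rw [hredβ] at hnred
  -- the norm of a nonzero element is nonzero
  have hfb0 : s44rd_red A hA M hpM ⟨f, h1⟩ ≠ 0 :=
    (s44rd_red_ne_zero_iff A hA M hpM ⟨f, h1⟩).2 ⟨hf.1, h2⟩
  have hβfb0 : mzrh_beC (ResidueField ↥A) M ℓ (s44rd_red A hA M hpM ⟨f, h1⟩) ≠ 0 := by
    rw [Ne, map_eq_zero]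
    exact hfb0
  haveI := mzrh_hasPrincipalDivisorsC (k := ResidueField ↥A) M (ℓ : ℕ) (jcr_rho A hA) hpM hpℓ
  have hN0 : s35pe_normAlong (mzrh_alC (ResidueField ↥A) M ℓ)
      (mzrh_beC (ResidueField ↥A) M ℓ (s44rd_red A hA M hpM ⟨f, h1⟩)) ≠ 0 :=
    s44hk_normAlong_ne_zero _ (mzrh_finiteAlong_alC M (ℓ : ℕ) (jcr_rho A hA) hpM hpℓ) hβfb0
  have hunit := (s44rd_red_ne_zero_iff A hA M hpM ⟨_, hn⟩).1 (by rw [hnred]; exact hN0)
  exact ⟨s44hr_T (M * p) ℓ f, s44hr_rep_hecke (M * p) p ℓ z f hf, hn, hunit.2, hnred⟩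

end Hecke

end Fermat.Agent.S44
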