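/-
S44 / [E3] HECKE-RES / cell (E3-DEG), the LOWER bound (helper2, second of helper17):

* `s44hx_natDegree_Phi` : the modular polynomial `Φ_d` of S28 (`vx_Phi d p`, `p ∤ d`) has degree
  `ψ(d) = [SL₂(ℤ) : Γ₀(d)]` in `X`;
* `s44hx_low`           : over every algebraically closed field `k` of characteristic `p ∤ d`,
  `ψ(d) ≤ [F̃_d(k) : k(j̃)]`  (`F̃_d(k) = modularFunctionFieldFullC k d`).

Route: `Φ_d(j, j_d) = 0` over `ℚ` gives `ψ(d) ≤ deg Φ_d` (independence of `1, …, j_d^(ψ-1)` over
`ℚ[j]`, `bd_polyIndep_rat`); the independence of `1, …, j̃_d^(deg Φ - 1)` over `𝔽_p[j̃]`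
(`vx_polyIndep_zmod`, Igusa) lifts to `ℤ[j]` by `p`-adic descent (`bd_ker_of_polyIndep`) and then
to `ℚ[j]` by clearing denominators, so `deg Φ_d ≤ ψ(d)` (`ssm_al_not_polyIndep`).  In
characteristic `p` the minimal polynomial of `j̃_d` over `k(j̃)` is `Φ̄_d` (`vx_minpoly`).
Prefix `s44hx_`.
-/
import Mathlib
import Fermat.Agent.JT3.Export.S28Sep
import Fermat.Agent.SS.Model.ALDeg
import Fermat.Agent.S28.Bridge.Kernel

set_option autoImplicit false
set_option linter.unusedSectionVars false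
set_option linter.style.haveILetI false

noncomputable section

namespace Fermat.Agent.S44

open Polynomial ModularCurve IntermediateField Fermat.Agent.S28 Fermat.Agent.JT3 Fermat.Agent.SS
open Fermat.Agent.S24

/-! ### from `𝔽_p` to `ℤ` -/

section Descent

variable {R k : Type*} [CommRing R] [IsDomain R] [Field k]

/-- `p`-adic descent: independence mod `l` gives divisibility of every relation by every power of
`l`. -/
theorem s44hx_dvd_pow (f : R →+* k) (l : R) (hl : l ≠ 0)
    (hker : ∀ r, f r = 0 ↔ ∃ r', r = l * r')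
    {x y : LaurentSeries R} {n : ℕ}
    (hind : bd_PolyIndep k (coeffMap f x) (coeffMap f y) n) (m : ℕ) :
    ∀ a : Fin n → R[X], (∑ i, aeval x (a i) * y ^ (i : ℕ) = 0) →
      ∀ i, C (l ^ m) ∣ a i := by
  induction m with
  | zero =>
    intro a _ i
    rw [pow_zero, map_one]
    exact one_dvd _
  | succ m ih =>
    intro a ha i
    obtain ⟨a', ha'⟩ := bd_ker_of_polyIndep f l hker hind a (by rw [ha, map_zero])
    have hrel : ∑ i, aeval x (a' i) * y ^ (i : ℕ) = 0 := by
      have h1 : HahnSeries.C l * ∑ i, aeval x (a' i) * y ^ (i : ℕ) = 0 := by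
        rw [Finset.mul_sum, ← ha]
        refine Finset.sum_congr rfl fun i _ => ?_
        rw [ha' i, map_mul, aeval_C, bd_algebraMap_eq_C, mul_assoc]
      rcases mul_eq_zero.mp h1 with h | h
      · exfalso
        apply hl
        have := congrArg (fun z : LaurentSeries R => z.coeff 0) h
        simpa [HahnSeries.C_apply] using this
      · exact h
    obtain ⟨b, hb⟩ := ih a' hrel i
    refine ⟨b, ?_⟩
    rw [ha' i, hb, pow_succ, map_mul]
    ring

end Descent

/-! ### independence over `ℤ[j]` and over `ℚ[j]` -/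

section IntRat

/-- an integer divisible by all powers of `p ≥ 2` is zero -/
theorem s44hx_int_eq_zero {p : ℕ} (hp : 2 ≤ p) {c : ℤ} (h : ∀ m : ℕ, ((p : ℤ) ^ m) ∣ c) :
    c = 0 := by
  refine Int.eq_zero_of_abs_lt_dvd (h c.natAbs) ?_
  have h1 : c.natAbs < p ^ c.natAbs := Nat.lt_pow_self hp
  have h2 : |c| = (c.natAbs : ℤ) := Int.abs_eq_natAbs c
  rw [h2]
  exact_mod_cast h1

/-- **independence mod `p` lifts to `ℤ`** -/
theorem s44hx_polyIndep_int (p : ℕ) [hp : Fact p.Prime] {x y : LaurentSeries ℤ} {n : ℕ}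
    (hind : bd_PolyIndep (ZMod p) (coeffMap (Int.castRingHom (ZMod p)) x)
      (coeffMap (Int.castRingHom (ZMod p)) y) n) :
    bd_PolyIndep ℤ x y n := by
  intro a ha
  have hker : ∀ r : ℤ, Int.castRingHom (ZMod p) r = 0 ↔ ∃ r', r = (p : ℤ) * r' := by
    intro r
    rw [eq_intCast, ZMod.intCast_zmod_eq_zero_iff_dvd]
    exact Iff.rfl
  have hp0 : (p : ℤ) ≠ 0 := by exact_mod_cast hp.out.ne_zero
  funext i
  rw [Pi.zero_apply]
  ext j
  rw [coeff_zero]
  refine s44hx_int_eq_zero hp.out.two_le fun m => ?_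
  have h1 := s44hx_dvd_pow (Int.castRingHom (ZMod p)) (p : ℤ) hp0 hker hind m a ha i
  exact (C_dvd_iff_dvd_coeff _ _).mp h1 j

/-- **independence over `ℤ[x]` gives independence over `ℚ[x]`** (clearing denominators) -/
theorem s44hx_polyIndep_rat {x y : LaurentSeries ℤ} {n : ℕ} (hind : bd_PolyIndep ℤ x y n) :
    bd_PolyIndep ℚ (coeffMap (Int.castRingHom ℚ) x) (coeffMap (Int.castRingHom ℚ) y) n := by
  classical
  intro a ha
  -- clear the denominators of each `a i`
  have h1 : ∀ i, ∃ b : nonZeroDivisors ℤ,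
      (IsLocalization.integerNormalization (nonZeroDivisors ℤ) (a i)).map (algebraMap ℤ ℚ)
        = (b : ℤ) • a i := fun i =>
    IsLocalization.integerNormalization_map_to_map (nonZeroDivisors ℤ) (a i)
  choose b hb using h1
  -- the common multiple
  set a' : Fin n → ℤ[X] := fun i =>
    C (∏ j ∈ Finset.univ.erase i, (b j : ℤ)) *
      IsLocalization.integerNormalization (nonZeroDivisors ℤ) (a i) with ha'
  set B : ℤ := ∏ j, (b j : ℤ) with hB
  have hB0 : B ≠ 0 := Finset.prod_ne_zero_iff.mpr fun j _ => nonZeroDivisors.coe_ne_zero (b j)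
  have hmap : ∀ i, (a' i).map (Int.castRingHom ℚ) = C (B : ℚ) * a i := by
    intro i
    have e : algebraMap ℤ ℚ = Int.castRingHom ℚ := rfl
    rw [ha']
    simp only
    rw [Polynomial.map_mul, Polynomial.map_C, ← e, hb i, hB,
      ← Finset.mul_prod_erase Finset.univ (fun j => (b j : ℤ)) (Finset.mem_univ i)]
    rw [zsmul_eq_mul, e, eq_intCast, Int.cast_mul, Polynomial.C_mul, ← Polynomial.C_eq_intCast]
    ring
  have hrel : ∑ i, aeval x (a' i) * y ^ (i : ℕ) = 0 := by
    apply bd_coeffMap_injective (f := Int.castRingHom ℚ) Int.cast_injective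
    rw [map_zero, map_sum]
    have h2 : ∀ i, coeffMap (Int.castRingHom ℚ) (aeval x (a' i) * y ^ (i : ℕ))
        = HahnSeries.C (B : ℚ) * (aeval (coeffMap (Int.castRingHom ℚ) x) (a i) *
            coeffMap (Int.castRingHom ℚ) y ^ (i : ℕ)) := by
      intro i
      rw [map_mul, map_pow, bd_coeffMap_aeval, hmap i, map_mul, aeval_C, bd_algebraMap_eq_C,
        mul_assoc]
    rw [Finset.sum_congr rfl fun i _ => h2 i, ← Finset.mul_sum, ha, mul_zero]
  have h0 := hind a' hrel
  funext i
  rw [Pi.zero_apply]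
  have h3 : (a' i).map (Int.castRingHom ℚ) = 0 := by
    rw [congrFun h0 i, Pi.zero_apply, Polynomial.map_zero]
  rw [hmap i] at h3
  rcases mul_eq_zero.mp h3 with h | h
  · exfalso
    rw [C_eq_zero] at h
    exact hB0 (by exact_mod_cast h)
  · exact h

end IntRat

/-! ### the degree of the modular polynomial -/

section Degree

variable (d p : ℕ) [NeZero d] [hp : Fact p.Prime] (hpd : ¬ p ∣ d)

theorem s44hx_coeffMap_int_jq {S : Type*} [CommRing S] :
    coeffMap (Int.castRingHom S) (jqModC ℤ) = jqModC S := coeffMap_jqModC _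

theorem s44hx_coeffMap_int_jqN {S : Type*} [CommRing S] :
    coeffMap (Int.castRingHom S) (qExpand ℤ d (jqModC ℤ)) = qExpand S d (jqModC S) := by
  rw [coeffMap_qExpand, s44hx_coeffMap_int_jq]

/-- `1, j_d, …, j_d^(deg Φ_d - 1)` are independent over `ℚ[j]` -/
theorem s44hx_polyIndep_Phi_rat :
    bd_PolyIndep ℚ (jqModC ℚ) (qExpand ℚ d (jqModC ℚ)) (vx_Phi d p hpd).natDegree := by
  have h1 : bd_PolyIndep ℤ (jqModC ℤ) (qExpand ℤ d (jqModC ℤ)) (vx_Phi d p hpd).natDegree := by
    apply s44hx_polyIndep_int p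
    rw [s44hx_coeffMap_int_jq, s44hx_coeffMap_int_jqN]
    exact vx_polyIndep_zmod d p hpd
  have h2 := s44hx_polyIndep_rat h1
  rwa [s44hx_coeffMap_int_jq, s44hx_coeffMap_int_jqN] at h2

/-- **`deg_X Φ_d = ψ(d)`** (index form) -/
theorem s44hx_natDegree_Phi_card :
    (vx_Phi d p hpd).natDegree = Nat.card (Comb.Q d) := by
  apply le_antisymm
  · by_contra hlt
    push Not at hlt
    exact ssm_al_not_polyIndep ℚ d
      (bd_polyIndep_mono (Nat.succ_le_of_lt hlt) (s44hx_polyIndep_Phi_rat d p hpd))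
  · -- `j_d` is a root of the monic `Φ_d(j, X)` of degree `deg Φ_d` over `ℚ(j)`
    set ρ : ↥(GaloisRep.ratLocalizedAt p) →+* ℚ := algebraMap _ ℚ with hρ
    have hint : IsIntegral ↥(ℚ⟮jqModC ℚ⟯) (qExpand ℚ d (jqModC ℚ)) := vx_isIntegral d p hpd ρ
    have hdvd := minpoly.dvd ↥(ℚ⟮jqModC ℚ⟯) (qExpand ℚ d (jqModC ℚ)) (vx_PhiK_aeval d p hpd ρ)
    have h1 := Polynomial.natDegree_le_of_dvd hdvd (vx_PhiK_monic d p hpd ρ).ne_zero
    rw [vx_PhiK_natDegree, ssm_al_natDegree_minpoly ℚ d] at h1
    exact h1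

/-- **`deg_X Φ_d = ψ(d)`** -/
theorem s44hx_natDegree_Phi : (vx_Phi d p hpd).natDegree = dedekindPsi d := by
  rw [s44hx_natDegree_Phi_card, Comb.card_quotient_Gamma0]

end Degree

/-! ### the lower bound in characteristic `p` -/

section Low

variable (p : ℕ) [hp : Fact p.Prime] (k : Type*) [Field k] [CharP k p] (d : ℕ) [NeZero d]

theorem s44hx_j_le : k⟮jqModC k⟯ ≤ modularFunctionFieldFullC k d :=
  IntermediateField.adjoin_simple_le_iff.mpr (jqModC_mem_full k d)

/-- `F̃_d(k)` over `k(j̃)` is generated by the `j̃(q^e)`, `e ∣ d` -/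
theorem s44hx_extendScalars_eq :
    IntermediateField.extendScalars (s44hx_j_le k d) =
      IntermediateField.adjoin ↥(k⟮jqModC k⟯) (divisorExpansionsC k d) := by
  apply IntermediateField.restrictScalars_injective k
  rw [IntermediateField.extendScalars_restrictScalars, IntermediateField.adjoin_adjoin_left,
    modularFunctionFieldFullC]
  congr 1
  apply Set.eq_of_subset_of_subset
  · exact Set.subset_union_right
  · apply Set.union_subset _ le_rfl
    rintro x rfl
    have := mem_divisorExpansionsC k d (one_dvd d)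
    rwa [qExpand_one_apply] at this

include hp in
/-- `F̃_d(k)` is finite over `k(j̃)` in characteristic `p ∤ d` -/
theorem s44hx_finiteDimensional (hpd : ¬ p ∣ d) :
    FiniteDimensional ↥(k⟮jqModC k⟯) (IntermediateField.extendScalars (s44hx_j_le k d)) := by
  rw [s44hx_extendScalars_eq]
  haveI : Finite (divisorExpansionsC k d) := (jcr_finite_gens (k := k) d).to_subtype
  apply IntermediateField.finiteDimensional_adjoin
  rintro x ⟨e, hne, he, rfl⟩
  haveI := hne
  have hpe : ¬ p ∣ e := fun h => hpd (h.trans he)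
  exact vx_isIntegral e p hpe (vx_rho p k)

include hp in
/-- **(E3-DEG), lower bound**: `ψ(d) ≤ [F̃_d(k) : k(j̃)]` in characteristic `p ∤ d` (index form). -/
theorem s44hx_low_card (hpd : ¬ p ∣ d) :
    Nat.card (Comb.Q d) ≤
      IntermediateField.relfinrank k⟮jqModC k⟯ (modularFunctionFieldFullC k d) := by
  rw [IntermediateField.relfinrank_eq_finrank_of_le (s44hx_j_le k d)]
  haveI := s44hx_finiteDimensional p k d hpd
  have hint : IsIntegral ↥(k⟮jqModC k⟯) (qExpand k d (jqModC k)) :=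
    vx_isIntegral d p hpd (vx_rho p k)
  have hle : (k⟮jqModC k⟯)⟮qExpand k d (jqModC k)⟯ ≤
      IntermediateField.extendScalars (s44hx_j_le k d) := by
    rw [IntermediateField.adjoin_simple_le_iff, IntermediateField.mem_extendScalars]
    exact jqModCd_mem_full k d dvd_rfl
  have h1 := IntermediateField.finrank_le_of_le_right hle
  rw [IntermediateField.adjoin.finrank hint, vx_minpoly d p hpd (vx_rho p k), vx_PhiK_natDegree,
    s44hx_natDegree_Phi_card] at h1
  exact h1

include hp in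
/-- **(E3-DEG), lower bound**: `ψ(d) ≤ [F̃_d(k) : k(j̃)]` in characteristic `p ∤ d`. -/
theorem s44hx_low (hpd : ¬ p ∣ d) :
    dedekindPsi d ≤
      IntermediateField.relfinrank k⟮jqModC k⟯ (modularFunctionFieldFullC k d) := by
  rw [← Comb.card_quotient_Gamma0]
  exact s44hx_low_card p k d hpd

end Low

end Fermat.Agent.S44
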