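/-
S44, cell [E3] HECKE-RES, sub-cell (E3-DEG), ASSEMBLY (helper17; prefix `s44hd_`).

`A` a valuation subring of `ℚ̄` over `p`, `kA` its residue field, `ℓ ∤ M` a prime, `p ∤ M ℓ`.

* `s44hd_finrank_alC` : `finrankAlong kA (mzrh_alC kA M ℓ) = ℓ + 1`
  (= helper28's `s44rg_relfinrank` + helper2's `s44hx_natDegree_Phi`; `mzrh_alC` is the inclusion);
* `s44hd_FI_alC_gen`  : `FundamentalIdentityAlong k (mzrh_alC k N l')` over any algebraically closed
  field `k` of characteristic `p ∤ N l'` (the twin of `mzrh_fundamentalIdentityAlong_beC`);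
* `s44hd_FI_alC`, `s44hd_FI_beC`, `s44hd_heckeInputsC` : the same for `kA` (no `ρ` to supply);
* `s44hd_finrank_beC_pos`, … small companions.
-/
import Mathlib
import Fermat.Agent.S44.Res.GenP
import Fermat.Agent.S44.HeckeRes.DegLow
import Fermat.Agent.MZ.RH.TowerModL
import Fermat.Agent.S35.PEquiv.NormAlong

set_option autoImplicit false
set_option linter.unusedSectionVars false
set_option linter.unusedVariables false
set_option linter.style.haveILetI false

noncomputable section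

namespace Fermat.Agent.S44

open ModularCurve AlgebraicCurve IsLocalRing IntermediateField
open Fermat.Agent.JT3 Fermat.Agent.S24 Fermat.Agent.S35 Fermat.Agent.MZ

local notation "Qb" => AlgebraicClosure ℚ

/-! ### the fundamental identity along `α̃` (any algebraically closed `k` of char `p ∤ N l'`) -/

section FI

variable {k : Type*} [Field k] (N l' : ℕ) [NeZero N] [NeZero l']
  {p : ℕ} [hp : Fact p.Prime] [CharP k p] [IsAlgClosed k]
  (ρ : ↥(GaloisRep.ratLocalizedAt p) →+* k) (hpN : ¬ p ∣ N) (hpl : ¬ p ∣ l')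

include ρ hpN hpl in
/-- **The fundamental identity along `α̃`.** -/
theorem s44hd_FI_alC_gen
    [HasPrincipalDivisors k (modularFunctionFieldFullC k (N * l'))] :
    FundamentalIdentityAlong k (mzrh_alC k N l') (mzrh_alC_isIntegral N l' ρ hpN hpl) := by
  haveI : FiniteDimensional k⟮jcr_j (k := k) N⟯ (modularFunctionFieldFullC k N) :=
    (jcr_isSepGen (k := k) N hpN ρ).2.1
  haveI : FiniteDimensional k⟮jcr_j (k := k) (N * l')⟯ (modularFunctionFieldFullC k (N * l')) :=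
    (mzrh_sepGenC N l' ρ hpN hpl).2.1
  haveI : Algebra.IsAlgebraic k⟮jcr_j (k := k) N⟯ (modularFunctionFieldFullC k N) :=
    Algebra.IsAlgebraic.of_finite _ _
  haveI : Algebra.IsAlgebraic k⟮jcr_j (k := k) (N * l')⟯
      (modularFunctionFieldFullC k (N * l')) := Algebra.IsAlgebraic.of_finite _ _
  exact ptw_fundamentalIdentityAlong _ _ (mzrh_finiteAlong_alC N l' ρ hpN hpl)
    (mzrh_separableAlong_alC N l' ρ hpN hpl) (jcr_j (k := k) N) (jcr_j (k := k) (N * l'))

end FI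

/-! ### the residue field of a place of `ℚ̄` over `p` -/

section kA

variable (A : ValuationSubring Qb) {p : ℕ} [hp : Fact p.Prime] (hA : A.LiesOverPrime p)
  (M ℓ : ℕ) [NeZero M] [NeZero ℓ]

include hA in
/-- **(E3-DEG)(b): `[F̃_{M ℓ}(kA) : α̃ F̃_M(kA)] = ℓ + 1`** in characteristic `p ∤ M ℓ`. -/
theorem s44hd_finrank_alC (hℓ : ℓ.Prime) (hℓM : ¬ ℓ ∣ M) (hpM : ¬ p ∣ M) (hpMℓ : ¬ p ∣ M * ℓ) :
    finrankAlong (ResidueField ↥A) (mzrh_alC (ResidueField ↥A) M ℓ) = ℓ + 1 := by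
  rw [mzrh_alC, s35pe_finrankAlong_inclusion]
  exact s44rg_relfinrank A hA M ℓ hℓ hℓM hpM hpMℓ (s44hx_natDegree_Phi M p hpM)
    (s44hx_natDegree_Phi (M * ℓ) p hpMℓ)

include hA in
theorem s44hd_finrank_alC_pos (hℓ : ℓ.Prime) (hℓM : ¬ ℓ ∣ M) (hpM : ¬ p ∣ M)
    (hpMℓ : ¬ p ∣ M * ℓ) :
    0 < finrankAlong (ResidueField ↥A) (mzrh_alC (ResidueField ↥A) M ℓ) := by
  rw [s44hd_finrank_alC A hA M ℓ hℓ hℓM hpM hpMℓ]
  exact Nat.succ_pos _

include hA in
/-- the Hecke inputs on the special fibre, for `kA` (no `ρ` to supply). -/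
theorem s44hd_heckeInputsC (hpM : ¬ p ∣ M) (hpℓ : ¬ p ∣ ℓ) :
    mzrh_HeckeInputsC (ResidueField ↥A) M ℓ := by
  haveI : CharP (ResidueField ↥A) p := jcr_charP A hA
  haveI : IsAlgClosed (ResidueField ↥A) := jcr_isAlgClosed A
  exact mzrh_heckeInputsC (k := ResidueField ↥A) M ℓ (vx_rho p (ResidueField ↥A)) hpM hpℓ

include hA in
theorem s44hd_alC_isIntegral (hpM : ¬ p ∣ M) (hpℓ : ¬ p ∣ ℓ) :
    (mzrh_alC (ResidueField ↥A) M ℓ).toRingHom.IsIntegral := by
  haveI : CharP (ResidueField ↥A) p := jcr_charP A hA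
  haveI : IsAlgClosed (ResidueField ↥A) := jcr_isAlgClosed A
  exact mzrh_alC_isIntegral M ℓ (vx_rho p (ResidueField ↥A)) hpM hpℓ

include hA in
theorem s44hd_hasPrincipalDivisorsC (hpM : ¬ p ∣ M) (hpℓ : ¬ p ∣ ℓ) :
    HasPrincipalDivisors (ResidueField ↥A)
      (modularFunctionFieldFullC (ResidueField ↥A) (M * ℓ)) := by
  haveI : CharP (ResidueField ↥A) p := jcr_charP A hA
  haveI : IsAlgClosed (ResidueField ↥A) := jcr_isAlgClosed A
  exact mzrh_hasPrincipalDivisorsC (k := ResidueField ↥A) M ℓ (vx_rho p (ResidueField ↥A)) hpM hpℓ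

include hA in
/-- **The fundamental identity along `α̃`** over `kA`, for ANY proof of integrality. -/
theorem s44hd_FI_alC (hpM : ¬ p ∣ M) (hpℓ : ¬ p ∣ ℓ)
    [HasPrincipalDivisors (ResidueField ↥A)
      (modularFunctionFieldFullC (ResidueField ↥A) (M * ℓ))]
    (hα : (mzrh_alC (ResidueField ↥A) M ℓ).toRingHom.IsIntegral) :
    FundamentalIdentityAlong (ResidueField ↥A) (mzrh_alC (ResidueField ↥A) M ℓ) hα := by
  haveI : CharP (ResidueField ↥A) p := jcr_charP A hA
  haveI : IsAlgClosed (ResidueField ↥A) := jcr_isAlgClosed A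
  exact s44hd_FI_alC_gen (k := ResidueField ↥A) M ℓ (vx_rho p (ResidueField ↥A)) hpM hpℓ

end kA

end Fermat.Agent.S44
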