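/-
S44, cell [E3] HECKE-RES, leaf [E3-ABS-NORM] (helper21; prefix `s44hn_`): THE NORM COMMUTES WITH THE
REDUCTION ALONG AN EXTENSION OF VALUATION RINGS WITH FULL RESIDUE DEGREE (Mathlib only).

`K ⊆ L` a finite extension of fields, `W ⊆ K`, `W' ⊆ L` valuation subrings with `W' ∩ K = W`,
`r : W → κ`, `r' : W' → κ'` ring homomorphisms to fields (`κ'` a `κ`-algebra) with `r' ∘ ι = ῑ ∘ r`,
`r` killing the non-units of `W`, `r'` surjective, and `κ'` containing `[L : K]` elements linearly
independent over `κ`.  Then lifts `b_i ∈ W'` of these elements form a `K`-basis of `L` with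
`W' = ⊕ W b_i`; hence for `g ∈ W'`: `N_{L/K} g ∈ W` and `r (N_{L/K} g) = N_{κ'/κ} (r' g)`.

(No discreteness, no noetherianity: `v'(Σ c_i b_i) = min v(c_i)` for residually independent `b_i`.)
-/
import Mathlib

set_option autoImplicit false
set_option linter.unusedSectionVars false
set_option linter.style.haveILetI false

noncomputable section

namespace Fermat.Agent.S44

open Module

section AbsNorm

variable {K L κ κ' : Type*} [Field K] [Field L] [Field κ] [Field κ'] [Algebra K L] [Algebra κ κ']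
  (W : ValuationSubring K) (W' : ValuationSubring L) (r : ↥W →+* κ) (r' : ↥W' →+* κ')

/-- the hypotheses on the two valuation rings and the two residue maps -/
structure s44hn_Data : Prop where
  mem_iff : ∀ x : K, algebraMap K L x ∈ W' ↔ x ∈ W
  comp : ∀ (x : ↥W) (h : algebraMap K L (x : K) ∈ W'),
    r' ⟨algebraMap K L (x : K), h⟩ = algebraMap κ κ' (r x)
  ker : ∀ x : ↥W, (x : K) ∈ W.nonunits → r x = 0
  surj : Function.Surjective r'

variable {W W' r r'}

/-- the embedding `W → W'` -/
def s44hn_emb (D : s44hn_Data W W' r r') : ↥W →+* ↥W' where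
  toFun x := ⟨algebraMap K L (x : K), (D.mem_iff _).2 x.2⟩
  map_one' := Subtype.ext (by simp)
  map_mul' x y := Subtype.ext (by simp)
  map_zero' := Subtype.ext (by simp)
  map_add' x y := Subtype.ext (by simp)

theorem s44hn_coe_emb (D : s44hn_Data W W' r r') (x : ↥W) :
    ((s44hn_emb D x : ↥W') : L) = algebraMap K L (x : K) := rfl

theorem s44hn_red_emb (D : s44hn_Data W W' r r') (x : ↥W) :
    r' (s44hn_emb D x) = algebraMap κ κ' (r x) := D.comp x _

/-- a finite family of elements of `K`, not all zero, has a member of maximal valuation -/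
theorem s44hn_exists_max {ι : Type*} [Fintype ι] (W : ValuationSubring K) (c : ι → K)
    (h : ∃ i, c i ≠ 0) : ∃ j, c j ≠ 0 ∧ ∀ i, c i / c j ∈ W := by
  obtain ⟨i₀, hi₀⟩ := h
  haveI : Nonempty ι := ⟨i₀⟩
  obtain ⟨j, -, hj⟩ := Finset.exists_max_image (Finset.univ : Finset ι)
    (fun i => W.valuation (c i)) ⟨i₀, Finset.mem_univ _⟩
  have hj0 : c j ≠ 0 := by
    intro h0
    have h1 := hj i₀ (Finset.mem_univ _)
    simp only [h0, map_zero] at h1
    exact hi₀ ((map_eq_zero _).mp (le_antisymm h1 zero_le))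
  refine ⟨j, hj0, fun i => ?_⟩
  rw [← ValuationSubring.valuation_le_one_iff, map_div₀]
  exact div_le_one_of_le₀ (hj i (Finset.mem_univ _)) zero_le

/-- reduction of a `W`-combination of elements of `W'` -/
theorem s44hn_red_sum (D : s44hn_Data W W' r r') {ι : Type*} [Fintype ι] (b : ι → ↥W')
    (c : ι → ↥W) :
    r' (∑ i, s44hn_emb D (c i) * b i) = ∑ i, r (c i) • r' (b i) := by
  rw [map_sum]
  refine Finset.sum_congr rfl fun i _ => ?_
  rw [map_mul, s44hn_red_emb, Algebra.smul_def]

/-- a `K`-combination with coefficients in `W`, as an element of `W'` -/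
theorem s44hn_coe_sum (D : s44hn_Data W W' r r') {ι : Type*} [Fintype ι] (b : ι → ↥W')
    (c : ι → ↥W) :
    ((∑ i, s44hn_emb D (c i) * b i : ↥W') : L) = ∑ i, ((c i : ↥W) : K) • ((b i : ↥W') : L) := by
  rw [← ValuationSubring.subtype_apply, map_sum]
  refine Finset.sum_congr rfl fun i _ => ?_
  rw [map_mul, ValuationSubring.subtype_apply, ValuationSubring.subtype_apply, s44hn_coe_emb,
    Algebra.smul_def]

variable {ι : Type*} [Fintype ι]

/-- **Step 1**: lifts of residually independent elements are linearly independent. -/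
theorem s44hn_linearIndependent (D : s44hn_Data W W' r r') (b : ι → ↥W')
    (hb : LinearIndependent κ (fun i => r' (b i))) :
    LinearIndependent K (fun i => ((b i : ↥W') : L)) := by
  rw [Fintype.linearIndependent_iff]
  intro g hg
  by_contra hne
  push Not at hne
  obtain ⟨j, hj0, hj⟩ := s44hn_exists_max W g hne
  set c : ι → ↥W := fun i => ⟨g i / g j, hj i⟩ with hc
  have h1 : (∑ i, s44hn_emb D (c i) * b i : ↥W') = 0 := by
    apply Subtype.ext
    rw [s44hn_coe_sum]
    have : ∑ i, ((c i : ↥W) : K) • ((b i : ↥W') : L) = (g j)⁻¹ • ∑ i, g i • ((b i : ↥W') : L) := by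
      rw [Finset.smul_sum]
      refine Finset.sum_congr rfl fun i _ => ?_
      rw [smul_smul, hc]
      congr 1
      show g i / g j = (g j)⁻¹ * g i
      rw [div_eq_mul_inv, mul_comm]
    rw [this, hg, smul_zero]
    rfl
  have h2 := s44hn_red_sum D b c
  rw [h1, map_zero] at h2
  have h3 := (Fintype.linearIndependent_iff.mp hb) (fun i => r (c i)) h2.symm j
  have h4 : c j = 1 := Subtype.ext (by show g j / g j = 1; exact div_self hj0)
  rw [h4, map_one] at h3
  exact one_ne_zero h3

/-- **Step 2**: the coordinates of an element of `W'` in a basis of lifts lie in `W`. -/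
theorem s44hn_repr_mem (D : s44hn_Data W W' r r') (b : ι → ↥W')
    (hb : LinearIndependent κ (fun i => r' (b i))) (B : Basis ι K L)
    (hB : ∀ i, B i = ((b i : ↥W') : L)) (x : ↥W') (i₀ : ι) : B.repr (x : L) i₀ ∈ W := by
  by_contra hmem
  set g : ι → K := fun i => B.repr (x : L) i with hg
  have hsum : ∑ i, g i • ((b i : ↥W') : L) = (x : L) := by
    have := B.sum_repr (x : L)
    simp only [hB] at this
    exact this
  have hne : ∃ i, g i ≠ 0 := by
    refine ⟨i₀, fun h0 => hmem ?_⟩
    rw [show B.repr (x : L) i₀ = g i₀ from rfl, h0]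
    exact W.zero_mem
  obtain ⟨j, hj0, hj⟩ := s44hn_exists_max W g hne
  -- `g j ∉ W`
  have hgj : g j ∉ W := fun hjW => hmem (by
    have : g i₀ = g i₀ / g j * g j := by field_simp
    show g i₀ ∈ W
    rw [this]
    exact W.mul_mem _ _ (hj i₀) hjW)
  have hinv : (g j)⁻¹ ∈ W := (W.mem_or_inv_mem (g j)).resolve_left hgj
  have hnonunit : (g j)⁻¹ ∈ W.nonunits := by
    rw [ValuationSubring.mem_nonunits_iff_exists_mem_maximalIdeal]
    refine ⟨hinv, ?_⟩
    rw [IsLocalRing.mem_maximalIdeal, mem_nonunits_iff]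
    intro hu
    obtain ⟨u, hu⟩ := hu
    apply hgj
    have h1 : ((u⁻¹ : (↥W)ˣ) : ↥W) * ⟨(g j)⁻¹, hinv⟩ = 1 := by rw [← hu]; exact u.inv_mul
    have h2 : (((u⁻¹ : (↥W)ˣ) : ↥W) : K) * (g j)⁻¹ = 1 := by
      have := congrArg (fun y : ↥W => (y : K)) h1
      simpa using this
    have h3 : g j = (((u⁻¹ : (↥W)ˣ) : ↥W) : K) := by
      field_simp at h2
      exact h2.symm
    rw [h3]
    exact Subtype.mem _
  set c : ι → ↥W := fun i => ⟨g i / g j, hj i⟩ with hc
  have h1 : (∑ i, s44hn_emb D (c i) * b i : ↥W') = s44hn_emb D ⟨(g j)⁻¹, hinv⟩ * x := by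
    apply Subtype.ext
    rw [s44hn_coe_sum]
    have : ∑ i, ((c i : ↥W) : K) • ((b i : ↥W') : L) = (g j)⁻¹ • ∑ i, g i • ((b i : ↥W') : L) := by
      rw [Finset.smul_sum]
      refine Finset.sum_congr rfl fun i _ => ?_
      rw [smul_smul, hc]
      congr 1
      show g i / g j = (g j)⁻¹ * g i
      rw [div_eq_mul_inv, mul_comm]
    rw [this, hsum]
    show (g j)⁻¹ • (x : L) = ((s44hn_emb D ⟨(g j)⁻¹, hinv⟩ : ↥W') : L) * (x : L)
    rw [s44hn_coe_emb, Algebra.smul_def]
  have h2 := s44hn_red_sum D b c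
  rw [h1, map_mul, s44hn_red_emb, D.ker ⟨(g j)⁻¹, hinv⟩ hnonunit, map_zero, zero_mul] at h2
  have h3 := (Fintype.linearIndependent_iff.mp hb) (fun i => r (c i)) h2.symm j
  have h4 : c j = 1 := Subtype.ext (by show g j / g j = 1; exact div_self hj0)
  rw [h4, map_one] at h3
  exact one_ne_zero h3

/-- an element of `W'` is the `W`-combination of the lifts given by its coordinates -/
theorem s44hn_eq_sum (D : s44hn_Data W W' r r') (b : ι → ↥W')
    (hb : LinearIndependent κ (fun i => r' (b i))) (B : Basis ι K L)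
    (hB : ∀ i, B i = ((b i : ↥W') : L)) (x : ↥W') :
    x = ∑ i, s44hn_emb D ⟨B.repr (x : L) i, s44hn_repr_mem D b hb B hB x i⟩ * b i := by
  apply Subtype.ext
  rw [s44hn_coe_sum]
  have := B.sum_repr (x : L)
  simp only [hB] at this
  exact this.symm

/-- **Step 3**: the reductions of the lifts span `κ'`. -/
theorem s44hn_span (D : s44hn_Data W W' r r') (b : ι → ↥W')
    (hb : LinearIndependent κ (fun i => r' (b i))) (B : Basis ι K L)
    (hB : ∀ i, B i = ((b i : ↥W') : L)) :
    ⊤ ≤ Submodule.span κ (Set.range fun i => r' (b i)) := by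
  intro y _
  obtain ⟨x, rfl⟩ := D.surj y
  rw [s44hn_eq_sum D b hb B hB x, s44hn_red_sum]
  exact Submodule.sum_mem _ fun i _ =>
    Submodule.smul_mem _ _ (Submodule.subset_span ⟨i, rfl⟩)

variable [DecidableEq ι]

/-- **[E3-ABS-NORM]**, basis form. -/
theorem s44hn_norm_red_basis (D : s44hn_Data W W' r r') (b : ι → ↥W')
    (hb : LinearIndependent κ (fun i => r' (b i))) (B : Basis ι K L)
    (hB : ∀ i, B i = ((b i : ↥W') : L)) (g : ↥W') :
    ∃ h : Algebra.norm K ((g : ↥W') : L) ∈ W,
      r ⟨Algebra.norm K ((g : ↥W') : L), h⟩ = Algebra.norm κ (r' g) := by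
  -- the matrix of `g` over `W`
  set m : Matrix ι ι ↥W := fun i j =>
    ⟨B.repr (((g * b j : ↥W') : ↥W') : L) i, s44hn_repr_mem D b hb B hB (g * b j) i⟩ with hm
  have hmat : Algebra.leftMulMatrix B ((g : ↥W') : L) = m.map W.subtype := by
    ext i j
    rw [Algebra.leftMulMatrix_eq_repr_mul, Matrix.map_apply, hB]
    rfl
  have hnorm : Algebra.norm K ((g : ↥W') : L) = W.subtype m.det := by
    rw [Algebra.norm_eq_matrix_det B, hmat]
    exact (RingHom.map_det W.subtype m).symm
  have hmem : Algebra.norm K ((g : ↥W') : L) ∈ W := by rw [hnorm]; exact Subtype.mem _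
  refine ⟨hmem, ?_⟩
  have h1 : (⟨Algebra.norm K ((g : ↥W') : L), hmem⟩ : ↥W) = m.det := Subtype.ext hnorm
  rw [h1, RingHom.map_det]
  -- the residue basis
  set Bb : Basis ι κ κ' := Basis.mk hb (s44hn_span D b hb B hB) with hBb
  have hBbi : ∀ i, Bb i = r' (b i) := fun i => by rw [hBb, Basis.mk_apply]
  rw [Algebra.norm_eq_matrix_det Bb]
  congr 1
  ext i j
  rw [Algebra.leftMulMatrix_eq_repr_mul, RingHom.mapMatrix_apply, Matrix.map_apply, hBbi]
  have h2 : r' g * r' (b j) = ∑ i, r (m i j) • Bb i := by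
    rw [← map_mul, s44hn_eq_sum D b hb B hB (g * b j), s44hn_red_sum]
    refine Finset.sum_congr rfl fun i _ => ?_
    rw [hBbi]
  rw [h2, Basis.repr_sum_self]

/-- **[E3-ABS-NORM]**: `r (N_{L/K} g) = N_{κ'/κ} (r' g)` for `g ∈ W'`, when `κ'` contains
`[L : K]` elements linearly independent over `κ`. -/
theorem s44hn_norm_red [FiniteDimensional K L] (D : s44hn_Data W W' r r') (bb : ι → κ')
    (hbb : LinearIndependent κ bb) (hcard : Fintype.card ι = finrank K L) (g : ↥W') :
    ∃ h : Algebra.norm K ((g : ↥W') : L) ∈ W,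
      r ⟨Algebra.norm K ((g : ↥W') : L), h⟩ = Algebra.norm κ (r' g) := by
  choose b hb using fun i => D.surj (bb i)
  have hb' : LinearIndependent κ (fun i => r' (b i)) := by
    have : (fun i => r' (b i)) = bb := funext hb
    rw [this]; exact hbb
  have hli := s44hn_linearIndependent D b hb'
  haveI : Nonempty ι := by
    rw [← Fintype.card_pos_iff, hcard]
    exact finrank_pos
  set B : Basis ι K L := basisOfLinearIndependentOfCardEqFinrank hli hcard with hBdef
  have hB : ∀ i, B i = ((b i : ↥W') : L) := fun i => by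
    rw [hBdef, coe_basisOfLinearIndependentOfCardEqFinrank]
  exact s44hn_norm_red_basis D b hb' B hB g

/-- the residue degree is then exactly `[L : K]` -/
theorem s44hn_finrank_eq [FiniteDimensional K L] (D : s44hn_Data W W' r r') (bb : ι → κ')
    (hbb : LinearIndependent κ bb) (hcard : Fintype.card ι = finrank K L) :
    finrank κ κ' = finrank K L := by
  choose b hb using fun i => D.surj (bb i)
  have hb' : LinearIndependent κ (fun i => r' (b i)) := by
    have : (fun i => r' (b i)) = bb := funext hb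
    rw [this]; exact hbb
  have hli := s44hn_linearIndependent D b hb'
  haveI : Nonempty ι := by
    rw [← Fintype.card_pos_iff, hcard]
    exact finrank_pos
  set B : Basis ι K L := basisOfLinearIndependentOfCardEqFinrank hli hcard with hBdef
  have hB : ∀ i, B i = ((b i : ↥W') : L) := fun i => by
    rw [hBdef, coe_basisOfLinearIndependentOfCardEqFinrank]
  rw [finrank_eq_card_basis (Basis.mk hb' (s44hn_span D b hb' B hB)), hcard]

end AbsNorm

end Fermat.Agent.S44

end
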