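/-
S44 / [E3] HECKE-RES / cell (c) = (E3-2-INST) (helper2; prefix `s44hb_`): THE NORM ALONG `α` COMMUTES
WITH THE REDUCTION AT `w_∞`.

`A` a place of `ℚ̄` over `p`, `N' = M' p`, `p ∤ M' ℓ`, `ℓ ∤ N'` prime; `W∞(N')`, `W∞(N' ℓ)` the Gauss
valuation subrings of `F̄_{N'}`, `F̄_{N' ℓ}` (helper22's `s44pg_W`), `red` helper28's residue maps
`s44rd_redG` into `F_{M'}(kA)`, `F_{M' ℓ}(kA)`.  For `g ∈ W∞(N' ℓ)`:
`N_α g ∈ W∞(N')` and `red_{N'} (N_α g) = N_ᾱ (red_{N' ℓ} g)`,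
`α = heckeAlphaBar ℚ̄ N' ℓ`, `ᾱ = mzrh_alC kA M' ℓ`, given the degree `[F_{M' ℓ}(kA) : ᾱ F_{M'}(kA)] = ℓ + 1`
in characteristic `p` (cell (E3-DEG)) as a hypothesis.  Instance of helper21's `s44hn_norm_red`
(HeckeRes/AbsNorm.lean) with helper28's dictionary (Res/DictMaps.lean); the degree `ℓ + 1` in
characteristic `0` is `nld_finrankAlong` (JT3/NL/Degree.lean).
-/
import Mathlib
import Fermat.Agent.S44.HeckeRes.AbsNorm
import Fermat.Agent.S44.Res.DictMaps
import Fermat.Agent.S35.PEquiv.NormAlong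
import Fermat.Agent.JT3.NL.Degree

set_option autoImplicit false
set_option linter.unusedSectionVars false
set_option linter.unusedVariables false
set_option linter.style.haveILetI false

noncomputable section

namespace Fermat.Agent.S44

open ModularCurve AlgebraicCurve IntermediateField IsLocalRing Module
open Fermat.Agent.JT3 Fermat.Agent.SS Fermat.Agent.S35 Fermat.Agent.S24 Fermat.Agent.S28
open Fermat.Agent.MZ

local notation "Qb" => AlgebraicClosure ℚ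

section NormBar

variable (A : ValuationSubring Qb) {p : ℕ} [hp : Fact p.Prime] (hA : A.LiesOverPrime p)
  {N' M' : ℕ} [NeZero N'] [NeZero M'] [NeZero p] (hN' : N' = M' * p) (hpM' : ¬ p ∣ M')
  (ℓ : ℕ) [NeZero ℓ] (hpMℓ : ¬ p ∣ M' * ℓ)

/-- the data of `s44hn_norm_red` for the pair of Gauss valuation subrings of levels `N'`, `N' ℓ`
along `α`. -/
theorem s44hb_data :
    letI := algebraAlong (heckeAlphaBar Qb N' ℓ)
    letI := algebraAlong (mzrh_alC (ResidueField ↥A) M' ℓ)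
    s44hn_Data (s44pg_W A hA hp.out.ne_zero N') (s44pg_W A hA hp.out.ne_zero (N' * ℓ))
      (s44rd_redG A hA hN' hpM') (s44rd_redG A hA (s44rd_level_mul hN' ℓ) hpMℓ) := by
  letI := algebraAlong (heckeAlphaBar Qb N' ℓ)
  letI := algebraAlong (mzrh_alC (ResidueField ↥A) M' ℓ)
  refine ⟨fun x => s44rd_alpha_mem_iff A hA ℓ x, fun x h => ?_, fun x hx => ?_, ?_⟩
  · exact s44rd_red_alpha A hA hN' hpM' ℓ hpMℓ x
  · exact (s44rd_redG_eq_zero_iff A hA hN' hpM' x).2 hx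
  · exact s44rd_redG_surjective A hA (s44rd_level_mul hN' ℓ) hpMℓ

/-- **(E3-2-INST)**: `red_{N'} (N_α g) = N_ᾱ (red_{N' ℓ} g)` for `g ∈ W∞(N' ℓ)`. -/
theorem s44hb_red_norm (hℓ : ℓ.Prime) (hℓN : ¬ ℓ ∣ N')
    (hdeg : finrankAlong (ResidueField ↥A) (mzrh_alC (ResidueField ↥A) M' ℓ) = ℓ + 1)
    (g : ↥(s44pg_W A hA hp.out.ne_zero (N' * ℓ))) :
    ∃ h : s35pe_normAlong (heckeAlphaBar Qb N' ℓ) (g : Fbar (N' * ℓ)) ∈
        s44pg_W A hA hp.out.ne_zero N',
      s44rd_redG A hA hN' hpM' ⟨_, h⟩ =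
        s35pe_normAlong (mzrh_alC (ResidueField ↥A) M' ℓ)
          (s44rd_redG A hA (s44rd_level_mul hN' ℓ) hpMℓ g) := by
  letI i1 := algebraAlong (heckeAlphaBar Qb N' ℓ)
  letI i2 := algebraAlong (mzrh_alC (ResidueField ↥A) M' ℓ)
  have hD := s44hb_data A hA hN' hpM' ℓ hpMℓ
  have hdeg0 : finrank (Fbar N') (Fbar (N' * ℓ)) = ℓ + 1 := nld_finrankAlong N' ℓ hℓ hℓN
  have hdegp : finrank ↥(modularFunctionFieldFullC (ResidueField ↥A) M')
      ↥(modularFunctionFieldFullC (ResidueField ↥A) (M' * ℓ)) = ℓ + 1 := hdeg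
  haveI : FiniteDimensional (Fbar N') (Fbar (N' * ℓ)) :=
    Module.finite_of_finrank_pos (by rw [hdeg0]; omega)
  haveI : Module.Finite ↥(modularFunctionFieldFullC (ResidueField ↥A) M')
      ↥(modularFunctionFieldFullC (ResidueField ↥A) (M' * ℓ)) :=
    Module.finite_of_finrank_pos (by rw [hdegp]; omega)
  set bb := Module.finBasisOfFinrankEq ↥(modularFunctionFieldFullC (ResidueField ↥A) M')
    ↥(modularFunctionFieldFullC (ResidueField ↥A) (M' * ℓ)) hdegp with hbb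
  have hcard : Fintype.card (Fin (ℓ + 1)) = finrank (Fbar N') (Fbar (N' * ℓ)) := by
    rw [Fintype.card_fin, hdeg0]
  exact s44hn_norm_red hD (fun i => bb i) bb.linearIndependent hcard g

end NormBar

end Fermat.Agent.S44
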