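/-
S44 cell [E3] HECKE-RES, assembly, part 2 (helper11; prefix `s44ha_`): THE OPERATOR `B_ℓ` OF
[BIG-ASM] AND THE FIELD `heckeRes` OF `s44bg_Cells`, in helper20's vocabulary (`Res/Defs.lean`:
`s44e_Fbar`, `s44e_nu`, `s44e_Sg`, `s44e_IsSS`).

* `s44ha_red_iff_Fbar` : `s44ha_Red A hA M hpM z fb ↔ s44e_Fbar A M p z fb`;
* `s44ha_normRed`      : (E3-2) at the level `M p` (helper2's `s44hb_red_norm` + helper17's
                         `s44hd_finrank_alC`);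
* `s44ha_fbar_hecke`   : **(★★)** `s44e_Fbar z fb → s44e_Fbar (T_ℓ z) (N_ᾱ (β̄ fb))`, for EVERY prime
                         `ℓ ∤ M p` (= the hypothesis `hHecke` of helper15's `s44k2d_Delta_of`);
* `s44ha_SS`, `s44ha_B`, `s44ha_B_eq` : the supersingular set, the operator
                         `B_ℓ : (Sg → ZMod p) →+ (Sg → ZMod p)` (`= s44he_B β̄ ᾱ … p SS` for `ℓ ≠ p`,
                         `0` for `ℓ = p`);
* `s44ha_heckeRes`     : (E2-ord) ⟹ `ν (T_ℓ z) = B_ℓ (ν z)` on `J₀(M p)[p]`, all `ℓ ∤ M p`;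
* `s44ha_heckeRes_frame2` : the field `heckeRes` of `s44bg_Cells (s44_frame2 P M hpM) ∅ k ν B`.
-/
import Mathlib
import Fermat.Agent.S44.HeckeRes.Asm
import Fermat.Agent.S44.HeckeRes.NormBar
import Fermat.Agent.S44.HeckeRes.DegAsm
import Fermat.Agent.S44.HeckeRes.AbsEis
import Fermat.Agent.S44.Res.Main

set_option autoImplicit false
set_option linter.unusedSectionVars false
set_option linter.unusedVariables false
set_option linter.style.haveILetI false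
set_option synthInstance.maxHeartbeats 400000
set_option maxHeartbeats 1000000

noncomputable section

namespace Fermat.Agent.S44

open ModularCurve AlgebraicCurve IntermediateField IsLocalRing
open Fermat.Agent.JT3 Fermat.Agent.SS Fermat.Agent.S35 Fermat.Agent.S24 Fermat.Agent.S28
open Fermat.Agent.MZ

local notation "Qb" => AlgebraicClosure ℚ

section General

variable (A : ValuationSubring Qb) {p : ℕ} [hp : Fact p.Prime] (hA : A.LiesOverPrime p)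
  (M : ℕ) [NeZero M] [NeZero p] [NeZero (M * p)] (hpM : ¬ p ∣ M)

/-- the two predicates "reduction of a `w_∞`-unit representative" agree. -/
theorem s44ha_red_iff_Fbar (z : JZero (M * p)) (fb : s44e_FF A M) :
    s44ha_Red A hA M hpM z fb ↔ s44e_Fbar A M p z fb := by
  constructor
  · intro h
    have h0 := s44ha_red_ne_zero h
    obtain ⟨f, hf, h1, h2, e⟩ := h
    refine ⟨h0, f, hf, h1, ?_⟩
    rw [← e]
    rfl
  · rintro ⟨h0, f, hf, hb, e⟩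
    have e' : s44rd_red A hA M hpM ⟨f, hb⟩ = fb := Subtype.ext e
    refine ⟨f, hf, hb, ?_, e'⟩
    have := (s44rd_red_ne_zero_iff A hA M hpM ⟨f, hb⟩).1 (by rw [e']; exact h0)
    exact this.2

/-- **(E3-2)** at the level `N = M p`, for every prime `ℓ ∤ M p`. -/
theorem s44ha_normRed (ℓ : ℕ) [NeZero ℓ] (hℓ : ℓ.Prime) (hℓN : ¬ ℓ ∣ M * p)
    (hpMℓ : ¬ p ∣ M * ℓ) : s44ha_NormRed_stmt A hA M hpM ℓ hpMℓ := by
  intro g
  have hℓM : ¬ ℓ ∣ M := fun h => hℓN (dvd_mul_of_dvd_left h p)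
  obtain ⟨h, e⟩ := s44hb_red_norm A hA (rfl : M * p = M * p) hpM ℓ hpMℓ hℓ hℓN
    (s44hd_finrank_alC A hA M ℓ hℓ hℓM hpM hpMℓ) g
  refine ⟨h, ?_⟩
  rw [← s44rd_redG_eq_red]
  exact e

include hA in
theorem s44ha_not_dvd_prime (ℓ : Nat.Primes) (hℓN : ¬ (ℓ : ℕ) ∣ M * p) : ¬ p ∣ (ℓ : ℕ) :=
  fun hd => hℓN ((Nat.prime_dvd_prime_iff_eq hp.out ℓ.2).mp hd ▸ Dvd.intro_left M rfl)

include hA hpM in
/-- **(★★)**: if `fb` is the reduction of a Gauss-unit representative of `z`, then `N_ᾱ (β̄ fb)` is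
the reduction of a Gauss-unit representative of `T_ℓ z`, for every prime `ℓ ∤ M p`. -/
theorem s44ha_fbar_hecke (ℓ : Nat.Primes) (hℓN : ¬ (ℓ : ℕ) ∣ M * p) {z : JZero (M * p)}
    {fb : s44e_FF A M} (h : s44e_Fbar A M p z fb) :
    s44e_Fbar A M p (heckeOperatorBar (M * p) ℓ z)
      (haveI : NeZero (ℓ : ℕ) := ⟨ℓ.2.ne_zero⟩
       s35pe_normAlong (mzrh_alC (s44e_kA A) M ℓ) (mzrh_beC (s44e_kA A) M ℓ fb)) := by
  haveI : NeZero (ℓ : ℕ) := ⟨ℓ.2.ne_zero⟩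
  have hpℓ : ¬ p ∣ (ℓ : ℕ) := s44ha_not_dvd_prime A hA M ℓ hℓN
  rw [← s44ha_red_iff_Fbar A hA M hpM] at h ⊢
  exact s44ha_red_hecke ℓ hpℓ
    (s44ha_normRed A hA M hpM (ℓ : ℕ) ℓ.2 hℓN (mzrh_not_dvd_mul M (ℓ : ℕ) hpM hpℓ)) h

/-- the set of supersingular places of `FF_M / kA`. -/
def s44ha_SS : Set (Place (s44e_kA A) (s44e_FF A M)) := {Q | s44e_IsSS A M p hp.out hpM Q}

open Classical in
/-- **the operator `B_ℓ`** of [BIG-ASM] on `Sg → ZMod p`: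
`(B_ℓ r)(Q) = Σ_{w ↦_ᾱ Q} e_β̄(w) · f_ᾱ(w) · r̃(β̄^* w)` (`0` for `ℓ = p`). -/
def s44ha_B (ℓ : Nat.Primes) :
    (s44e_Sg A M p hp.out hpM → ZMod p) →+ (s44e_Sg A M p hp.out hpM → ZMod p) :=
  if h : ¬ p ∣ (ℓ : ℕ) then
    haveI : NeZero (ℓ : ℕ) := ⟨ℓ.2.ne_zero⟩
    haveI := s44hd_hasPrincipalDivisorsC A hA M (ℓ : ℕ) hpM h
    s44he_B (mzrh_beC (s44e_kA A) M ℓ) (mzrh_alC (s44e_kA A) M ℓ)
      (s44hd_heckeInputsC A hA M (ℓ : ℕ) hpM h).2.1 (s44hd_alC_isIntegral A hA M (ℓ : ℕ) hpM h) p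
      (s44ha_SS A M hpM)
  else 0

/-- unfolding of `B_ℓ` for `ℓ ≠ p`, with ANY proofs of integrality. -/
theorem s44ha_B_eq (ℓ : Nat.Primes) (h : ¬ p ∣ (ℓ : ℕ))
    [NeZero (ℓ : ℕ)]
    [HasPrincipalDivisors (s44e_kA A) (modularFunctionFieldFullC (s44e_kA A) (M * (ℓ : ℕ)))]
    (hβ : (mzrh_beC (s44e_kA A) M ℓ).toRingHom.IsIntegral)
    (hα : (mzrh_alC (s44e_kA A) M ℓ).toRingHom.IsIntegral) :
    s44ha_B A hA M hpM ℓ =
      s44he_B (mzrh_beC (s44e_kA A) M ℓ) (mzrh_alC (s44e_kA A) M ℓ) hβ hα p (s44ha_SS A M hpM) := by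
  unfold s44ha_B
  exact dif_pos h

/-- **[E3a] HECKE-RES**: `ν (T_ℓ z) = B_ℓ (ν z)` on `J₀(M p)[p]`, for every prime `ℓ ∤ M p`, from
(E2-ord). -/
theorem s44ha_heckeRes (hoff : s44e_OrdOff A hA M hpM) (ℓ : Nat.Primes)
    (hℓN : ¬ (ℓ : ℕ) ∣ M * p) (z : JZero (M * p)) (hz : p • z = 0) :
    s44e_nu A M p hp.out hpM (heckeOperatorBar (M * p) ℓ z) =
      s44ha_B A hA M hpM ℓ (s44e_nu A M p hp.out hpM z) := by
  haveI : NeZero (ℓ : ℕ) := ⟨ℓ.2.ne_zero⟩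
  have hpℓ : ¬ p ∣ (ℓ : ℕ) := s44ha_not_dvd_prime A hA M ℓ hℓN
  haveI : CharP (s44e_kA A) p := jcr_charP A hA
  haveI : IsAlgClosed (s44e_kA A) := jcr_isAlgClosed A
  haveI hpd : HasPrincipalDivisors (s44e_kA A) (s44e_FF A M) :=
    rt_hasPrincipalDivisors (jcr_isSepGen (k := s44e_kA A) M hpM (jcr_rho A hA))
  obtain ⟨hα, hβ, hPD, hfin, hFI, hN⟩ := s44hd_heckeInputsC A hA M (ℓ : ℕ) hpM hpℓ
  haveI := hPD
  have hmem := s44rd_hmem A hA M hpM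
  -- a reduction `fb` of `z`, and the reduction `N_ᾱ (β̄ fb)` of `T_ℓ z`
  have hfb := s44e_fbar_spec A hp.out hA M hmem hz
  set fb := s44e_fbar A M p z with hfbdef
  have hT := s44ha_fbar_hecke A hA M hpM ℓ hℓN hfb
  obtain ⟨D, hD, -⟩ := HasPrincipalDivisors.exists_divisor (K := s44e_kA A) fb hfb.1
  rw [s44ha_B_eq A hA M hpM ℓ hpℓ hβ hα]
  funext i
  have h1 : s44e_nu A M p hp.out hpM (heckeOperatorBar (M * p) ℓ z) i =
      (((i.1 : Place (s44e_kA A) (s44e_FF A M)).ord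
        (s35pe_normAlong (mzrh_alC (s44e_kA A) M ℓ) (mzrh_beC (s44e_kA A) M ℓ fb)) : ℤ) :
          ZMod p) :=
    s44e_nuAll_eq A hp.out hA M hmem hT i.1
  have h2 : s44e_nu A M p hp.out hpM z =
      fun Q' : ↥(s44ha_SS A M hpM) =>
        (((Q' : Place (s44e_kA A) (s44e_FF A M)).ord fb : ℤ) : ZMod p) := by
    funext Q'
    exact s44e_nuAll_eq A hp.out hA M hmem hfb Q'.1
  rw [h1, h2]
  exact s44he_ord_B (mzrh_beC (s44e_kA A) M ℓ) (mzrh_alC (s44e_kA A) M ℓ) hβ hα p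
    (s44ha_SS A M hpM) hfin hN hfb.1 hD
    (fun Q hQ => s44e_ord_off_of_Fbar A hA M hpM hoff hfb Q hQ) i

end General

/-! ### the instance `s44_frame2` -/

section Frame2

variable (P : FreyPackage) (M : ℕ) [NeZero M] [NeZero (M * P.p)] (hpM : ¬ P.p ∣ M)

/-- the operator `B_ℓ` for `s44_frame2`. -/
def s44ha_B_frame2 (ℓ : Nat.Primes) :
    (s44e_Sg (s44f_A P.p P.pp) M P.p P.pp hpM → ZMod P.p) →+
      (s44e_Sg (s44f_A P.p P.pp) M P.p P.pp hpM → ZMod P.p) :=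
  haveI : Fact P.p.Prime := ⟨P.pp⟩
  s44ha_B (s44f_A P.p P.pp) (s44f_A_liesOver P.p P.pp) M hpM ℓ

/-- **the field `heckeRes` of `s44bg_Cells`** for `s44_frame2`, `S = ∅`, `ν = s44e_nu`,
`B = s44ha_B_frame2`, from (E2-ord). -/
theorem s44ha_heckeRes_frame2 (hoff : s44e_OrdOff_frame2 P M hpM) :
    s44bg_HeckeRes_stmt (P := P) (M := M) ∅ (s44e_nu (s44f_A P.p P.pp) M P.p P.pp hpM)
      (s44ha_B_frame2 P M hpM) := by
  haveI : Fact P.p.Prime := ⟨P.pp⟩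
  intro ℓ hℓN _ z hz
  exact s44ha_heckeRes (s44f_A P.p P.pp) (s44f_A_liesOver P.p P.pp) M hpM hoff ℓ hℓN z hz

include hpM in
/-- **(★★) for `s44_frame2`**, in the shape of the hypothesis `hHecke` of `s44k2d_Delta_of`. -/
theorem s44ha_fbar_hecke_frame2 (ℓ : Nat.Primes) (hℓN : ¬ (ℓ : ℕ) ∣ M * P.p)
    (z : JZero (M * P.p)) (fb : s44e_FF (s44f_A P.p P.pp) M) (hz : P.p • z = 0)
    (h : s44e_Fbar (s44f_A P.p P.pp) M P.p z fb) :
    s44e_Fbar (s44f_A P.p P.pp) M P.p (heckeOperatorBar (M * P.p) ℓ z)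
      (haveI : NeZero (ℓ : ℕ) := ⟨ℓ.2.ne_zero⟩
       s35pe_normAlong (mzrh_alC (s44e_kA (s44f_A P.p P.pp)) M ℓ)
        (mzrh_beC (s44e_kA (s44f_A P.p P.pp)) M ℓ fb)) :=
  haveI : Fact P.p.Prime := ⟨P.pp⟩
  s44ha_fbar_hecke (s44f_A P.p P.pp) (s44f_A_liesOver P.p P.pp) M hpM ℓ hℓN h

end Frame2

end Fermat.Agent.S44
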