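/-
S44, cell [E3] HECKE-RES, (E3-EIS) through the MODULAR UNIT (helper21; prefix `s44hu_`): (U-RED).

`A` a place of `Q̄` over `p`, `N' = M' p`, `p ∤ M' ℓ`, `ℓ ∤ N'` prime, `u = s44hu_U p N' _ = Δ(q)/Δ(q^p)`,
`ū := red_∞ u ∈ F_{M'}(kA)` (`s44hu_ubar`).  If `N_α (β u) = u^{ℓ+1}` in characteristic `0` ((U-T)), then
* `s44hu_red_hecke` : `N_ᾱ (β̄ ū) = ū^{ℓ+1}` in `F_{M'}(kA)` (`ᾱ = mzrh_alC`, `β̄ = mzrh_beC`);
* `s44hu_ord_hecke` : `ord_Q (N_ᾱ (β̄ ū)) = (ℓ+1) · ord_Q ū` for every place `Q`.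
Inputs: helper2's `s44hb_red_norm` (NormBar.lean), helper28's `s44rd_red_beta` (Res/DictMaps.lean),
helper17's degree `s44hd_finrank_alC` (DegAsm.lean).
-/
import Mathlib
import Fermat.Agent.S44.HeckeRes.UnitDef
import Fermat.Agent.S44.HeckeRes.NormBar
import Fermat.Agent.S44.HeckeRes.DegAsm

set_option autoImplicit false
set_option linter.unusedSectionVars false
set_option linter.unusedVariables false
set_option linter.style.haveILetI false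
set_option synthInstance.maxHeartbeats 400000
set_option maxHeartbeats 1000000

noncomputable section

namespace Fermat.Agent.S44

open ModularCurve AlgebraicCurve IntermediateField IsLocalRing Module
open Fermat.Agent.JT3 Fermat.Agent.SS Fermat.Agent.S35 Fermat.Agent.S24 Fermat.Agent.S28
open Fermat.Agent.MZ

local notation "Qb" => AlgebraicClosure ℚ

/-- `p ∣ N'` -/
theorem s44hu_dvd {p N' M' : ℕ} (hN' : N' = M' * p) : p ∣ N' := ⟨M', by rw [hN', mul_comm]⟩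

section UnitRed

variable (A : ValuationSubring Qb) {p : ℕ} [hp : Fact p.Prime] (hA : A.LiesOverPrime p)
  {N' M' : ℕ} [NeZero N'] [NeZero M'] [NeZero p] (hN' : N' = M' * p) (hpM' : ¬ p ∣ M')

/-- the modular unit as an element of the Gauss ring `W∞(N')` -/
def s44hu_UW : ↥(s44pg_W A hA hp.out.ne_zero N') :=
  ⟨s44hu_U p N' (s44hu_dvd hN'), s44hu_U_mem A hA hp.out.ne_zero p N' (s44hu_dvd hN')⟩

/-- **`ū`**: the `w_∞`-reduction of the modular unit, an element of `F_{M'}(kA)`. -/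
def s44hu_ubar : ↥(modularFunctionFieldFullC (ResidueField ↥A) M') :=
  s44rd_redG A hA hN' hpM' (s44hu_UW A hA hN')

theorem s44hu_ubar_ne_zero : s44hu_ubar A hA hN' hpM' ≠ 0 := by
  rw [s44hu_ubar, Ne, s44rd_redG_eq_zero_iff]
  intro h
  have h1 : ((s44hu_UW A hA hN' : ↥(s44pg_W A hA hp.out.ne_zero N')) : Fbar N')⁻¹ ∈
      s44pg_W A hA hp.out.ne_zero N' :=
    s44hu_U_inv_mem A hA hp.out.ne_zero p N' (s44hu_dvd hN')
  rw [ValuationSubring.mem_nonunits_iff_or] at h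
  rcases h with h | h
  · exact s44hu_U_ne_zero p N' (s44hu_dvd hN') h
  · exact h h1

variable (ℓ : ℕ) [NeZero ℓ] (hpMℓ : ¬ p ∣ M' * ℓ)

include hpMℓ in
/-- **(U-RED)**: the Hecke-eigen property of the unit descends to the special fibre. -/
theorem s44hu_red_hecke (hℓ : ℓ.Prime) (hℓN : ¬ ℓ ∣ N')
    (hdeg : finrankAlong (ResidueField ↥A) (mzrh_alC (ResidueField ↥A) M' ℓ) = ℓ + 1)
    (hT : s35pe_normAlong (heckeAlphaBar Qb N' ℓ)
      (heckeBetaBar Qb N' ℓ (s44hu_U p N' (s44hu_dvd hN'))) =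
        (s44hu_U p N' (s44hu_dvd hN')) ^ (ℓ + 1)) :
    s35pe_normAlong (mzrh_alC (ResidueField ↥A) M' ℓ)
      (mzrh_beC (ResidueField ↥A) M' ℓ (s44hu_ubar A hA hN' hpM')) =
        (s44hu_ubar A hA hN' hpM') ^ (ℓ + 1) := by
  set g : ↥(s44pg_W A hA hp.out.ne_zero (N' * ℓ)) :=
    ⟨heckeBetaBar Qb N' ℓ ((s44hu_UW A hA hN' : ↥(s44pg_W A hA hp.out.ne_zero N')) : Fbar N'),
      (s44rd_beta_mem_iff A hA ℓ _).2 (s44hu_UW A hA hN').2⟩ with hg
  obtain ⟨h, hred⟩ := s44hb_red_norm A hA hN' hpM' ℓ hpMℓ hℓ hℓN hdeg g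
  have hβ : s44rd_redG A hA (s44rd_level_mul hN' ℓ) hpMℓ g =
      mzrh_beC (ResidueField ↥A) M' ℓ (s44hu_ubar A hA hN' hpM') :=
    s44rd_red_beta A hA hN' hpM' ℓ hpMℓ (s44hu_UW A hA hN')
  rw [hβ] at hred
  rw [← hred]
  have e : (⟨s35pe_normAlong (heckeAlphaBar Qb N' ℓ) (g : Fbar (N' * ℓ)), h⟩ :
      ↥(s44pg_W A hA hp.out.ne_zero N')) = (s44hu_UW A hA hN') ^ (ℓ + 1) := by
    apply Subtype.ext
    rw [SubmonoidClass.coe_pow]
    exact hT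
  rw [e, map_pow]
  rfl

include hpMℓ in
/-- the same on orders. -/
theorem s44hu_ord_hecke (hℓ : ℓ.Prime) (hℓN : ¬ ℓ ∣ N')
    (hdeg : finrankAlong (ResidueField ↥A) (mzrh_alC (ResidueField ↥A) M' ℓ) = ℓ + 1)
    (hT : s35pe_normAlong (heckeAlphaBar Qb N' ℓ)
      (heckeBetaBar Qb N' ℓ (s44hu_U p N' (s44hu_dvd hN'))) =
        (s44hu_U p N' (s44hu_dvd hN')) ^ (ℓ + 1))
    (Q : Place (ResidueField ↥A) ↥(modularFunctionFieldFullC (ResidueField ↥A) M')) :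
    Q.ord (s35pe_normAlong (mzrh_alC (ResidueField ↥A) M' ℓ)
      (mzrh_beC (ResidueField ↥A) M' ℓ (s44hu_ubar A hA hN' hpM'))) =
        ((ℓ + 1 : ℕ) : ℤ) * Q.ord (s44hu_ubar A hA hN' hpM') := by
  rw [s44hu_red_hecke A hA hN' hpM' ℓ hpMℓ hℓ hℓN hdeg hT]
  have := Q.ord_zpow (s44hu_ubar A hA hN' hpM') ((ℓ + 1 : ℕ) : ℤ)
  rwa [zpow_natCast] at this

end UnitRed

end Fermat.Agent.S44

end
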