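/-
S44, cell [E3] HECKE-RES, (E3-EIS) INSTANCE through the MODULAR UNIT (helper21; prefix `s44hu_`),
after the architect's ruling R5 (`Res/Defs2.lean`: `k = s44e_k2 = (ord ū mod p)⁻¹`).

* `s44hu_mem_of_root`, `s44hu_noncusp` : a valuation ring of `F_{Mℓ}(k)` containing the constants and
  `j̄(q)` contains `j̄(q^ℓ)` (modular equation `vx_Phi`): NON-CUSPIDALITY passes from `w|_ᾱ` to `w|_β̄`;
* `s44hu_isUbar`, `s44hu_exists_isUbar`, `s44hu_ubar_eq`, `s44hu_e_ubar_ne_zero` : **(U-RED) existence**: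
  `s44e_ubar A M p = s44hu_ubar A hA rfl hpM` (the `w_∞`-reduction of `Δ(q)/Δ(q^p)`), `≠ 0`;
* `s44hu_BEis_gen` : `B_ℓ (1/kk) = (ℓ + 1) (1/kk)` for ANY set `SS` of non-cuspidal places with
  `ord ū ≢ 0 (p)` on `SS`, `p ∣ ord ū` at the non-cuspidal places off `SS`, `kk = (ord ū mod p)⁻¹`,
  GIVEN (U-T) `N_α (β u) = u^{ℓ+1}` in characteristic `0`;
* `s44hu_BEis` : the same for `SS = {Q | s44e_IsSS Q}`, `kk = s44e_k2`.
`B_ℓ = s44he_B (mzrh_beC kA M ℓ) (mzrh_alC kA M ℓ) hφ hψ p SS` (AbsHK.lean), any `hφ hψ`.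
-/
import Mathlib
import Fermat.Agent.S44.HeckeRes.UnitRed
import Fermat.Agent.S44.HeckeRes.AbsEis
import Fermat.Agent.S44.Res.Defs2

set_option autoImplicit false
set_option linter.unusedSectionVars false
set_option linter.unusedVariables false
set_option linter.style.haveILetI false
set_option synthInstance.maxHeartbeats 400000
set_option maxHeartbeats 1000000

noncomputable section

namespace Fermat.Agent.S44

open ModularCurve AlgebraicCurve IntermediateField IsLocalRing Module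
open Fermat.Agent.JT3 Fermat.Agent.SS Fermat.Agent.S35 Fermat.Agent.S24 Fermat.Agent.S28
open Fermat.Agent.MZ

local notation "Qb" => AlgebraicClosure ℚ

theorem s44hu_mem_of_root {R L : Type*} [CommRing R] [Field L] (V : ValuationSubring L)
    (P : Polynomial (Polynomial R)) (hP : P.Monic) (f : R →+* L) (hf : ∀ r, f r ∈ V)
    {x y : L} (hx : x ∈ V) (h : P.eval₂ (Polynomial.eval₂RingHom f x) y = 0) : y ∈ V := by
  set f' : R →+* ↥V := f.codRestrict V.toSubring hf with hf'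
  set x' : ↥V := ⟨x, hx⟩ with hx'
  set g : Polynomial R →+* ↥V := Polynomial.eval₂RingHom f' x' with hg
  have hcomp : (algebraMap ↥V L).comp g = Polynomial.eval₂RingHom f x := by
    refine Polynomial.ringHom_ext (fun r => ?_) ?_
    · simp [g, f']
    · simp [g, x']
  have hint : IsIntegral ↥V y := by
    refine ⟨P.map g, hP.map g, ?_⟩
    rw [Polynomial.eval₂_map, hcomp]
    exact h
  obtain ⟨z, hz⟩ := IsIntegrallyClosed.isIntegral_iff.mp hint
  rw [← hz]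
  exact z.2

/-- **non-cuspidality**: a valuation ring of `F_{Mℓ}(k)` containing the constants and `j̄(q)`
contains `j̄(q^ℓ)` (modular equation). -/
theorem s44hu_noncusp (k : Type*) [Field k] {p : ℕ} [Fact p.Prime]
    (ρ : ↥(GaloisRep.ratLocalizedAt p) →+* k)
    (M ℓ : ℕ) [NeZero M] [NeZero ℓ] (hpℓ : ¬ p ∣ ℓ)
    (V : ValuationSubring ↥(modularFunctionFieldFullC k (M * ℓ)))
    (hV : ∀ a : k, algebraMap k ↥(modularFunctionFieldFullC k (M * ℓ)) a ∈ V)
    (h : mzrh_alC k M ℓ (jcr_j (k := k) M) ∈ V) : mzrh_beC k M ℓ (jcr_j (k := k) M) ∈ V := by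
  refine s44hu_mem_of_root V (vx_Phi ℓ p hpℓ) (vx_Phi_monic ℓ p hpℓ)
    ((algebraMap k ↥(modularFunctionFieldFullC k (M * ℓ))).comp ρ) (fun r => hV _) h ?_
  apply Subtype.ext
  have h1 := Polynomial.hom_eval₂ (vx_Phi ℓ p hpℓ)
    (Polynomial.eval₂RingHom ((algebraMap k ↥(modularFunctionFieldFullC k (M * ℓ))).comp ρ)
      (mzrh_alC k M ℓ (jcr_j (k := k) M)))
    (algebraMap ↥(modularFunctionFieldFullC k (M * ℓ)) (LaurentSeries k))
    (mzrh_beC k M ℓ (jcr_j (k := k) M))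
  have e : (algebraMap ↥(modularFunctionFieldFullC k (M * ℓ)) (LaurentSeries k)).comp
      (Polynomial.eval₂RingHom ((algebraMap k ↥(modularFunctionFieldFullC k (M * ℓ))).comp ρ)
        (mzrh_alC k M ℓ (jcr_j (k := k) M))) =
      Polynomial.eval₂RingHom ((HahnSeries.C : k →+* LaurentSeries k).comp ρ) (jqModC k) := by
    refine Polynomial.ringHom_ext (fun r => ?_) ?_
    · simp only [RingHom.comp_apply, Polynomial.coe_eval₂RingHom, Polynomial.eval₂_C]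
      rw [← IsScalarTower.algebraMap_apply k ↥(modularFunctionFieldFullC k (M * ℓ))
        (LaurentSeries k), algebraMap_laurentSeries_eq_single]
      rfl
    · simp only [RingHom.comp_apply, Polynomial.coe_eval₂RingHom, Polynomial.eval₂_X]
      rfl
  rw [e] at h1
  have h2 : algebraMap ↥(modularFunctionFieldFullC k (M * ℓ)) (LaurentSeries k)
      (mzrh_beC k M ℓ (jcr_j (k := k) M)) = qExpand k ℓ (jqModC k) := by
    show ((mzrh_beC k M ℓ (jcr_j (k := k) M) : ↥(modularFunctionFieldFullC k (M * ℓ))) :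
      LaurentSeries k) = _
    rw [mzrh_coe_beC]
    rfl
  rw [h2, vx_Phi_eval ℓ p hpℓ ρ] at h1
  exact h1

section Eis

variable (A : ValuationSubring Qb) {p : ℕ} [hp : Fact p.Prime] (hA : A.LiesOverPrime p)
  (M : ℕ) [NeZero M] [NeZero p] [NeZero (M * p)] (hpM : ¬ p ∣ M)

/-- **(U-RED), existence**: `s44hu_ubar` is the reduction of the modular unit in the sense of
`Res/Defs2.lean`. -/
theorem s44hu_isUbar : s44e_IsUbar A M p (s44hu_ubar A hA (rfl : M * p = M * p) hpM) :=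
  ⟨s44hu_U p (M * p) (s44hu_dvd rfl), s44hu_coe_U p (M * p) (s44hu_dvd rfl),
    (s44hu_UW A hA (rfl : M * p = M * p)).2, rfl⟩

include hA hpM in
theorem s44hu_exists_isUbar : ∃ fb, s44e_IsUbar A M p fb := ⟨_, s44hu_isUbar A hA M hpM⟩

theorem s44hu_ubar_eq : s44e_ubar A M p = s44hu_ubar A hA (rfl : M * p = M * p) hpM :=
  s44e_ubar_eq A M p (s44hu_isUbar A hA M hpM)

include hA hpM in
theorem s44hu_e_ubar_ne_zero : s44e_ubar A M p ≠ 0 := by
  rw [s44hu_ubar_eq A hA M hpM]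
  exact s44hu_ubar_ne_zero A hA rfl hpM

variable (ℓ : ℕ) [NeZero ℓ]

include hA hpM in
/-- **(E3-EIS), instance** (general `SS` of non-cuspidal places on which `ord ū ≢ 0`, and
`p ∣ ord ū` at the non-cuspidal places off `SS`; `kk = (ord ū mod p)⁻¹`):
`B_ℓ (1/kk) = (ℓ + 1) (1/kk)`, given (U-T). -/
theorem s44hu_BEis_gen (hℓ : ℓ.Prime) (hℓN : ¬ ℓ ∣ M * p)
    [HasPrincipalDivisors (ResidueField ↥A) ↥(modularFunctionFieldFullC (ResidueField ↥A) (M * ℓ))]
    (hφ : (mzrh_beC (ResidueField ↥A) M ℓ).toRingHom.IsIntegral)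
    (hψ : (mzrh_alC (ResidueField ↥A) M ℓ).toRingHom.IsIntegral)
    (hT : s35pe_normAlong (heckeAlphaBar Qb (M * p) ℓ)
      (heckeBetaBar Qb (M * p) ℓ (s44hu_U p (M * p) (s44hu_dvd rfl))) =
        (s44hu_U p (M * p) (s44hu_dvd rfl)) ^ (ℓ + 1))
    (SS : Set (Place (ResidueField ↥A) ↥(modularFunctionFieldFullC (ResidueField ↥A) M)))
    (hSS : ∀ Q ∈ SS, jcr_j (k := ResidueField ↥A) M ∈ Q.toValuationSubring)
    (hne : ∀ Q ∈ SS, s44e_ordU A M p Q ≠ 0)
    (hoff : ∀ Q : Place (ResidueField ↥A) ↥(modularFunctionFieldFullC (ResidueField ↥A) M),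
      jcr_j (k := ResidueField ↥A) M ∈ Q.toValuationSubring → Q ∉ SS →
        (p : ℤ) ∣ Q.ord (s44e_ubar A M p))
    (kk : ↥SS → ZMod p) (hkk : ∀ Q : ↥SS, kk Q = (s44e_ordU A M p Q.1)⁻¹) :
    s44he_B (mzrh_beC (ResidueField ↥A) M ℓ) (mzrh_alC (ResidueField ↥A) M ℓ) hφ hψ p SS
        (fun Q => (kk Q)⁻¹) =
      (((ℓ : ℕ) : ZMod p) + 1) • fun Q => (kk Q)⁻¹ := by
  haveI : CharP (ResidueField ↥A) p := jcr_charP A hA
  haveI : IsAlgClosed (ResidueField ↥A) := jcr_isAlgClosed A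
  have hℓp : ℓ ≠ p := fun h => hℓN (h ▸ dvd_mul_left ℓ M)
  have hpℓ : ¬ p ∣ ℓ := fun h => hℓp ((Nat.prime_dvd_prime_iff_eq hp.out hℓ).mp h).symm
  have hℓM : ¬ ℓ ∣ M := fun h => hℓN (h.mul_right p)
  have hpMℓ : ¬ p ∣ M * ℓ := fun h => (hp.out.dvd_mul.mp h).elim hpM hpℓ
  obtain ⟨_, _, _, hfin, _, hN⟩ := s44hd_heckeInputsC A hA M ℓ hpM hpℓ
  haveI hPD : HasPrincipalDivisors (ResidueField ↥A)
      ↥(modularFunctionFieldFullC (ResidueField ↥A) M) :=
    rt_hasPrincipalDivisors (jcr_isSepGen (k := ResidueField ↥A) M hpM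
      (vx_rho p (ResidueField ↥A)))
  have hub : s44e_ubar A M p ≠ 0 := s44hu_e_ubar_ne_zero A hA M hpM
  obtain ⟨D, hD, -⟩ := hPD.exists_divisor (s44e_ubar A M p) hub
  have hdeg := s44hd_finrank_alC A hA M ℓ hℓ hℓM hpM hpMℓ
  have h1 : ((ℓ : ℕ) : ZMod p) + 1 = ((ℓ + 1 : ℕ) : ZMod p) := by push_cast; rfl
  rw [h1]
  refine s44he_B_eis_of_unit (mzrh_beC (ResidueField ↥A) M ℓ) (mzrh_alC (ResidueField ↥A) M ℓ)
    hφ hψ p SS hfin hN kk (ℓ + 1) hub hD ?_ 1 one_ne_zero ?_ ?_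
  · intro Q
    rw [s44hu_ubar_eq A hA M hpM]
    exact s44hu_ord_hecke A hA rfl hpM ℓ hpMℓ hℓ hℓN hdeg hT Q.1
  · intro Q
    rw [hkk Q]
    exact inv_mul_cancel₀ (hne Q.1 Q.2)
  · intro w hw hw'
    refine hoff _ ?_ hw'
    have h2 : mzrh_alC (ResidueField ↥A) M ℓ (jcr_j (k := ResidueField ↥A) M) ∈
        w.toValuationSubring := hSS _ hw
    show mzrh_beC (ResidueField ↥A) M ℓ (jcr_j (k := ResidueField ↥A) M) ∈ w.toValuationSubring
    exact s44hu_noncusp (ResidueField ↥A) (vx_rho p (ResidueField ↥A)) M ℓ hpℓ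
      w.toValuationSubring w.algebraMap_mem' h2

include hA in
/-- **(E3-EIS), instance** for `Sg = s44e_Sg` (the supersingular places), `k = s44e_k2`. -/
theorem s44hu_BEis (hℓ : ℓ.Prime) (hℓN : ¬ ℓ ∣ M * p)
    [HasPrincipalDivisors (ResidueField ↥A) ↥(modularFunctionFieldFullC (ResidueField ↥A) (M * ℓ))]
    (hφ : (mzrh_beC (ResidueField ↥A) M ℓ).toRingHom.IsIntegral)
    (hψ : (mzrh_alC (ResidueField ↥A) M ℓ).toRingHom.IsIntegral)
    (hT : s35pe_normAlong (heckeAlphaBar Qb (M * p) ℓ)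
      (heckeBetaBar Qb (M * p) ℓ (s44hu_U p (M * p) (s44hu_dvd rfl))) =
        (s44hu_U p (M * p) (s44hu_dvd rfl)) ^ (ℓ + 1))
    (hne : ∀ Q : Place (ResidueField ↥A) ↥(modularFunctionFieldFullC (ResidueField ↥A) M),
      s44e_IsSS A M p hp.out hpM Q → s44e_ordU A M p Q ≠ 0)
    (hoff : ∀ Q : Place (ResidueField ↥A) ↥(modularFunctionFieldFullC (ResidueField ↥A) M),
      jcr_j (k := ResidueField ↥A) M ∈ Q.toValuationSubring → ¬ s44e_IsSS A M p hp.out hpM Q →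
        (p : ℤ) ∣ Q.ord (s44e_ubar A M p)) :
    s44he_B (mzrh_beC (ResidueField ↥A) M ℓ) (mzrh_alC (ResidueField ↥A) M ℓ) hφ hψ p
        {Q | s44e_IsSS A M p hp.out hpM Q}
        (fun i => (s44e_k2 A M p hp.out hpM i)⁻¹) =
      (((ℓ : ℕ) : ZMod p) + 1) • fun i => (s44e_k2 A M p hp.out hpM i)⁻¹ :=
  s44hu_BEis_gen A hA M hpM ℓ hℓ hℓN hφ hψ hT {Q | s44e_IsSS A M p hp.out hpM Q}
    (fun Q hQ => hQ.1) hne hoff (fun i => s44e_k2 A M p hp.out hpM i) (fun i => rfl)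

end Eis

end Fermat.Agent.S44
end
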