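/-
S44 [E3] (U-T), step (F1): the formal eta identity in `R⟦X⟧`
`E(X^{ℓ²}) · ∏_{b<ℓ} E(ζ^b X) = E(X^ℓ)^{ℓ+1}`, `E = ∏ (1 - Xⁿ)`, `ℓ` prime, `ζ` a primitive `ℓ`-th
root of unity.  Proof by truncation: an exact identity between partial products (induction) and
congruences modulo `X ^ K`.
Owner: helper22.  Prefix `s44hg_`.
-/
import Mathlib
import Fermat.Prelude.Def_ModularCurve_X0

set_option autoImplicit false

noncomputable section

open HahnSeries ModularCurve Filter Topology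

namespace Fermat.Agent.S44

/-! ### Partial products of the Euler product -/

section Partial

open PowerSeries

variable (R : Type*) [CommRing R]

/-- the partial products of the formal Euler product -/
def s44hg_P (M : ℕ) : PowerSeries R :=
  ∏ n ∈ Finset.range M, (1 - PowerSeries.X ^ (n + 1))

theorem s44hg_P_succ (M : ℕ) :
    s44hg_P R (M + 1) = s44hg_P R M * (1 - PowerSeries.X ^ (M + 1)) :=
  Finset.prod_range_succ _ _

theorem s44hg_P_add (M K : ℕ) :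
    s44hg_P R (M + K) =
      s44hg_P R M * ∏ i ∈ Finset.range K, (1 - PowerSeries.X ^ (M + i + 1)) :=
  Finset.prod_range_add _ _ _

theorem s44hg_coeff_P_succ {k K : ℕ} (h : k ≤ K) :
    PowerSeries.coeff k (s44hg_P R (K + 1)) = PowerSeries.coeff k (s44hg_P R K) := by
  rw [s44hg_P_succ, mul_sub, mul_one, map_sub, PowerSeries.coeff_mul_X_pow',
    if_neg (by omega), sub_zero]

theorem s44hg_coeff_P_of_le {k M K : ℕ} (h : k ≤ M) (hK : M ≤ K) :
    PowerSeries.coeff k (s44hg_P R K) = PowerSeries.coeff k (s44hg_P R M) := by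
  induction K, hK using Nat.le_induction with
  | base => rfl
  | succ K hK ih => rw [s44hg_coeff_P_succ R (h.trans hK), ih]

theorem s44hg_map_P {S : Type*} [CommRing S] (φ : R →+* S) (M : ℕ) :
    (s44hg_P R M).map φ = s44hg_P S M := by
  unfold s44hg_P
  rw [map_prod]
  refine Finset.prod_congr rfl fun n _ => ?_
  rw [map_sub, map_one, map_pow, PowerSeries.map_X]

open scoped PowerSeries.WithPiTopology in
theorem s44hg_coeff_etaProd {k M : ℕ} (h : k ≤ M) :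
    PowerSeries.coeff k ModularCurve.etaProd = PowerSeries.coeff k (s44hg_P ℤ M) := by
  have hm := (PowerSeries.WithPiTopology.multipliable_one_sub_X_pow ℤ).hasProd.tendsto_prod_nat
  have h1 := ((PowerSeries.WithPiTopology.continuous_coeff (R := ℤ) k).tendsto _).comp hm
  have h2 : Tendsto ((PowerSeries.coeff (R := ℤ) k) ∘ fun K : ℕ =>
      ∏ n ∈ Finset.range K, ((1 : PowerSeries ℤ) - PowerSeries.X ^ (n + 1))) atTop
      (𝓝 (PowerSeries.coeff k (s44hg_P ℤ M))) := by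
    refine tendsto_const_nhds.congr' ?_
    filter_upwards [eventually_ge_atTop M] with K hK
    exact (s44hg_coeff_P_of_le ℤ h hK).symm
  exact tendsto_nhds_unique h1 h2

/-- the Euler product `∏ (1 - qⁿ)` with coefficients in `R` -/
def s44hg_E : PowerSeries R := ModularCurve.etaProd.map (Int.castRingHom R)

theorem s44hg_dvd_E_sub_P (M : ℕ) :
    (PowerSeries.X : PowerSeries R) ^ (M + 1) ∣ s44hg_E R - s44hg_P R M := by
  rw [PowerSeries.X_pow_dvd_iff]
  intro k hk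
  rw [map_sub, s44hg_E, PowerSeries.coeff_map, s44hg_coeff_etaProd (Nat.lt_succ_iff.mp hk),
    ← PowerSeries.coeff_map, s44hg_map_P, sub_self]

end Partial

/-! ### Congruences modulo `X ^ K` -/

section Cong

open PowerSeries

variable {R : Type*} [CommRing R]

/-- congruence of power series modulo `X ^ K` -/
def s44hg_Cong (K : ℕ) (f g : PowerSeries R) : Prop :=
  (PowerSeries.X : PowerSeries R) ^ K ∣ f - g

theorem s44hg_cong_iff (K : ℕ) (f g : PowerSeries R) :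
    s44hg_Cong K f g ↔
      Ideal.Quotient.mk (Ideal.span {(PowerSeries.X : PowerSeries R) ^ K}) f =
        Ideal.Quotient.mk (Ideal.span {(PowerSeries.X : PowerSeries R) ^ K}) g := by
  rw [Ideal.Quotient.eq, Ideal.mem_span_singleton]
  rfl

theorem s44hg_cong_refl (K : ℕ) (f : PowerSeries R) : s44hg_Cong K f f := by
  rw [s44hg_cong_iff]

theorem s44hg_Cong.symm {K : ℕ} {f g : PowerSeries R} (h : s44hg_Cong K f g) :
    s44hg_Cong K g f := by
  rw [s44hg_cong_iff] at h ⊢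
  exact h.symm

theorem s44hg_Cong.trans {K : ℕ} {f g h : PowerSeries R} (h1 : s44hg_Cong K f g)
    (h2 : s44hg_Cong K g h) : s44hg_Cong K f h := by
  rw [s44hg_cong_iff] at h1 h2 ⊢
  exact h1.trans h2

theorem s44hg_Cong.mul {K : ℕ} {f g f' g' : PowerSeries R} (h1 : s44hg_Cong K f g)
    (h2 : s44hg_Cong K f' g') : s44hg_Cong K (f * f') (g * g') := by
  rw [s44hg_cong_iff] at h1 h2 ⊢
  rw [map_mul, map_mul, h1, h2]

theorem s44hg_Cong.pow {K : ℕ} {f g : PowerSeries R} (h1 : s44hg_Cong K f g) (n : ℕ) :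
    s44hg_Cong K (f ^ n) (g ^ n) := by
  rw [s44hg_cong_iff] at h1 ⊢
  rw [map_pow, map_pow, h1]

theorem s44hg_cong_prod {K : ℕ} {ι : Type*} (s : Finset ι) {f g : ι → PowerSeries R}
    (h : ∀ i ∈ s, s44hg_Cong K (f i) (g i)) :
    s44hg_Cong K (∏ i ∈ s, f i) (∏ i ∈ s, g i) := by
  rw [s44hg_cong_iff, map_prod, map_prod]
  exact Finset.prod_congr rfl fun i hi => (s44hg_cong_iff K _ _).mp (h i hi)

theorem s44hg_Cong.of_le {K K' : ℕ} (hK : K ≤ K') {f g : PowerSeries R}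
    (h : s44hg_Cong K' f g) : s44hg_Cong K f g :=
  (pow_dvd_pow _ hK).trans h

theorem s44hg_Cong.map {K : ℕ} (φ : PowerSeries R →+* PowerSeries R)
    (hφ : (PowerSeries.X : PowerSeries R) ^ K ∣ φ (PowerSeries.X ^ K)) {f g : PowerSeries R}
    (h : s44hg_Cong K f g) : s44hg_Cong K (φ f) (φ g) := by
  unfold s44hg_Cong at h ⊢
  rw [← map_sub]
  exact hφ.trans (map_dvd φ h)

theorem s44hg_cong_expand {K : ℕ} (k : ℕ) (hk : k ≠ 0) {f g : PowerSeries R}
    (h : s44hg_Cong K f g) :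
    s44hg_Cong K (PowerSeries.expand k hk f) (PowerSeries.expand k hk g) := by
  refine s44hg_Cong.map ((PowerSeries.expand k hk : PowerSeries R →ₐ[R] PowerSeries R) :
    PowerSeries R →+* PowerSeries R) ?_ h
  rw [RingHom.coe_coe, map_pow, PowerSeries.expand_X, ← pow_mul, mul_comm, pow_mul]
  exact dvd_pow_self _ hk

theorem s44hg_cong_rescale {K : ℕ} (c : R) {f g : PowerSeries R}
    (h : s44hg_Cong K f g) :
    s44hg_Cong K (PowerSeries.rescale c f) (PowerSeries.rescale c g) := by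
  refine s44hg_Cong.map (PowerSeries.rescale c) ?_ h
  rw [map_pow, PowerSeries.rescale_X, mul_pow]
  exact dvd_mul_left _ _

theorem s44hg_eq_of_cong {f g : PowerSeries R} (h : ∀ K, s44hg_Cong K f g) : f = g := by
  ext k
  have := (PowerSeries.X_pow_dvd_iff.mp (h (k + 1))) k (Nat.lt_succ_self k)
  rwa [map_sub, sub_eq_zero] at this

end Cong

/-! ### The cyclotomic products -/

section Cyclo

variable {S : Type*} [CommRing S] [IsDomain S]

theorem s44hg_prod_nthRoots {n : ℕ} (hn : 0 < n) {ξ : S} (hξ : IsPrimitiveRoot ξ n)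
    (F : S → S) :
    ∏ ζ ∈ Polynomial.nthRootsFinset n (1 : S), F ζ = ∏ b ∈ Finset.range n, F (ξ ^ b) := by
  classical
  haveI : NeZero n := ⟨hn.ne'⟩
  have h1 : Polynomial.nthRootsFinset n (1 : S) = (Finset.range n).image (fun b => ξ ^ b) := by
    ext x
    rw [Polynomial.mem_nthRootsFinset hn, Finset.mem_image]
    constructor
    · intro hx
      obtain ⟨i, hi, rfl⟩ := hξ.eq_pow_of_pow_eq_one hx
      exact ⟨i, Finset.mem_range.mpr hi, rfl⟩
    · rintro ⟨i, -, rfl⟩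
      rw [← pow_mul, mul_comm, pow_mul, hξ.pow_eq_one, one_pow]
  rw [h1, Finset.prod_image]
  intro i hi j hj hij
  exact hξ.pow_inj (Finset.mem_range.mp hi) (Finset.mem_range.mp hj) hij

/-- `∏_{b<n} (1 - ξ^b T) = 1 - T^n` for a primitive `n`-th root of unity `ξ`. -/
theorem s44hg_prod_one_sub {n : ℕ} (hn : 0 < n) {ξ : S} (hξ : IsPrimitiveRoot ξ n) (T : S) :
    ∏ b ∈ Finset.range n, (1 - ξ ^ b * T) = 1 - T ^ n := by
  have h := hξ.pow_sub_pow_eq_prod_sub_mul (1 : S) T hn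
  rw [one_pow] at h
  rw [h, s44hg_prod_nthRoots hn hξ]

end Cyclo

/-! ### The finite identity -/

section Finite

open PowerSeries

variable {R : Type*} [CommRing R]

theorem s44hg_expand_one_sub (k : ℕ) (hk : k ≠ 0) (n : ℕ) :
    PowerSeries.expand k hk ((1 : PowerSeries R) - PowerSeries.X ^ n) =
      1 - PowerSeries.X ^ (k * n) := by
  rw [map_sub, map_one, map_pow, PowerSeries.expand_X, ← pow_mul]

theorem s44hg_rescale_one_sub (c : R) (n : ℕ) :
    PowerSeries.rescale c ((1 : PowerSeries R) - PowerSeries.X ^ n) =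
      1 - (PowerSeries.C c ^ n) * PowerSeries.X ^ n := by
  rw [map_sub, map_one, map_pow, PowerSeries.rescale_X, mul_pow]

theorem s44hg_prod_rescale_of_dvd {ℓ : ℕ} {ζ : R} (hζ : ζ ^ ℓ = 1) {n : ℕ} (hn : ℓ ∣ n) :
    ∏ b ∈ Finset.range ℓ, PowerSeries.rescale (ζ ^ b) ((1 : PowerSeries R) - PowerSeries.X ^ n) =
      (1 - PowerSeries.X ^ n) ^ ℓ := by
  obtain ⟨k, rfl⟩ := hn
  have h : ∀ b ∈ Finset.range ℓ, PowerSeries.rescale (ζ ^ b)
      ((1 : PowerSeries R) - PowerSeries.X ^ (ℓ * k)) = 1 - PowerSeries.X ^ (ℓ * k) := by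
    intro b _
    rw [s44hg_rescale_one_sub, ← map_pow, ← pow_mul, mul_comm b, mul_assoc, pow_mul, hζ, one_pow,
      map_one, one_mul]
  rw [Finset.prod_congr rfl h, Finset.prod_const, Finset.card_range]

/-- the left hand side of the identity, as a function of two arguments -/
def s44hg_L (ℓ : ℕ) (hℓ : ℓ ≠ 0) (ζ : R) (f g : PowerSeries R) : PowerSeries R :=
  PowerSeries.expand (ℓ ^ 2) (pow_ne_zero 2 hℓ) f *
    ∏ b ∈ Finset.range ℓ, PowerSeries.rescale (ζ ^ b) g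

/-- the right hand side of the identity, as a function of two arguments -/
def s44hg_D (ℓ : ℕ) (hℓ : ℓ ≠ 0) (f g : PowerSeries R) : PowerSeries R :=
  PowerSeries.expand ℓ hℓ g * (PowerSeries.expand ℓ hℓ f) ^ ℓ

theorem s44hg_L_mul (ℓ : ℕ) (hℓ : ℓ ≠ 0) (ζ : R) (f f' g g' : PowerSeries R) :
    s44hg_L ℓ hℓ ζ (f * f') (g * g') = s44hg_L ℓ hℓ ζ f g * s44hg_L ℓ hℓ ζ f' g' := by
  unfold s44hg_L
  simp only [map_mul, Finset.prod_mul_distrib]
  ring

theorem s44hg_D_mul (ℓ : ℕ) (hℓ : ℓ ≠ 0) (f f' g g' : PowerSeries R) :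
    s44hg_D ℓ hℓ (f * f') (g * g') = s44hg_D ℓ hℓ f g * s44hg_D ℓ hℓ f' g' := by
  unfold s44hg_D
  simp only [map_mul]
  ring

theorem s44hg_L_one (ℓ : ℕ) (hℓ : ℓ ≠ 0) (ζ : R) : s44hg_L ℓ hℓ ζ 1 1 = 1 := by
  unfold s44hg_L
  simp

theorem s44hg_D_one (ℓ : ℕ) (hℓ : ℓ ≠ 0) : s44hg_D (R := R) ℓ hℓ 1 1 = 1 := by
  unfold s44hg_D
  simp

variable [IsDomain R]

theorem s44hg_prod_rescale_of_not_dvd {ℓ : ℕ} (hℓ : ℓ.Prime) {ζ : R} (hζ : IsPrimitiveRoot ζ ℓ)
    {n : ℕ} (hn : ¬ ℓ ∣ n) :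
    ∏ b ∈ Finset.range ℓ, PowerSeries.rescale (ζ ^ b) ((1 : PowerSeries R) - PowerSeries.X ^ n) =
      1 - PowerSeries.X ^ (ℓ * n) := by
  have hξ : IsPrimitiveRoot (PowerSeries.C (ζ ^ n) : PowerSeries R) ℓ :=
    (hζ.pow_of_coprime n ((Nat.Prime.coprime_iff_not_dvd hℓ).mpr hn).symm).map_of_injective
      PowerSeries.C_injective
  have h := s44hg_prod_one_sub hℓ.pos hξ ((PowerSeries.X : PowerSeries R) ^ n)
  rw [← pow_mul, mul_comm n ℓ] at h
  rw [← h]
  refine Finset.prod_congr rfl fun b _ => ?_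
  rw [s44hg_rescale_one_sub]
  congr 2
  rw [← map_pow, ← map_pow, ← pow_mul, ← pow_mul, mul_comm]

theorem s44hg_local {ℓ : ℕ} (hℓ : ℓ.Prime) {ζ : R} (hζ : IsPrimitiveRoot ζ ℓ) (m : ℕ) :
    s44hg_L ℓ hℓ.ne_zero ζ ((1 : PowerSeries R) - PowerSeries.X ^ (m + 1))
        (∏ i ∈ Finset.range ℓ, (1 - PowerSeries.X ^ (ℓ * m + i + 1))) =
      s44hg_D ℓ hℓ.ne_zero ((1 : PowerSeries R) - PowerSeries.X ^ (m + 1))
        (∏ i ∈ Finset.range ℓ, (1 - PowerSeries.X ^ (ℓ * m + i + 1))) := by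
  unfold s44hg_L s44hg_D
  have hmem : ℓ - 1 ∈ Finset.range ℓ := Finset.mem_range.mpr (Nat.sub_lt hℓ.pos one_pos)
  have hlast : ℓ * m + (ℓ - 1) + 1 = ℓ * (m + 1) := by
    have := hℓ.pos
    rw [mul_add, mul_one]; omega
  simp only [map_prod]
  rw [Finset.prod_comm, s44hg_expand_one_sub, s44hg_expand_one_sub]
  have hL := (Finset.mul_prod_erase (Finset.range ℓ) (fun i => ∏ b ∈ Finset.range ℓ,
    PowerSeries.rescale (ζ ^ b) ((1 : PowerSeries R) - PowerSeries.X ^ (ℓ * m + i + 1))) hmem).symm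
  have hR := (Finset.mul_prod_erase (Finset.range ℓ) (fun i =>
    PowerSeries.expand ℓ hℓ.ne_zero ((1 : PowerSeries R) - PowerSeries.X ^ (ℓ * m + i + 1)))
    hmem).symm
  beta_reduce at hL hR
  rw [hL, hR]
  rw [hlast, s44hg_prod_rescale_of_dvd hζ.pow_eq_one (dvd_mul_right ℓ (m + 1)),
    s44hg_expand_one_sub]
  have hrest : ∀ i ∈ (Finset.range ℓ).erase (ℓ - 1),
      ∏ b ∈ Finset.range ℓ, PowerSeries.rescale (ζ ^ b)
        ((1 : PowerSeries R) - PowerSeries.X ^ (ℓ * m + i + 1)) =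
      PowerSeries.expand ℓ hℓ.ne_zero (1 - PowerSeries.X ^ (ℓ * m + i + 1)) := by
    intro i hi
    rw [Finset.mem_erase, Finset.mem_range] at hi
    rw [s44hg_expand_one_sub]
    refine s44hg_prod_rescale_of_not_dvd hℓ hζ ?_
    intro hdvd
    have h1 : ℓ ∣ i + 1 := by
      have : ℓ * m + i + 1 = ℓ * m + (i + 1) := by ring
      rw [this] at hdvd
      exact (Nat.dvd_add_right (dvd_mul_right ℓ m)).mp hdvd
    have h2 := Nat.le_of_dvd (Nat.succ_pos i) h1
    omega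
  rw [Finset.prod_congr rfl hrest]
  have he : ℓ ^ 2 * (m + 1) = ℓ * (ℓ * (m + 1)) := by ring
  rw [he]
  ring

/-- **The finite identity.** -/
theorem s44hg_finite {ℓ : ℕ} (hℓ : ℓ.Prime) {ζ : R} (hζ : IsPrimitiveRoot ζ ℓ) (m : ℕ) :
    s44hg_L ℓ hℓ.ne_zero ζ (s44hg_P R m) (s44hg_P R (ℓ * m)) =
      s44hg_D ℓ hℓ.ne_zero (s44hg_P R m) (s44hg_P R (ℓ * m)) := by
  induction m with
  | zero =>
    rw [mul_zero]
    unfold s44hg_P
    rw [Finset.range_zero, Finset.prod_empty, s44hg_L_one, s44hg_D_one]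
  | succ m ih =>
    rw [s44hg_P_succ, mul_add, mul_one, s44hg_P_add, s44hg_L_mul, s44hg_D_mul, ih,
      s44hg_local hℓ hζ m]

theorem s44hg_cong_L {K : ℕ} (ℓ : ℕ) (hℓ : ℓ ≠ 0) (ζ : R) {f f' g g' : PowerSeries R}
    (hf : s44hg_Cong K f f') (hg : s44hg_Cong K g g') :
    s44hg_Cong K (s44hg_L ℓ hℓ ζ f g) (s44hg_L ℓ hℓ ζ f' g') :=
  (s44hg_cong_expand _ _ hf).mul (s44hg_cong_prod _ fun _ _ => s44hg_cong_rescale _ hg)

theorem s44hg_cong_D {K : ℕ} (ℓ : ℕ) (hℓ : ℓ ≠ 0) {f f' g g' : PowerSeries R}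
    (hf : s44hg_Cong K f f') (hg : s44hg_Cong K g g') :
    s44hg_Cong K (s44hg_D ℓ hℓ f g) (s44hg_D ℓ hℓ f' g') :=
  (s44hg_cong_expand _ _ hg).mul ((s44hg_cong_expand _ _ hf).pow _)

/-- **The formal eta identity, power series form**:
`E(X^{ℓ²}) · ∏_{b<ℓ} E(ζ^b X) = E(X^ℓ)^{ℓ+1}`. -/
theorem s44hg_eta_PS {ℓ : ℕ} (hℓ : ℓ.Prime) {ζ : R} (hζ : IsPrimitiveRoot ζ ℓ) :
    s44hg_L ℓ hℓ.ne_zero ζ (s44hg_E R) (s44hg_E R) =
      s44hg_D ℓ hℓ.ne_zero (s44hg_E R) (s44hg_E R) := by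
  refine s44hg_eq_of_cong fun K => ?_
  have h1 : s44hg_Cong K (s44hg_E R) (s44hg_P R K) :=
    s44hg_Cong.of_le (Nat.le_succ K) (s44hg_dvd_E_sub_P R K)
  have h2 : s44hg_Cong K (s44hg_E R) (s44hg_P R (ℓ * K)) := by
    refine s44hg_Cong.of_le ?_ (s44hg_dvd_E_sub_P R (ℓ * K))
    have := Nat.le_mul_of_pos_left K hℓ.pos
    omega
  have h3 := s44hg_cong_L ℓ hℓ.ne_zero ζ h1 h2
  have h4 := s44hg_cong_D ℓ hℓ.ne_zero h1 h2
  rw [s44hg_finite hℓ hζ K] at h3
  exact h3.trans h4.symm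

/-- **(F1), in the shape consumed by `UnitFormal.lean`.** -/
theorem s44hg_eta (l : ℕ) (hl : l.Prime) (ζ : R) (hζ : IsPrimitiveRoot ζ l) :
    PowerSeries.expand (l ^ 2) (pow_ne_zero 2 hl.ne_zero)
        (PowerSeries.map (Int.castRingHom R) ModularCurve.etaProd) *
      ∏ b ∈ Finset.range l, PowerSeries.rescale (ζ ^ b)
        (PowerSeries.map (Int.castRingHom R) ModularCurve.etaProd) =
      (PowerSeries.expand l hl.ne_zero
        (PowerSeries.map (Int.castRingHom R) ModularCurve.etaProd)) ^ (l + 1) := by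
  have h := s44hg_eta_PS hl hζ
  unfold s44hg_L s44hg_D s44hg_E at h
  rw [h, pow_succ']

end Finite

end Fermat.Agent.S44
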