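/-
S44, cell [E3] HECKE-RES, leaf (U-T), FORMAL HALF (helper24; prefix `s44hf_`).

The multiplicative "Hecke relation" of formal Laurent series
  `Y(q^{ℓ²}) · ∏_{b<ℓ} Y(ζ^b q) = ε · Y(q^ℓ)^{ℓ+1}`        (`s44hf_Rel ℓ ζ ε Y`)
(`ζ` a primitive `ℓ`-th root of unity) is stable under products, inverses, powers and under
`q ↦ q^p` for `p` prime to `ℓ`; it holds for `Y = q` with `ε = ∏ ζ^b`, and for Euler's product
`E = ∏ (1 - q^n)` with `ε = 1` (the input `hEta`, a statement about `PowerSeries`, proved in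
`HeckeRes/EtaProdPS.lean`).  Hence it holds with `ε = 1` for the modular unit
`U = Δ(q)/Δ(q^p)` (`s44hf_unit_of`), which is what `nln_norm` needs for `N_α(β u) = u^{ℓ+1}`.
-/
import Mathlib
import Fermat.Prelude.Def_ModularCurve_ModularUnit
import Fermat.Agent.S28.Formal.Series

set_option autoImplicit false

noncomputable section

namespace Fermat.Agent.S44

open ModularCurve HahnSeries Fermat.Agent.S28 Finset

section Transport

variable {R : Type*} [CommRing R]

/-- `ofPowerSeries` intertwines `PowerSeries.expand` and `qExpand`. -/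
theorem s44hf_ofPowerSeries_expand (m : ℕ) [NeZero m] (f : PowerSeries R) :
    HahnSeries.ofPowerSeries ℤ R (PowerSeries.expand m (NeZero.ne m) f) =
      qExpand R m (HahnSeries.ofPowerSeries ℤ R f) := by
  ext k
  rcases le_or_gt 0 k with hk | hk
  · lift k to ℕ using hk
    rw [HahnSeries.ofPowerSeries_apply_coeff, PowerSeries.coeff_expand]
    split_ifs with h
    · obtain ⟨n, rfl⟩ := h
      rw [Nat.mul_div_cancel_left _ (Nat.pos_of_ne_zero (NeZero.ne m))]
      have : ((m * n : ℕ) : ℤ) = (m : ℤ) * (n : ℤ) := by push_cast; ring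
      rw [this, qExpand_coeff_mul, HahnSeries.ofPowerSeries_apply_coeff]
    · rw [qExpand_coeff_of_not_dvd]
      intro h'
      exact h (by exact_mod_cast h')
  · rw [ofPowerSeries_coeff_of_neg _ hk]
    by_cases h : (m : ℤ) ∣ k
    · obtain ⟨n, rfl⟩ := h
      rw [qExpand_coeff_mul, ofPowerSeries_coeff_of_neg]
      have hm : (0 : ℤ) < m := by exact_mod_cast Nat.pos_of_ne_zero (NeZero.ne m)
      by_contra hn
      rw [not_lt] at hn
      exact absurd hk (not_lt.2 (mul_nonneg hm.le hn))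
    · rw [qExpand_coeff_of_not_dvd m _ h]

/-- `ofPowerSeries` intertwines `PowerSeries.rescale` and `fs_twist`. -/
theorem s44hf_ofPowerSeries_rescale (c : Rˣ) (f : PowerSeries R) :
    HahnSeries.ofPowerSeries ℤ R (PowerSeries.rescale (c : R) f) =
      fs_twist c (HahnSeries.ofPowerSeries ℤ R f) := by
  ext k
  rw [fs_twist_coeff]
  rcases le_or_gt 0 k with hk | hk
  · lift k to ℕ using hk
    rw [HahnSeries.ofPowerSeries_apply_coeff, HahnSeries.ofPowerSeries_apply_coeff,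
      PowerSeries.coeff_rescale, zpow_natCast, Units.val_pow_eq_pow_val]
  · rw [ofPowerSeries_coeff_of_neg _ hk, ofPowerSeries_coeff_of_neg _ hk, mul_zero]

end Transport

section Rel

variable {R : Type*} [Field R]

/-- the multiplicative Hecke relation `Y(q^{ℓ²}) ∏_{b<ℓ} Y(ζ^b q) = ε Y(q^ℓ)^{ℓ+1}`. -/
def s44hf_Rel (l : ℕ) [NeZero l] [NeZero (l ^ 2)] (ζ : Rˣ) (ε : R) (Y : LaurentSeries R) : Prop :=
  qExpand R (l ^ 2) Y * ∏ b ∈ Finset.range l, fs_twist (ζ ^ b) Y =
    HahnSeries.C ε * (qExpand R l Y) ^ (l + 1)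

variable {l : ℕ} [NeZero l] [NeZero (l ^ 2)] {ζ : Rˣ}

theorem s44hf_Rel.one : s44hf_Rel l ζ (1 : R) (1 : LaurentSeries R) := by
  unfold s44hf_Rel
  simp

theorem s44hf_Rel.mul {ε ε' : R} {Y Y' : LaurentSeries R} (h : s44hf_Rel l ζ ε Y)
    (h' : s44hf_Rel l ζ ε' Y') : s44hf_Rel l ζ (ε * ε') (Y * Y') := by
  unfold s44hf_Rel at *
  simp only [map_mul, Finset.prod_mul_distrib, mul_pow]
  calc qExpand R (l ^ 2) Y * qExpand R (l ^ 2) Y' *
        ((∏ b ∈ Finset.range l, fs_twist (ζ ^ b) Y) * ∏ b ∈ Finset.range l, fs_twist (ζ ^ b) Y')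
      = (qExpand R (l ^ 2) Y * ∏ b ∈ Finset.range l, fs_twist (ζ ^ b) Y) *
        (qExpand R (l ^ 2) Y' * ∏ b ∈ Finset.range l, fs_twist (ζ ^ b) Y') := by ring
    _ = _ := by rw [h, h']; ring

theorem s44hf_Rel.pow {ε : R} {Y : LaurentSeries R} (h : s44hf_Rel l ζ ε Y) (n : ℕ) :
    s44hf_Rel l ζ (ε ^ n) (Y ^ n) := by
  induction n with
  | zero => simpa using s44hf_Rel.one (l := l) (ζ := ζ)
  | succ n ih => simpa [pow_succ] using ih.mul h

theorem s44hf_Rel.inv {ε : R} {Y : LaurentSeries R} (h : s44hf_Rel l ζ ε Y) (hε : ε ≠ 0)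
    (hY : Y ≠ 0) : s44hf_Rel l ζ ε⁻¹ Y⁻¹ := by
  unfold s44hf_Rel at *
  have h1 : qExpand R (l ^ 2) Y ≠ 0 := (map_ne_zero _).2 hY
  have h2 : qExpand R l Y ≠ 0 := (map_ne_zero _).2 hY
  have h3 : ∀ b ∈ Finset.range l, fs_twist (ζ ^ b) Y ≠ 0 := fun b _ => (map_ne_zero _).2 hY
  have h4 : (∏ b ∈ Finset.range l, fs_twist (ζ ^ b) Y) ≠ 0 := Finset.prod_ne_zero_iff.2 h3
  have h5 : (HahnSeries.C ε : LaurentSeries R) ≠ 0 := (map_ne_zero _).2 hε
  simp only [map_inv₀, Finset.prod_inv_distrib, inv_pow]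
  rw [← mul_inv, h, mul_inv]

/-- the relation for `Y = q`, with `ε = ∏ ζ^b`. -/
theorem s44hf_Rel.q :
    s44hf_Rel l ζ (((∏ b ∈ Finset.range l, ζ ^ b : Rˣ) : Rˣ) : R)
      (HahnSeries.single (1 : ℤ) (1 : R)) := by
  unfold s44hf_Rel
  simp only [qExpand_single, fs_twist_single, zpow_one, mul_one]
  have h1 : ∏ b ∈ Finset.range l, (HahnSeries.single (1 : ℤ) (((ζ ^ b : Rˣ) : R)) : LaurentSeries R) =
      HahnSeries.C (((∏ b ∈ Finset.range l, ζ ^ b : Rˣ) : Rˣ) : R) *
        (HahnSeries.single (1 : ℤ) (1 : R)) ^ l := by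
    have : ∀ b ∈ Finset.range l, (HahnSeries.single (1 : ℤ) (((ζ ^ b : Rˣ) : R)) : LaurentSeries R) =
        HahnSeries.C (((ζ ^ b : Rˣ) : R)) * HahnSeries.single (1 : ℤ) (1 : R) := by
      intro b _
      rw [HahnSeries.C_apply, HahnSeries.single_mul_single, zero_add, mul_one]
    rw [Finset.prod_congr rfl this, Finset.prod_mul_distrib, Finset.prod_const, Finset.card_range,
      ← map_prod, Units.coe_prod]
  rw [h1, HahnSeries.single_pow, HahnSeries.single_pow, one_pow, one_pow]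
  rw [HahnSeries.C_apply, HahnSeries.single_mul_single, HahnSeries.single_mul_single,
    HahnSeries.single_mul_single]
  congr 1
  · simp only [nsmul_eq_mul]
    push_cast
    ring_nf
  · ring

omit [NeZero (l ^ 2)] in
/-- reindexing `b ↦ p b mod l` of a product over `range l`, `p` prime to `l`. -/
theorem s44hf_prod_reindex {M : Type*} [CommMonoid M] (F : ℕ → M) (p : ℕ)
    (hpl : Nat.Coprime p l) :
    ∏ b ∈ Finset.range l, F ((p * b) % l) = ∏ b ∈ Finset.range l, F b := by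
  have hl0 : 0 < l := Nat.pos_of_ne_zero (NeZero.ne l)
  have hinj : Set.InjOn (fun b => (p * b) % l) (Finset.range l : Set ℕ) := by
    intro b hb b' hb' h
    have hb1 : b < l := Finset.mem_range.1 hb
    have hb2 : b' < l := Finset.mem_range.1 hb'
    have h1 : p * b ≡ p * b' [MOD l] := h
    have h2 : b ≡ b' [MOD l] := Nat.ModEq.cancel_left_of_coprime (Nat.Coprime.symm hpl) h1
    have h3 : b % l = b' % l := h2
    rwa [Nat.mod_eq_of_lt hb1, Nat.mod_eq_of_lt hb2] at h3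
  have himg : (Finset.range l).image (fun b => (p * b) % l) = Finset.range l := by
    apply Finset.eq_of_subset_of_card_le
    · intro c hc
      obtain ⟨b, -, rfl⟩ := Finset.mem_image.1 hc
      exact Finset.mem_range.2 (Nat.mod_lt _ hl0)
    · rw [Finset.card_image_of_injOn hinj]
  rw [← Finset.prod_image (f := F) (g := fun b => (p * b) % l) hinj, himg]

/-- the relation is stable under `q ↦ q^p`, `p` prime to `l`. -/
theorem s44hf_Rel.qExpand {ε : R} {Y : LaurentSeries R} (h : s44hf_Rel l ζ ε Y)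
    (hζ : ζ ^ l = 1) (p : ℕ) [NeZero p] (hpl : Nat.Coprime p l) :
    s44hf_Rel l ζ ε (qExpand R p Y) := by
  unfold s44hf_Rel at *
  have e1 : ModularCurve.qExpand R (l ^ 2) (ModularCurve.qExpand R p Y) =
      ModularCurve.qExpand R p (ModularCurve.qExpand R (l ^ 2) Y) := by
    rw [qExpand_qExpand, qExpand_qExpand]
    exact qExpand_congr (mul_comm _ _) Y
  have e2 : ModularCurve.qExpand R l (ModularCurve.qExpand R p Y) =
      ModularCurve.qExpand R p (ModularCurve.qExpand R l Y) := by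
    rw [qExpand_qExpand, qExpand_qExpand]
    exact qExpand_congr (mul_comm _ _) Y
  have e3 : ∀ b : ℕ, fs_twist (ζ ^ b) (ModularCurve.qExpand R p Y) =
      ModularCurve.qExpand R p (fs_twist (ζ ^ ((p * b) % l)) Y) := by
    intro b
    rw [← fs_qExpand_twist]
    congr 2
    rw [← _root_.pow_mul, mul_comm b p]
    conv_lhs => rw [← Nat.div_add_mod (p * b) l]
    rw [_root_.pow_add, _root_.pow_mul, hζ, one_pow, one_mul]
  rw [e1, e2, Finset.prod_congr rfl (fun b _ => e3 b), ← map_prod, ← map_mul,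
    s44hf_prod_reindex (fun c => fs_twist (ζ ^ c) Y) p hpl, h, map_mul, map_pow, qExpand_C]

end Rel

section Unit

/-- Euler's product `∏ (1 - X^n)` over `R`. -/
def s44hf_E (R : Type*) [CommRing R] : PowerSeries R :=
  PowerSeries.map (Int.castRingHom R) ModularCurve.etaProd

variable {R : Type*} [Field R] [CharZero R]
variable {l : ℕ} [NeZero l] [NeZero (l ^ 2)] {ζ : Rˣ}

/-- the power-series identity for Euler's product (proved in `HeckeRes/EtaProdPS.lean`). -/
def s44hf_EtaId (R : Type*) [Field R] (l : ℕ) [NeZero l] [NeZero (l ^ 2)] (z : R) : Prop :=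
  PowerSeries.expand (l ^ 2) (NeZero.ne (l ^ 2)) (s44hf_E R) *
      ∏ b ∈ Finset.range l, PowerSeries.rescale (z ^ b) (s44hf_E R) =
    (PowerSeries.expand l (NeZero.ne l) (s44hf_E R)) ^ (l + 1)

omit [CharZero R] in
theorem s44hf_rel_eta (hEta : s44hf_EtaId R l (ζ : R)) :
    s44hf_Rel l ζ (1 : R) (HahnSeries.ofPowerSeries ℤ R (s44hf_E R)) := by
  unfold s44hf_Rel
  have h := congrArg (HahnSeries.ofPowerSeries ℤ R) hEta
  rw [map_mul, map_prod, map_pow, s44hf_ofPowerSeries_expand, s44hf_ofPowerSeries_expand] at h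
  rw [map_one, one_mul, ← h]
  congr 1
  refine Finset.prod_congr rfl fun b _ => ?_
  rw [← s44hf_ofPowerSeries_rescale, Units.val_pow_eq_pow_val]

/-- `Δ` over `R` is `q · E^24`. -/
theorem s44hf_delta_eq :
    coeffEmb R deltaSeries =
      HahnSeries.single (1 : ℤ) (1 : R) * (HahnSeries.ofPowerSeries ℤ R (s44hf_E R)) ^ 24 := by
  rw [coeffEmb, deltaSeries, map_mul, coeffMap_single, map_one, fs_coeffMap_ofPowerSeries,
    dedekindEtaUnitQ, fs_map_map_intCast, dedekindEtaUnit, map_pow, map_pow]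
  rfl

theorem s44hf_delta_ne_zero : coeffEmb R deltaSeries ≠ 0 :=
  (map_ne_zero (coeffEmb R)).2 deltaSeries_ne_zero

theorem s44hf_rel_delta (hEta : s44hf_EtaId R l (ζ : R)) :
    s44hf_Rel l ζ (((∏ b ∈ Finset.range l, ζ ^ b : Rˣ) : Rˣ) : R) (coeffEmb R deltaSeries) := by
  rw [s44hf_delta_eq]
  have h := (s44hf_Rel.q (l := l) (ζ := ζ)).mul ((s44hf_rel_eta hEta).pow 24)
  rwa [one_pow, mul_one] at h

/-- the modular unit over `R` is `Δ / Δ(q^p)`. -/
theorem s44hf_unit_eq (p : ℕ) [NeZero p] :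
    coeffEmb R (modularUnitSeries p) =
      coeffEmb R deltaSeries * (qExpand R p (coeffEmb R deltaSeries))⁻¹ := by
  rw [modularUnitSeries, map_mul, map_inv₀, deltaSeriesN, coeffEmb, fs_coeffMap_qExpand]

/-- **(U-T), formal half**: the modular unit `U = Δ(q)/Δ(q^p)` satisfies
`U(q^{l²}) ∏_{b<l} U(ζ^b q) = U(q^l)^{l+1}` for `p` prime to `l`, given the identity for Euler's
product. -/
theorem s44hf_unit_of (hζ : ζ ^ l = 1) (p : ℕ) [NeZero p] (hpl : Nat.Coprime p l)
    (hEta : s44hf_EtaId R l (ζ : R)) :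
    qExpand R (l ^ 2) (coeffEmb R (modularUnitSeries p)) *
        ∏ b ∈ Finset.range l, fs_twist (ζ ^ b) (coeffEmb R (modularUnitSeries p)) =
      (qExpand R l (coeffEmb R (modularUnitSeries p))) ^ (l + 1) := by
  have hΔ := s44hf_rel_delta (l := l) (ζ := ζ) hEta
  have hε : (((∏ b ∈ Finset.range l, ζ ^ b : Rˣ) : Rˣ) : R) ≠ 0 := Units.ne_zero _
  have hΔp := (hΔ.qExpand hζ p hpl).inv hε ((map_ne_zero _).2 s44hf_delta_ne_zero)
  have h := hΔ.mul hΔp
  rw [mul_inv_cancel₀ hε, ← s44hf_unit_eq] at h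
  unfold s44hf_Rel at h
  rw [h, map_one, one_mul]

end Unit

end Fermat.Agent.S44
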