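/-
S44, cell [E3] HECKE-RES, leaf (U-T) (helper24; prefix `s44hu_`): the modular unit is a Hecke
eigen-unit: `N_α (β u) = u ^ (ℓ + 1)` in `F̄_N`, for `u = Δ(q)/Δ(q^p)`, `p ∣ N`, `ℓ ∤ N` prime.

Proof: `nln_norm` (JT3/NL/Norm.lean: `(N_α (β y))(q^ℓ) = y(q^{ℓ²}) ∏_{b<ℓ} y(ζ^b q)`) +
the formal identity `s44hf_unit_of` (HeckeRes/UnitFormal.lean) + injectivity of `q ↦ q^ℓ`.
The Euler-product identity `s44hf_EtaId` is helper22's `s44hg_eta` (HeckeRes/EtaProdPS.lean).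
-/
import Mathlib
import Fermat.Agent.S44.HeckeRes.UnitDef
import Fermat.Agent.S44.HeckeRes.UnitFormal
import Fermat.Agent.S44.HeckeRes.EtaProdPS
import Fermat.Agent.JT3.NL.Norm
import Fermat.Agent.JT3.NL.Degree
import Fermat.Agent.JT3.NL.Swap
import Fermat.Agent.S35.PEquiv.NormAlong

set_option autoImplicit false
set_option linter.unusedSectionVars false
set_option linter.style.haveILetI false

noncomputable section

namespace Fermat.Agent.S44

open ModularCurve AlgebraicCurve Fermat.Agent.JT3 Fermat.Agent.S35 Fermat.Agent.S28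

local notation "Qb" => AlgebraicClosure ℚ

/-- `q ↦ q^m` is injective on Laurent series. -/
theorem s44hu_qExpand_injective (R : Type*) [CommRing R] (m : ℕ) [NeZero m] :
    Function.Injective (qExpand R m) := by
  intro x y h
  ext k
  have := congrArg (fun z : LaurentSeries R => z.coeff ((m : ℤ) * k)) h
  simpa only [qExpand_coeff_mul] using this

/-- **(U-T)**, modulo the Euler-product identity. -/
theorem s44hu_unit_hecke_of (p N : ℕ) [NeZero p] [NeZero N] (hpN : p ∣ N) (l : ℕ) [NeZero l]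
    [NeZero (l ^ 2)] (hl : l.Prime) (hlN : ¬ l ∣ N)
    (hEta : ∀ ζ : Qb, IsPrimitiveRoot ζ l → s44hf_EtaId Qb l ζ) :
    s35pe_normAlong (heckeAlphaBar Qb N l) (heckeBetaBar Qb N l (s44hu_U p N hpN)) =
      (s44hu_U p N hpN) ^ (l + 1) := by
  obtain ⟨ζ, hζ⟩ : ∃ ζ : Qbˣ, IsPrimitiveRoot ζ l := by
    haveI : NeZero ((l : ℕ) : Qb) := NeZero.charZero
    obtain ⟨ζ₀, hζ₀⟩ := HasEnoughRootsOfUnity.exists_primitiveRoot Qb l
    exact ⟨(hζ₀.isUnit (NeZero.ne _)).unit, by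
      rw [← IsPrimitiveRoot.coe_units_iff]; simpa using hζ₀⟩
  have hζ' : IsPrimitiveRoot ((ζ : Qbˣ) : Qb) l := IsPrimitiveRoot.coe_units_iff.2 hζ
  have hpl : Nat.Coprime p l := by
    rw [Nat.coprime_comm, Nat.Prime.coprime_iff_not_dvd hl]
    exact fun h => hlN (h.trans hpN)
  have h1 := nln_norm N l hl hlN (nld_finrankAlong N l hl hlN)
    (nls_exists_swap N l hl hlN) ζ hζ (s44hu_U p N hpN)
  rw [s44hu_coe_U, s44hf_unit_of hζ.pow_eq_one p hpl (hEta _ hζ'), ← map_pow] at h1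
  have h2 := s44hu_qExpand_injective Qb l h1
  apply Subtype.ext
  rw [SubmonoidClass.coe_pow, s44hu_coe_U, ← h2]
  rfl

/-- the formal Hecke relation for the modular unit (`s44hf_unit_of` + `s44hg_eta`). -/
theorem s44hf_unit {R : Type*} [Field R] [CharZero R] {l : ℕ} [NeZero l] [NeZero (l ^ 2)]
    (hl : l.Prime) {ζ : Rˣ} (hζ : IsPrimitiveRoot ζ l) (p : ℕ) [NeZero p]
    (hpl : Nat.Coprime p l) :
    qExpand R (l ^ 2) (coeffEmb R (modularUnitSeries p)) *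
        ∏ b ∈ Finset.range l, fs_twist (ζ ^ b) (coeffEmb R (modularUnitSeries p)) =
      (qExpand R l (coeffEmb R (modularUnitSeries p))) ^ (l + 1) :=
  s44hf_unit_of hζ.pow_eq_one p hpl
    (s44hg_eta l hl (ζ : R) (hζ.map_of_injective (f := Units.coeHom R) Units.val_injective))

/-- **(U-T)**: the modular unit `u = Δ(q)/Δ(q^p)` is a Hecke eigen-unit, `N_α (β u) = u^{ℓ+1}`
for every prime `ℓ ∤ N` (`p ∣ N`). -/
theorem s44hu_unit_hecke (p N : ℕ) [NeZero p] [NeZero N] (hpN : p ∣ N) (l : ℕ) [NeZero l]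
    (hl : l.Prime) (hlN : ¬ l ∣ N) :
    s35pe_normAlong (heckeAlphaBar Qb N l) (heckeBetaBar Qb N l (s44hu_U p N hpN)) =
      (s44hu_U p N hpN) ^ (l + 1) := by
  haveI : NeZero (l ^ 2) := ⟨pow_ne_zero 2 (NeZero.ne l)⟩
  exact s44hu_unit_hecke_of p N hpN l hl hlN fun ζ hζ => s44hg_eta l hl ζ hζ

/-- the same for `ℓ : Nat.Primes` (the shape of the `s44bg_` cells). -/
theorem s44hu_unit_hecke' (p N : ℕ) [NeZero p] [NeZero N] (hpN : p ∣ N) (ℓ : Nat.Primes)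
    (hℓN : ¬ (ℓ : ℕ) ∣ N) :
    haveI : NeZero (ℓ : ℕ) := ⟨ℓ.2.ne_zero⟩
    s35pe_normAlong (heckeAlphaBar Qb N ℓ) (heckeBetaBar Qb N ℓ (s44hu_U p N hpN)) =
      (s44hu_U p N hpN) ^ ((ℓ : ℕ) + 1) := by
  haveI : NeZero (ℓ : ℕ) := ⟨ℓ.2.ne_zero⟩
  exact s44hu_unit_hecke p N hpN (ℓ : ℕ) ℓ.2 hℓN

end Fermat.Agent.S44

end
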