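/-
S44, cell [E3] HECKE-RES, (E3-EIS) FINAL FORM (helper21; prefix `s44hu_`): `B_eis` for
`Sg = s44e_Sg`, `k = s44e_k2` (ruling R5), with (U-T) = helper24's `s44hu_unit_hecke` plugged in.

* `s44hu_BEis_final` : `B_ℓ (1/k2) = (ℓ + 1) (1/k2)` from
  `hne`  : `ord_Q ū ≢ 0 (p)` at the supersingular places [(U-NODE)(a) corollary = input of `k_ne`],
  `hoff` : `p ∣ ord_Q ū` at the non-cuspidal non-supersingular places [(U-NODE)(b) corollary];
* `s44hu_BEis_of_div` : the same from the EXACT divisor of `ū`: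
  `(a')` `Q` supersingular ⟹ `∃ T : ℤ, T * ord_Q ū = 12`; `(b')` `Q` non-cuspidal, not supersingular
  ⟹ `ord_Q ū = 0`;  `p ≥ 5`.
`B_ℓ = s44he_B (mzrh_beC kA M ℓ) (mzrh_alC kA M ℓ) hφ hψ p {Q | s44e_IsSS A M p hp hpM Q}`.
-/
import Mathlib
import Fermat.Agent.S44.HeckeRes.EisInst
import Fermat.Agent.S44.HeckeRes.UnitHecke

set_option autoImplicit false
set_option linter.unusedSectionVars false
set_option linter.unusedVariables false
set_option linter.style.haveILetI false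
set_option synthInstance.maxHeartbeats 400000
set_option maxHeartbeats 1000000

noncomputable section

namespace Fermat.Agent.S44

open ModularCurve AlgebraicCurve IntermediateField IsLocalRing Module
open Fermat.Agent.JT3 Fermat.Agent.SS Fermat.Agent.S35 Fermat.Agent.S24 Fermat.Agent.S28
open Fermat.Agent.MZ

local notation "Qb" => AlgebraicClosure ℚ

section EisFinal

variable (A : ValuationSubring Qb) {p : ℕ} [hp : Fact p.Prime] (hA : A.LiesOverPrime p)
  (M : ℕ) [NeZero M] [NeZero p] [NeZero (M * p)] (hpM : ¬ p ∣ M) (ℓ : ℕ) [NeZero ℓ]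

include hA in
/-- **(E3-EIS)** for `Sg = s44e_Sg`, `k = s44e_k2`; (U-T) plugged in. -/
theorem s44hu_BEis_final (hℓ : ℓ.Prime) (hℓN : ¬ ℓ ∣ M * p)
    [HasPrincipalDivisors (ResidueField ↥A) ↥(modularFunctionFieldFullC (ResidueField ↥A) (M * ℓ))]
    (hφ : (mzrh_beC (ResidueField ↥A) M ℓ).toRingHom.IsIntegral)
    (hψ : (mzrh_alC (ResidueField ↥A) M ℓ).toRingHom.IsIntegral)
    (hne : ∀ Q : Place (ResidueField ↥A) ↥(modularFunctionFieldFullC (ResidueField ↥A) M),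
      s44e_IsSS A M p hp.out hpM Q → s44e_ordU A M p Q ≠ 0)
    (hoff : ∀ Q : Place (ResidueField ↥A) ↥(modularFunctionFieldFullC (ResidueField ↥A) M),
      jcr_j (k := ResidueField ↥A) M ∈ Q.toValuationSubring → ¬ s44e_IsSS A M p hp.out hpM Q →
        (p : ℤ) ∣ Q.ord (s44e_ubar A M p)) :
    s44he_B (mzrh_beC (ResidueField ↥A) M ℓ) (mzrh_alC (ResidueField ↥A) M ℓ) hφ hψ p
        {Q | s44e_IsSS A M p hp.out hpM Q}
        (fun i => (s44e_k2 A M p hp.out hpM i)⁻¹) =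
      (((ℓ : ℕ) : ZMod p) + 1) • fun i => (s44e_k2 A M p hp.out hpM i)⁻¹ :=
  s44hu_BEis A hA M hpM ℓ hℓ hℓN hφ hψ
    (s44hu_unit_hecke p (M * p) (s44hu_dvd rfl) ℓ hℓ hℓN) hne hoff

include hA in
/-- **(E3-EIS)** from the exact divisor of `ū` at the non-cuspidal places, `p ≥ 5`. -/
theorem s44hu_BEis_of_div (hp5 : 5 ≤ p) (hℓ : ℓ.Prime) (hℓN : ¬ ℓ ∣ M * p)
    [HasPrincipalDivisors (ResidueField ↥A) ↥(modularFunctionFieldFullC (ResidueField ↥A) (M * ℓ))]
    (hφ : (mzrh_beC (ResidueField ↥A) M ℓ).toRingHom.IsIntegral)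
    (hψ : (mzrh_alC (ResidueField ↥A) M ℓ).toRingHom.IsIntegral)
    (ha : ∀ Q : Place (ResidueField ↥A) ↥(modularFunctionFieldFullC (ResidueField ↥A) M),
      s44e_IsSS A M p hp.out hpM Q → ∃ T : ℤ, T * Q.ord (s44e_ubar A M p) = 12)
    (hb : ∀ Q : Place (ResidueField ↥A) ↥(modularFunctionFieldFullC (ResidueField ↥A) M),
      jcr_j (k := ResidueField ↥A) M ∈ Q.toValuationSubring → ¬ s44e_IsSS A M p hp.out hpM Q →
        Q.ord (s44e_ubar A M p) = 0) :
    s44he_B (mzrh_beC (ResidueField ↥A) M ℓ) (mzrh_alC (ResidueField ↥A) M ℓ) hφ hψ p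
        {Q | s44e_IsSS A M p hp.out hpM Q}
        (fun i => (s44e_k2 A M p hp.out hpM i)⁻¹) =
      (((ℓ : ℕ) : ZMod p) + 1) • fun i => (s44e_k2 A M p hp.out hpM i)⁻¹ := by
  have h12 : ¬ (p : ℤ) ∣ 12 := by
    intro h
    have h1 : p ∣ 12 := by exact_mod_cast h
    have h2 : p ≤ 12 := Nat.le_of_dvd (by norm_num) h1
    have hpp := hp.out
    interval_cases p <;> simp_all (config := { decide := true })
  refine s44hu_BEis_final A hA M hpM ℓ hℓ hℓN hφ hψ (fun Q hQ => ?_) (fun Q hj hQ => ?_)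
  · obtain ⟨T, hT⟩ := ha Q hQ
    exact s44e_ordU_ne_zero A M p hp.out Q h12 hT
  · rw [hb Q hj hQ]
    exact dvd_zero _

/-- `k_ne` for `s44e_k2` from `(a')`, `p ≥ 5`. -/
theorem s44hu_k2_ne (hp5 : 5 ≤ p)
    (ha : ∀ Q : Place (ResidueField ↥A) ↥(modularFunctionFieldFullC (ResidueField ↥A) M),
      s44e_IsSS A M p hp.out hpM Q → ∃ T : ℤ, T * Q.ord (s44e_ubar A M p) = 12)
    (i : s44e_Sg A M p hp.out hpM) : s44e_k2 A M p hp.out hpM i ≠ 0 := by
  have h12 : ¬ (p : ℤ) ∣ 12 := by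
    intro h
    have h1 : p ∣ 12 := by exact_mod_cast h
    have h2 : p ≤ 12 := Nat.le_of_dvd (by norm_num) h1
    have hpp := hp.out
    interval_cases p <;> simp_all (config := { decide := true })
  obtain ⟨T, hT⟩ := ha i.1 i.2
  exact s44e_k2_ne_zero A M p hp.out hpM i (s44e_ordU_ne_zero A M p hp.out i.1 h12 hT)

end EisFinal

end Fermat.Agent.S44

end
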