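/-
S44, cell [E3] HECKE-RES, FINAL ASSEMBLY (helper21; prefix `s44hz_`): the operator `B` and the fields
`heckeRes`, `B_eis` (+ `k_ne`) of `s44bg_Cells` for `s44_frame2`, in helper25's exact shapes, with
`Sg = s44e_Sg`, `S = ∅`, `k = s44e_k2` (ruling R5), `ν = s44e_nu`.

* `s44hz_B A hA M hpM ℓ` : `= s44he_B β̄ ᾱ _ _ p {Q | s44e_IsSS Q}` for `ℓ ∤ M p`, `0` otherwise
  (`s44hz_B_eq`); `s44hz_B_frame2 P M hpM` its instance at `A = s44f_A P.p P.pp`;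
* `s44hz_heckeRes` / `s44hz_heckeRes_frame2` : `ν (T_ℓ z) = B_ℓ (ν z)` from
  (★★) `hHecke` (the shape of `s44bg_inst_oldK`) and (E2-ord) `s44e_OrdOff`;
* `s44hz_BEis` / `s44hz_BEis_frame2` : `B_ℓ (1/k) = (ℓ + 1) (1/k)` from (U-DIV) `(a')`, `(b')`;
* `s44hz_k_ne_frame2` : `k_i ≠ 0` from `(a')`.
-/
import Mathlib
import Fermat.Agent.S44.HeckeRes.EisFinal
import Fermat.Agent.S44.Res.Main
import Fermat.Agent.S44.Big.Seams

set_option autoImplicit false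
set_option linter.unusedSectionVars false
set_option linter.unusedVariables false
set_option linter.style.haveILetI false
set_option synthInstance.maxHeartbeats 400000
set_option maxHeartbeats 1000000

noncomputable section

namespace Fermat.Agent.S44

open ModularCurve AlgebraicCurve IntermediateField IsLocalRing Module
open Fermat.Agent.JT3 Fermat.Agent.SS Fermat.Agent.S35 Fermat.Agent.S24 Fermat.Agent.S28
open Fermat.Agent.MZ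

local notation "Qb" => AlgebraicClosure ℚ

section General

variable (A : ValuationSubring Qb) {p : ℕ} [hp : Fact p.Prime] (hA : A.LiesOverPrime p)
  (M : ℕ) [NeZero M] [NeZero p] [NeZero (M * p)] (hpM : ¬ p ∣ M)

omit [NeZero M] [NeZero p] [NeZero (M * p)] in
/-- `ℓ ∤ M p` prime ⟹ `p ∤ ℓ`. -/
theorem s44hz_not_dvd {ℓ : ℕ} (hℓ : ℓ.Prime) (hℓN : ¬ ℓ ∣ M * p) : ¬ p ∣ ℓ := by
  intro h
  have : p = ℓ := (Nat.prime_dvd_prime_iff_eq hp.out hℓ).mp h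
  exact hℓN (this ▸ dvd_mul_left p M)

include hA hpM in
theorem s44hz_beC_isIntegral (ℓ : ℕ) [NeZero ℓ] (hpℓ : ¬ p ∣ ℓ) :
    (mzrh_beC (ResidueField ↥A) M ℓ).toRingHom.IsIntegral := by
  haveI : CharP (ResidueField ↥A) p := jcr_charP A hA
  haveI : IsAlgClosed (ResidueField ↥A) := jcr_isAlgClosed A
  exact mzrh_beC_isIntegral M ℓ (vx_rho p (ResidueField ↥A)) hpM hpℓ

/-- **the operator `B_ℓ` of [BIG-ASM]** on `s44e_Sg → ZMod p`. -/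
def s44hz_B (ℓ : Nat.Primes) :
    (s44e_Sg A M p hp.out hpM → ZMod p) →+ (s44e_Sg A M p hp.out hpM → ZMod p) :=
  haveI : NeZero (ℓ : ℕ) := ⟨ℓ.2.ne_zero⟩
  if h : ¬ (ℓ : ℕ) ∣ M * p then
    haveI := s44hd_hasPrincipalDivisorsC A hA M (ℓ : ℕ) hpM (s44hz_not_dvd M ℓ.2 h)
    s44he_B (mzrh_beC (ResidueField ↥A) M (ℓ : ℕ)) (mzrh_alC (ResidueField ↥A) M (ℓ : ℕ))
      (s44hz_beC_isIntegral A hA M hpM (ℓ : ℕ) (s44hz_not_dvd M ℓ.2 h))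
      (s44hd_alC_isIntegral A hA M (ℓ : ℕ) hpM (s44hz_not_dvd M ℓ.2 h)) p
      {Q | s44e_IsSS A M p hp.out hpM Q}
  else 0

/-- unfolding `s44hz_B` at a good prime. -/
theorem s44hz_B_eq (ℓ : Nat.Primes) (h : ¬ (ℓ : ℕ) ∣ M * p) :
    haveI : NeZero (ℓ : ℕ) := ⟨ℓ.2.ne_zero⟩
    haveI := s44hd_hasPrincipalDivisorsC A hA M (ℓ : ℕ) hpM (s44hz_not_dvd M ℓ.2 h)
    s44hz_B A hA M hpM ℓ =
      s44he_B (mzrh_beC (ResidueField ↥A) M (ℓ : ℕ)) (mzrh_alC (ResidueField ↥A) M (ℓ : ℕ))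
        (s44hz_beC_isIntegral A hA M hpM (ℓ : ℕ) (s44hz_not_dvd M ℓ.2 h))
        (s44hd_alC_isIntegral A hA M (ℓ : ℕ) hpM (s44hz_not_dvd M ℓ.2 h)) p
        {Q | s44e_IsSS A M p hp.out hpM Q} := by
  unfold s44hz_B
  exact dif_pos h

/-- **[E3a] HECKE-RES** for `ν = s44e_nu`, `B = s44hz_B`, from (★★) and (E2-ord). -/
theorem s44hz_heckeRes
    (hHecke : ∀ ℓ : Nat.Primes, ¬ (ℓ : ℕ) ∣ M * p → ∀ (z : JZero (M * p)) (fb : s44e_FF A M),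
      p • z = 0 → s44e_Fbar A M p z fb →
      s44e_Fbar A M p (heckeOperatorBar (M * p) ℓ z)
        (haveI : NeZero (ℓ : ℕ) := ⟨ℓ.2.ne_zero⟩
         s35pe_normAlong (mzrh_alC (ResidueField ↥A) M ℓ) (mzrh_beC (ResidueField ↥A) M ℓ fb)))
    (hoff : s44e_OrdOff A hA M hpM)
    (ℓ : Nat.Primes) (hℓN : ¬ (ℓ : ℕ) ∣ M * p) (z : JZero (M * p)) (hz : p • z = 0) :
    s44e_nu A M p hp.out hpM (heckeOperatorBar (M * p) ℓ z) =
      s44hz_B A hA M hpM ℓ (s44e_nu A M p hp.out hpM z) := by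
  haveI : NeZero (ℓ : ℕ) := ⟨ℓ.2.ne_zero⟩
  haveI : CharP (ResidueField ↥A) p := jcr_charP A hA
  haveI : IsAlgClosed (ResidueField ↥A) := jcr_isAlgClosed A
  have hpℓ : ¬ p ∣ (ℓ : ℕ) := s44hz_not_dvd M ℓ.2 hℓN
  haveI hPD' := s44hd_hasPrincipalDivisorsC A hA M (ℓ : ℕ) hpM hpℓ
  have hmem := s44rd_hmem A hA M hpM
  have hfb := s44e_fbar_spec A hp.out hA M hmem hz
  have hT := hHecke ℓ hℓN z _ hz hfb
  obtain ⟨_, _, _, hfin, _, hN⟩ := s44hd_heckeInputsC A hA M (ℓ : ℕ) hpM hpℓ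
  haveI hPD : HasPrincipalDivisors (ResidueField ↥A)
      ↥(modularFunctionFieldFullC (ResidueField ↥A) M) :=
    rt_hasPrincipalDivisors (jcr_isSepGen (k := ResidueField ↥A) M hpM
      (vx_rho p (ResidueField ↥A)))
  obtain ⟨D, hD, -⟩ := hPD.exists_divisor (s44e_fbar A M p z) hfb.1
  rw [s44hz_B_eq A hA M hpM ℓ hℓN]
  funext i
  have h1 := s44he_ord_B' (mzrh_beC (ResidueField ↥A) M (ℓ : ℕ))
    (mzrh_alC (ResidueField ↥A) M (ℓ : ℕ))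
    (s44hz_beC_isIntegral A hA M hpM (ℓ : ℕ) hpℓ)
    (s44hd_alC_isIntegral A hA M (ℓ : ℕ) hpM hpℓ) p
    {Q | s44e_IsSS A M p hp.out hpM Q} hfin hN hfb.1 hD
    (fun w _ hw' => s44e_ord_off_of_Fbar A hA M hpM hoff hfb _ hw') ⟨i.1, i.2⟩
  rw [s44e_nu_def, s44e_nuAll_eq A hp.out hA M hmem hT i.1]
  exact h1

/-- **[E3] (R3) B-EIS** for `k = s44e_k2`, `B = s44hz_B`, from the exact divisor of `ū` at the
non-cuspidal places ((U-DIV), new form), `p ≥ 5`. -/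
theorem s44hz_BEis (hp5 : 5 ≤ p)
    (ha : ∀ Q : Place (ResidueField ↥A) ↥(modularFunctionFieldFullC (ResidueField ↥A) M),
      s44e_IsSS A M p hp.out hpM Q → ∃ T : ℤ, T * Q.ord (s44e_ubar A M p) = 12)
    (hb : ∀ Q : Place (ResidueField ↥A) ↥(modularFunctionFieldFullC (ResidueField ↥A) M),
      jcr_j (k := ResidueField ↥A) M ∈ Q.toValuationSubring → ¬ s44e_IsSS A M p hp.out hpM Q →
        Q.ord (s44e_ubar A M p) = 0)
    (ℓ : Nat.Primes) (hℓN : ¬ (ℓ : ℕ) ∣ M * p) :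
    s44hz_B A hA M hpM ℓ (fun i => (s44e_k2 A M p hp.out hpM i)⁻¹) =
      (((ℓ : ℕ) : ZMod p) + 1) • fun i => (s44e_k2 A M p hp.out hpM i)⁻¹ := by
  haveI : NeZero (ℓ : ℕ) := ⟨ℓ.2.ne_zero⟩
  have hpℓ : ¬ p ∣ (ℓ : ℕ) := s44hz_not_dvd M ℓ.2 hℓN
  haveI hPD' := s44hd_hasPrincipalDivisorsC A hA M (ℓ : ℕ) hpM hpℓ
  rw [s44hz_B_eq A hA M hpM ℓ hℓN]
  exact s44hu_BEis_of_div A hA M hpM (ℓ : ℕ) hp5 ℓ.2 hℓN _ _ ha hb

end General

/-! ### the instance `s44_frame2` -/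

section Frame2

variable (P : FreyPackage) (M : ℕ) [NeZero M] [NeZero (M * P.p)] (hpM : ¬ P.p ∣ M)

/-- **the operator `B` of the cells tuple** for `s44_frame2`. -/
def s44hz_B_frame2 (ℓ : Nat.Primes) :
    (s44e_Sg (s44f_A P.p P.pp) M P.p P.pp hpM → ZMod P.p) →+
      (s44e_Sg (s44f_A P.p P.pp) M P.p P.pp hpM → ZMod P.p) :=
  haveI : Fact P.p.Prime := ⟨P.pp⟩
  s44hz_B (s44f_A P.p P.pp) (s44f_A_liesOver P.p P.pp) M hpM ℓ

/-- **the field `heckeRes` of `s44bg_Cells`** for `s44_frame2`, `S = ∅`, `ν = s44e_nu`,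
`B = s44hz_B_frame2`, from (★★) and (E2-ord). -/
theorem s44hz_heckeRes_frame2
    (hHecke : ∀ ℓ : Nat.Primes, ¬ (ℓ : ℕ) ∣ M * P.p → ∀ (z : JZero (M * P.p))
      (fb : s44e_FF (s44f_A P.p P.pp) M),
      P.p • z = 0 → s44e_Fbar (s44f_A P.p P.pp) M P.p z fb →
      s44e_Fbar (s44f_A P.p P.pp) M P.p (heckeOperatorBar (M * P.p) ℓ z)
        (haveI : NeZero (ℓ : ℕ) := ⟨ℓ.2.ne_zero⟩
         s35pe_normAlong (mzrh_alC (s44e_kA (s44f_A P.p P.pp)) M ℓ)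
          (mzrh_beC (s44e_kA (s44f_A P.p P.pp)) M ℓ fb)))
    (hoff : s44e_OrdOff_frame2 P M hpM) :
    s44bg_HeckeRes_stmt (P := P) (M := M) ∅ (s44e_nu (s44f_A P.p P.pp) M P.p P.pp hpM)
      (s44hz_B_frame2 P M hpM) := by
  haveI : Fact P.p.Prime := ⟨P.pp⟩
  intro ℓ hℓN _ z hz
  exact s44hz_heckeRes (s44f_A P.p P.pp) (s44f_A_liesOver P.p P.pp) M hpM hHecke hoff ℓ hℓN z hz

/-- **the field `B_eis` of `s44bg_Cells`** for `s44_frame2`, `S = ∅`, `k = s44e_k2`,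
`B = s44hz_B_frame2`, from (U-DIV). -/
theorem s44hz_BEis_frame2
    (ha : ∀ Q : Place (s44e_kA (s44f_A P.p P.pp)) (s44e_FF (s44f_A P.p P.pp) M),
      s44e_IsSS (s44f_A P.p P.pp) M P.p P.pp hpM Q →
        ∃ T : ℤ, T * Q.ord (s44e_ubar (s44f_A P.p P.pp) M P.p) = 12)
    (hb : ∀ Q : Place (s44e_kA (s44f_A P.p P.pp)) (s44e_FF (s44f_A P.p P.pp) M),
      jcr_j (k := s44e_kA (s44f_A P.p P.pp)) M ∈ Q.toValuationSubring →
        ¬ s44e_IsSS (s44f_A P.p P.pp) M P.p P.pp hpM Q →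
        Q.ord (s44e_ubar (s44f_A P.p P.pp) M P.p) = 0) :
    s44bg_BEis_stmt (P := P) (M := M) ∅ (s44e_k2 (s44f_A P.p P.pp) M P.p P.pp hpM)
      (s44hz_B_frame2 P M hpM) := by
  haveI : Fact P.p.Prime := ⟨P.pp⟩
  intro ℓ hℓN _
  exact s44hz_BEis (s44f_A P.p P.pp) (s44f_A_liesOver P.p P.pp) M hpM P.hp5 ha hb ℓ hℓN

/-- **the field `k_ne` of `s44bg_Cells`** for `k = s44e_k2`, from (U-DIV)(a'). -/
theorem s44hz_k_ne_frame2
    (ha : ∀ Q : Place (s44e_kA (s44f_A P.p P.pp)) (s44e_FF (s44f_A P.p P.pp) M),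
      s44e_IsSS (s44f_A P.p P.pp) M P.p P.pp hpM Q →
        ∃ T : ℤ, T * Q.ord (s44e_ubar (s44f_A P.p P.pp) M P.p) = 12)
    (i : s44e_Sg (s44f_A P.p P.pp) M P.p P.pp hpM) :
    s44e_k2 (s44f_A P.p P.pp) M P.p P.pp hpM i ≠ 0 := by
  haveI : Fact P.p.Prime := ⟨P.pp⟩
  exact s44hu_k2_ne (s44f_A P.p P.pp) M hpM P.hp5 ha i

end Frame2

end Fermat.Agent.S44
end
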