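/-
S44, cells [E2]/[E3]/[BIG-ASM]: **`s44bg_Cells` for `s44_frame2` FROM THE THREE OPEN INPUTS**
(helper21; prefix `s44hz_`).  Pure assembly of landed files:

* `HeckeRes/Final.lean`   (helper21) : `s44hz_B_frame2`, `s44hz_heckeRes_frame2`, `s44hz_BEis_frame2`;
* `HeckeRes/AsmRes.lean`  (helper11) : (★★) `s44ha_fbar_hecke_frame2`;
* `Big/InstOldK.lean`     (helper25) : `s44bg_inst_oldK`;
* `Res/Main.lean`         (helper20) : `s44e_nu_add_frame2`, `s44e_OrdOff_frame2`;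
* `Res/UDiv.lean`         (helper15) : `s44e_UDiv`, `s44e_k2_ne_frame`.

`s44hz_cells_frame2` : (E2-ord) `s44e_OrdOff_frame2 P M hpM` + (U-DIV) `s44e_UDiv A₀ M P.p P.pp hpM` +
[H2] mono `s44bg_Mono_stmt (s44_frame2 P M hpM) (s44e_k2 …) (s44e_nu …)` ⟹
`s44bg_Cells (s44_frame2 P M hpM) ∅ (s44e_k2 …) (s44e_nu …) (s44hz_B_frame2 P M hpM)`.
-/
import Mathlib
import Fermat.Agent.S44.HeckeRes.Final
import Fermat.Agent.S44.HeckeRes.AsmRes
import Fermat.Agent.S44.Big.InstOldK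
import Fermat.Agent.S44.Res.UDiv

set_option autoImplicit false
set_option linter.unusedSectionVars false
set_option linter.unusedVariables false
set_option linter.style.haveILetI false
set_option synthInstance.maxHeartbeats 400000
set_option maxHeartbeats 1000000

noncomputable section

namespace Fermat.Agent.S44

open ModularCurve AlgebraicCurve
open Fermat.Agent.JT3 Fermat.Agent.S24 Fermat.Agent.S35 Fermat.Agent.MZ

variable (P : FreyPackage) (M : ℕ) [NeZero M] [NeZero (M * P.p)] (hpM : ¬ P.p ∣ M)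

/-- **the cells of [BIG-inf] for `s44_frame2`** from (E2-ord), (U-DIV) and [H2] mono. -/
theorem s44hz_cells_frame2 (hoff : s44e_OrdOff_frame2 P M hpM)
    (hU : s44e_UDiv (s44f_A P.p P.pp) M P.p P.pp hpM)
    (hmono : s44bg_Mono_stmt (s44_frame2 P M hpM) (s44e_k2 (s44f_A P.p P.pp) M P.p P.pp hpM)
      (s44e_nu (s44f_A P.p P.pp) M P.p P.pp hpM)) :
    s44bg_Cells (s44_frame2 P M hpM) ∅ (s44e_k2 (s44f_A P.p P.pp) M P.p P.pp hpM)
      (s44e_nu (s44f_A P.p P.pp) M P.p P.pp hpM) (s44hz_B_frame2 P M hpM) where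
  k_ne := s44e_k2_ne_frame P M hpM hU
  ν_add := s44e_nu_add_frame2 P M hpM
  mono := hmono
  heckeRes := s44hz_heckeRes_frame2 P M hpM (s44ha_fbar_hecke_frame2 P M hpM) hoff
  B_eis := s44hz_BEis_frame2 P M hpM
    (fun Q hQ => (hU Q hQ.1).1 hQ) (fun Q hj hQ => (hU Q hj).2 hQ)
  oldK := s44bg_inst_oldK P M hpM hoff (s44ha_fbar_hecke_frame2 P M hpM)

/-- the existential form consumed by `s44_wiring3`. -/
theorem s44hz_cells_exists (hoff : s44e_OrdOff_frame2 P M hpM)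
    (hU : s44e_UDiv (s44f_A P.p P.pp) M P.p P.pp hpM)
    (hmono : s44bg_Mono_stmt (s44_frame2 P M hpM) (s44e_k2 (s44f_A P.p P.pp) M P.p P.pp hpM)
      (s44e_nu (s44f_A P.p P.pp) M P.p P.pp hpM)) :
    ∃ (Sg : Type) (S : Finset ℕ) (k : Sg → ZMod P.p) (ν : JZero (M * P.p) → Sg → ZMod P.p)
      (B : Nat.Primes → (Sg → ZMod P.p) →+ (Sg → ZMod P.p)),
      s44bg_Cells (s44_frame2 P M hpM) S k ν B :=
  ⟨_, ∅, _, _, _, s44hz_cells_frame2 P M hpM hoff hU hmono⟩

end Fermat.Agent.S44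

end
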