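/-
S44 [E3] (U-T), step (F1'): the formal eta identity of `EtaProdPS.lean` transported to Laurent
series: `ofPowerSeries` intertwines `PowerSeries.expand` with `qExpand` and `PowerSeries.rescale`
with `S28.fs_twist`.
Owner: helper22.  Prefix `s44hg_`.
-/
import Mathlib
import Fermat.Agent.S28.Formal.Subst
import Fermat.Agent.S44.HeckeRes.EtaProdPS

set_option autoImplicit false

noncomputable section

open HahnSeries ModularCurve

namespace Fermat.Agent.S44

/-! ### Transfer to Laurent series -/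

section Transfer

open Fermat.Agent.S28

variable {R : Type*} [CommRing R]

theorem s44hg_ofPS_rescale (c : Rˣ) (f : PowerSeries R) :
    HahnSeries.ofPowerSeries ℤ R (PowerSeries.rescale (c : R) f) =
      fs_twist c (HahnSeries.ofPowerSeries ℤ R f) := by
  ext n
  rw [fs_twist_coeff]
  rcases le_or_gt 0 n with hn | hn
  · lift n to ℕ using hn
    rw [HahnSeries.ofPowerSeries_apply_coeff, HahnSeries.ofPowerSeries_apply_coeff,
      PowerSeries.coeff_rescale, zpow_natCast, Units.val_pow_eq_pow_val]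
  · rw [ofPowerSeries_coeff_of_neg _ hn, ofPowerSeries_coeff_of_neg _ hn, mul_zero]

theorem s44hg_ofPS_expand (k : ℕ) [NeZero k] (f : PowerSeries R) :
    HahnSeries.ofPowerSeries ℤ R (PowerSeries.expand k (NeZero.ne k) f) =
      qExpand R k (HahnSeries.ofPowerSeries ℤ R f) := by
  have hkpos : (0 : ℤ) < k := by exact_mod_cast Nat.pos_of_ne_zero (NeZero.ne k)
  ext n
  by_cases hd : (k : ℤ) ∣ n
  · obtain ⟨m, rfl⟩ := hd
    rw [qExpand_coeff_mul]
    rcases le_or_gt 0 m with hm | hm
    · lift m to ℕ using hm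
      rw [← Nat.cast_mul, HahnSeries.ofPowerSeries_apply_coeff,
        HahnSeries.ofPowerSeries_apply_coeff, PowerSeries.coeff_expand_mul]
    · rw [ofPowerSeries_coeff_of_neg _ hm, ofPowerSeries_coeff_of_neg _ (by nlinarith)]
  · rw [qExpand_coeff_of_not_dvd k _ hd]
    rcases le_or_gt 0 n with hn | hn
    · lift n to ℕ using hn
      rw [HahnSeries.ofPowerSeries_apply_coeff]
      refine PowerSeries.coeff_expand_of_not_dvd k (NeZero.ne k) f ?_
      intro h
      exact hd (by exact_mod_cast h)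
    · exact ofPowerSeries_coeff_of_neg _ hn

/-- the Euler product as a Laurent series -/
def s44hg_EL (R : Type*) [CommRing R] : LaurentSeries R :=
  HahnSeries.ofPowerSeries ℤ R (s44hg_E R)

/-- **The formal eta identity, Laurent series form.** -/
theorem s44hg_eta_laurent [IsDomain R] {ℓ : ℕ} [NeZero ℓ] (hℓ : ℓ.Prime) (ζ : Rˣ)
    (hζ : IsPrimitiveRoot ζ ℓ) :
    qExpand R (ℓ ^ 2) (s44hg_EL R) * ∏ b ∈ Finset.range ℓ, fs_twist (ζ ^ b) (s44hg_EL R) =
      (qExpand R ℓ (s44hg_EL R)) ^ (ℓ + 1) := by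
  have hζ' : IsPrimitiveRoot (ζ : R) ℓ := hζ.map_of_injective (f := Units.coeHom R)
    Units.val_injective
  have h := congrArg (HahnSeries.ofPowerSeries ℤ R) (s44hg_eta_PS hℓ hζ')
  unfold s44hg_L s44hg_D at h
  rw [map_mul, map_mul, map_pow, map_prod, s44hg_ofPS_expand, s44hg_ofPS_expand] at h
  rw [pow_succ' (qExpand R ℓ (s44hg_EL R)) ℓ]
  unfold s44hg_EL
  rw [← h]
  congr 1
  refine Finset.prod_congr rfl fun b _ => ?_
  rw [← s44hg_ofPS_rescale, Units.val_pow_eq_pow_val]

end Transfer

end Fermat.Agent.S44
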