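/-
S44, cell [E3] HECKE-RES, leaf (E3-INV), abstract core (helper22; prefix `s44hi_`): 'POINTS OVER
NODES ARE NODES' WITHOUT GOING-DOWN (Mathlib + HeckeRes/AbsNorm only).

Setting of `AbsNorm.lean`: `K ⊆ L` finite, `W ⊆ K`, `W' ⊆ L` valuation subrings with `W' ∩ K = W`,
residue maps `r`, `r'`, and `[L : K]` residually independent elements of `κ'` (`s44hn_Data`).
In the application `W = W₀(N)`, `W' = W₀(Nℓ)` are the valuation rings of the `0`-component.

* `s44hi_repr_nonunits` : an element `x ∈ W'` with `r' x = 0` has all its coordinates (in a basis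
  of lifts) in `𝔪(W)`;
* `s44hi_charpoly`      : such an `x` is killed by a monic polynomial over `W` which is `≡ X^n`
  modulo `𝔪(W)` (Cayley–Hamilton over the maximal ideal);
* **`s44hi_monic_rel`** : if moreover `x` is integral over a ring `R → K` with image in `W` and
  integrally closed in `K`, then `x` is killed by a MONIC polynomial over `R` ALL OF WHOSE LOWER
  COEFFICIENTS LIE IN `R ∩ 𝔪(W)` (the minimal polynomial of `x` over `K`);
* `s44hi_nonunit_of_root`, `s44hi_step1` : a root `y ∈ 𝒪` (valuation ring) of a monic polynomial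
  with lower coefficients in `𝔪(𝒪)` lies in `𝔪(𝒪)`.

Together: if every `c ∈ R ∩ 𝔪(W₀)` reduces (along the `∞`-component) into `𝔪_{Q'}`, then so does
every `b' ∈ R' ∩ 𝔪(W₀')`: a point of level `Nℓ` over a supersingular point is supersingular.
-/
import Mathlib
import Fermat.Agent.S44.HeckeRes.AbsNorm

set_option autoImplicit false
set_option linter.unusedSectionVars false
set_option linter.style.haveILetI false

noncomputable section

namespace Fermat.Agent.S44

open Module Polynomial

section Val

variable {E : Type*} [Field E]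

/-- a root in a valuation ring `𝒪` of a monic polynomial whose lower coefficients lie in `𝔪(𝒪)` lies
in `𝔪(𝒪)` -/
theorem s44hi_nonunit_of_root (𝒪 : ValuationSubring E) (q : E[X]) (hq : q.Monic)
    (hlow : ∀ i < q.natDegree, q.coeff i ∈ 𝒪.nonunits) (y : E) (hy : y ∈ 𝒪)
    (h0 : q.eval y = 0) : y ∈ 𝒪.nonunits := by
  have hn : q.natDegree ≠ 0 := by
    intro h
    have h1 : q = 1 := by
      rw [← hq.natDegree_eq_zero]
      exact h
    rw [h1, eval_one] at h0
    exact one_ne_zero h0
  have hsum : y ^ q.natDegree = -∑ i ∈ Finset.range q.natDegree, q.coeff i * y ^ i := by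
    have h1 := h0
    rw [eval_eq_sum_range, Finset.sum_range_succ, hq.coeff_natDegree, one_mul] at h1
    rw [eq_neg_iff_add_eq_zero, add_comm]
    exact h1
  have hv : 𝒪.valuation (y ^ q.natDegree) < 1 := by
    rw [hsum, Valuation.map_neg]
    refine Valuation.map_sum_lt _ one_ne_zero fun i hi => ?_
    rw [map_mul, map_pow]
    have h1 : 𝒪.valuation (q.coeff i) < 1 := hlow i (Finset.mem_range.mp hi)
    have h2 : 𝒪.valuation y ≤ 1 := (ValuationSubring.valuation_le_one_iff _ _).mpr hy
    calc 𝒪.valuation (q.coeff i) * 𝒪.valuation y ^ i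
        ≤ 𝒪.valuation (q.coeff i) * 1 := by
          gcongr
          exact pow_le_one₀ zero_le h2
      _ = 𝒪.valuation (q.coeff i) := mul_one _
      _ < 1 := h1
  show 𝒪.valuation y < 1
  by_contra hcon
  have h2 : 𝒪.valuation y ≤ 1 := (ValuationSubring.valuation_le_one_iff _ _).mpr hy
  have h3 : 𝒪.valuation y = 1 := le_antisymm h2 (not_lt.mp hcon)
  rw [map_pow, h3, one_pow] at hv
  exact lt_irrefl _ hv

/-- the same through ring homomorphisms `R → S → E` -/
theorem s44hi_step1 {R S : Type*} [CommRing R] [CommRing S] (ψ : R →+* S) (ρ : S →+* E)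
    (𝒪 : ValuationSubring E) (q : R[X]) (hq : q.Monic)
    (hlow : ∀ i < q.natDegree, ρ (ψ (q.coeff i)) ∈ 𝒪.nonunits) (y : S) (hy : ρ y ∈ 𝒪)
    (h0 : q.eval₂ ψ y = 0) : ρ y ∈ 𝒪.nonunits := by
  have hq' : (q.map (ρ.comp ψ)).Monic := hq.map _
  refine s44hi_nonunit_of_root 𝒪 (q.map (ρ.comp ψ)) hq' ?_ (ρ y) hy ?_
  · intro i hi
    rw [hq.natDegree_map] at hi
    rw [coeff_map]
    exact hlow i hi
  · rw [eval_map, ← hom_eval₂, h0, map_zero]

end Val

section Abs

variable {K L κ κ' : Type*} [Field K] [Field L] [Field κ] [Field κ'] [Algebra K L] [Algebra κ κ']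
  {W : ValuationSubring K} {W' : ValuationSubring L} {r : ↥W →+* κ} {r' : ↥W' →+* κ'}

/-- an element of `W` killed by the residue map is a nonunit -/
theorem s44hi_mem_nonunits_of_red (c : ↥W) (h : r c = 0) : (c : K) ∈ W.nonunits := by
  rw [ValuationSubring.coe_mem_nonunits_iff, IsLocalRing.mem_maximalIdeal, mem_nonunits_iff]
  intro hu
  exact (hu.map r).ne_zero h

variable {ι : Type*} [Fintype ι]

/-- the coordinates of an element of `W'` killed by `r'` lie in `𝔪(W)` -/
theorem s44hi_repr_nonunits (D : s44hn_Data W W' r r') (b : ι → ↥W')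
    (hb : LinearIndependent κ (fun i => r' (b i))) (B : Basis ι K L)
    (hB : ∀ i, B i = ((b i : ↥W') : L)) (x : ↥W') (hx : r' x = 0) (i : ι) :
    B.repr (x : L) i ∈ W.nonunits := by
  have h1 := s44hn_eq_sum D b hb B hB x
  have h2 := s44hn_red_sum D b
    (fun i => (⟨B.repr (x : L) i, s44hn_repr_mem D b hb B hB x i⟩ : ↥W))
  rw [← h1, hx] at h2
  have h3 := (Fintype.linearIndependent_iff.mp hb) _ h2.symm i
  exact s44hi_mem_nonunits_of_red _ h3

variable [DecidableEq ι]

/-- **Cayley–Hamilton over the maximal ideal**: `x ∈ W'` with `r' x = 0` is killed by a monic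
polynomial over `W` congruent to `X ^ n` modulo `𝔪(W)`. -/
theorem s44hi_charpoly [Nonempty ι] (D : s44hn_Data W W' r r') (b : ι → ↥W')
    (hb : LinearIndependent κ (fun i => r' (b i))) (B : Basis ι K L)
    (hB : ∀ i, B i = ((b i : ↥W') : L)) (x : ↥W') (hx : r' x = 0) :
    ∃ χ : (↥W)[X], χ.Monic ∧ χ.natDegree = Fintype.card ι ∧
      (∀ i < χ.natDegree, χ.coeff i ∈ IsLocalRing.maximalIdeal ↥W) ∧
      aeval (x : L) (χ.map W.subtype) = 0 := by
  set m : Matrix ι ι ↥W := fun i j =>
    ⟨B.repr (((x * b j : ↥W') : ↥W') : L) i, s44hn_repr_mem D b hb B hB (x * b j) i⟩ with hm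
  have hmat : Algebra.leftMulMatrix B ((x : ↥W') : L) = m.map W.subtype := by
    ext i j
    rw [Algebra.leftMulMatrix_eq_repr_mul, Matrix.map_apply, hB]
    rfl
  have hent : ∀ i j, m i j ∈ IsLocalRing.maximalIdeal ↥W := by
    intro i j
    rw [← ValuationSubring.coe_mem_nonunits_iff]
    have hxb : r' (x * b j) = 0 := by rw [map_mul, hx, zero_mul]
    exact s44hi_repr_nonunits D b hb B hB (x * b j) hxb i
  refine ⟨m.charpoly, Matrix.charpoly_monic m, Matrix.charpoly_natDegree_eq_dim m, ?_, ?_⟩
  · intro i hi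
    rw [Matrix.charpoly_natDegree_eq_dim] at hi
    have h1 := Matrix.coeff_charpoly_mem_ideal_pow hent i
    have h2 : Fintype.card ι - i ≠ 0 := by omega
    exact Ideal.pow_le_self h2 h1
  · have h1 := Matrix.aeval_self_charpoly (m.map W.subtype)
    rw [Matrix.charpoly_map, ← hmat, aeval_algHom_apply] at h1
    exact Algebra.leftMulMatrix_injective B (by rw [h1, map_zero])

/-- **(INV-core)**: an element `x` of `𝔪(W')`, integral over a ring `R` which is integrally closed
in `K` and maps into `W`, is killed by a monic polynomial over `R` all of whose lower coefficients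
lie in `𝔪(W)`. -/
theorem s44hi_monic_rel {R : Type*} [CommRing R] [Algebra R K] [Algebra R L] [IsScalarTower R K L]
    [FiniteDimensional K L] (D : s44hn_Data W W' r r') (bb : ι → κ')
    (hbb : LinearIndependent κ bb) (hcard : Fintype.card ι = finrank K L)
    (hRW : ∀ a : R, algebraMap R K a ∈ W)
    (hRic : ∀ y : K, IsIntegral R y → ∃ a : R, algebraMap R K a = y)
    (x : ↥W') (hxR : IsIntegral R (x : L)) (hx : r' x = 0) :
    ∃ q : R[X], q.Monic ∧ (∀ i < q.natDegree, algebraMap R K (q.coeff i) ∈ W.nonunits) ∧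
      aeval (x : L) q = 0 := by
  classical
  -- the basis of lifts
  choose b hb using fun i => D.surj (bb i)
  have hb' : LinearIndependent κ (fun i => r' (b i)) := by
    have : (fun i => r' (b i)) = bb := funext hb
    rw [this]; exact hbb
  have hli := s44hn_linearIndependent D b hb'
  haveI : Nonempty ι := by
    rw [← Fintype.card_pos_iff, hcard]
    exact finrank_pos
  set B : Basis ι K L := basisOfLinearIndependentOfCardEqFinrank hli hcard with hBdef
  have hB : ∀ i, B i = ((b i : ↥W') : L) := fun i => by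
    rw [hBdef, coe_basisOfLinearIndependentOfCardEqFinrank]
  obtain ⟨χ, hχm, hχn, hχlow, hχx⟩ := s44hi_charpoly D b hb' B hB x hx
  -- the minimal polynomial over `K`
  have hxK : IsIntegral K (x : L) := Algebra.IsIntegral.isIntegral _
  set g := minpoly K (x : L) with hg
  have hgm : g.Monic := minpoly.monic hxK
  have hgχ : g ∣ χ.map W.subtype := minpoly.dvd K _ hχx
  obtain ⟨f, hfm, hfx⟩ := hxR
  have hgf : g ∣ f.map (algebraMap R K) := by
    refine minpoly.dvd K _ ?_
    rw [aeval_map_algebraMap, aeval_def]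
    exact hfx
  have hlift : g ∈ lifts (algebraMap R K) := by
    have h1 := integralClosure.mem_lifts_of_monic_of_dvd_map K hfm hgm hgf
    rw [lifts_iff_coeff_lifts] at h1 ⊢
    intro n
    obtain ⟨c, hc⟩ := h1 n
    obtain ⟨a, ha⟩ := hRic (c : K) c.2
    exact ⟨a, by rw [ha, ← hc]; rfl⟩
  obtain ⟨q, hqg, hqn, hqm⟩ := lifts_and_natDegree_eq_and_monic hlift hgm
  refine ⟨q, hqm, ?_, ?_⟩
  swap
  · rw [← aeval_map_algebraMap K, hqg]
    exact minpoly.aeval K _
  -- reduction modulo `𝔪(W)`
  set φ : R →+* ↥W := (algebraMap R K).codRestrict W.toSubring hRW with hφ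
  have hφsub : W.subtype.comp φ = algebraMap R K := RingHom.ext fun a => rfl
  set gW : (↥W)[X] := q.map φ with hgW
  have hgWm : gW.Monic := hqm.map φ
  have hgWg : gW.map W.subtype = g := by rw [hgW, map_map, hφsub, hqg]
  have hdvd : gW ∣ χ := by
    have := hgχ
    rw [← hgWg] at this
    exact (map_dvd_map W.subtype Subtype.val_injective hgWm).mp this
  set res := IsLocalRing.residue ↥W with hres
  have hχres : χ.map res = X ^ Fintype.card ι := by
    ext i
    rw [coeff_map, coeff_X_pow]
    split_ifs with h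
    · rw [h, ← hχn, hχm.coeff_natDegree, map_one]
    · rcases lt_or_gt_of_ne h with h1 | h1
      · rw [hres, IsLocalRing.residue_eq_zero_iff]
        exact hχlow i (by rw [hχn]; exact h1)
      · rw [coeff_eq_zero_of_natDegree_lt (by rw [hχn]; exact h1), map_zero]
  have hdvd' : gW.map res ∣ X ^ Fintype.card ι := by
    rw [← hχres]
    exact Polynomial.map_dvd res hdvd
  obtain ⟨d, -, hd⟩ := (dvd_prime_pow prime_X _).mp hdvd'
  have heq : gW.map res = X ^ d :=
    eq_of_monic_of_associated (hgWm.map res) (monic_X_pow d) hd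
  have hdeg : gW.natDegree = d := by
    have := congrArg natDegree heq
    rwa [hgWm.natDegree_map, natDegree_X_pow] at this
  intro i hi
  have hi' : i < d := by
    rw [← hdeg, hgW, hqm.natDegree_map]
    exact hi
  have hc : res (gW.coeff i) = 0 := by
    have := congrArg (fun p => coeff p i) heq
    simp only [coeff_map, coeff_X_pow] at this
    rw [this, if_neg (ne_of_lt hi')]
  rw [hres, IsLocalRing.residue_eq_zero_iff, ← ValuationSubring.coe_mem_nonunits_iff] at hc
  have : ((gW.coeff i : ↥W) : K) = algebraMap R K (q.coeff i) := by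
    rw [hgW, coeff_map]
    rfl
  rw [← this]
  exact hc

end Abs

end Fermat.Agent.S44
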