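/-
S44, cell [E3] HECKE-RES, leaf (E3-INV), abstract form of the whole argument (helper22; prefix
`s44hi_`; Mathlib + HeckeRes/{AbsNorm, InvAbs} only).

ABSTRACT SETTING (`s44hi_Setup`).  `F ⊆ F'` (the inclusion is `α`, an `Algebra` instance), a second
embedding `β : F → F'`; residue fields `E ⊆ E'` (inclusion `ᾱ`, an `Algebra` instance), `β̄ : E → E'`;
`V ⊆ F`, `V' ⊆ F'` the valuation rings of the `∞`-component with residue maps `red`, `red'`;
`Wb`, `Wb'` the Atkin–Lehner maps (`Wb ∘ Wb = id`, `Wb' ∘ α = α ∘ Wb`, `Wb' ∘ β = β ∘ Wb`), so that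
`V.comap Wb`, `V'.comap Wb'` are the valuation rings of the `0`-component; `ι : R → F`, `ι' : R' → F'`
the coordinate rings of the affine charts (integral closures of a base ring), with `α R, β R ⊆ R'`,
`R'` integral over `α R`, `R` integrally closed in `F`.

For a valuation ring `𝒪` of `E` (a place of the `∞`-component):
`s44hi_SS 𝒪` :⟺ `red (ι R) ⊆ 𝒪` (the place is on the chart) and `red` maps `ι R ∩ 𝔪(V.comap Wb)` into
`𝔪(𝒪)` (the place lies on the `0`-component too: it is a double point).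

* `s44hi_up`   : `SS (𝒪'.comap ᾱ) → SS' 𝒪'`  (points over double points are double points);
* `s44hi_down` : `SS' 𝒪' → SS (𝒪'.comap β̄)` (and `→ SS (𝒪'.comap ᾱ)`);
* **`s44hi_inv`** : `SS (𝒪'.comap ᾱ) → SS (𝒪'.comap β̄)`.
-/
import Mathlib
import Fermat.Agent.S44.HeckeRes.InvAbs

set_option autoImplicit false
set_option linter.unusedSectionVars false
set_option linter.style.haveILetI false

noncomputable section

namespace Fermat.Agent.S44

open Module Polynomial

section Val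

variable {E : Type*} [Field E]

/-- a root of a monic polynomial with coefficients in a valuation ring lies in it -/
theorem s44hi_mem_of_root (𝒪 : ValuationSubring E) (q : E[X]) (hq : q.Monic)
    (hco : ∀ i < q.natDegree, q.coeff i ∈ 𝒪) (y : E) (h0 : q.eval y = 0) : y ∈ 𝒪 := by
  have hn : q.natDegree ≠ 0 := by
    intro h
    have h1 : q = 1 := by
      rw [← hq.natDegree_eq_zero]
      exact h
    rw [h1, eval_one] at h0
    exact one_ne_zero h0
  have hsum : y ^ q.natDegree = -∑ i ∈ Finset.range q.natDegree, q.coeff i * y ^ i := by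
    have h1 := h0
    rw [eval_eq_sum_range, Finset.sum_range_succ, hq.coeff_natDegree, one_mul] at h1
    rw [eq_neg_iff_add_eq_zero, add_comm]
    exact h1
  rw [← ValuationSubring.valuation_le_one_iff]
  by_contra hcon
  have hgt : 1 < 𝒪.valuation y := not_le.mp hcon
  have hy0 : 𝒪.valuation y ≠ 0 := ne_of_gt (lt_trans zero_lt_one hgt)
  have hlt : 𝒪.valuation (y ^ q.natDegree) < 𝒪.valuation y ^ q.natDegree := by
    rw [hsum, Valuation.map_neg]
    refine Valuation.map_sum_lt _ (pow_ne_zero _ hy0) fun i hi => ?_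
    have hi' : i < q.natDegree := Finset.mem_range.mp hi
    rw [map_mul, map_pow]
    have h1 : 𝒪.valuation (q.coeff i) ≤ 1 :=
      (ValuationSubring.valuation_le_one_iff _ _).mpr (hco i hi')
    calc 𝒪.valuation (q.coeff i) * 𝒪.valuation y ^ i
        ≤ 1 * 𝒪.valuation y ^ i := by gcongr
      _ = 𝒪.valuation y ^ i := one_mul _
      _ < 𝒪.valuation y ^ q.natDegree := pow_lt_pow_right₀ hgt hi'
  rw [map_pow] at hlt
  exact lt_irrefl _ hlt

/-- the same through ring homomorphisms `R → S → E` -/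
theorem s44hi_mem_of_root' {R S : Type*} [CommRing R] [CommRing S] (ψ : R →+* S) (ρ : S →+* E)
    (𝒪 : ValuationSubring E) (q : R[X]) (hq : q.Monic)
    (hco : ∀ c : R, ρ (ψ c) ∈ 𝒪) (y : S) (h0 : q.eval₂ ψ y = 0) : ρ y ∈ 𝒪 := by
  have hq' : (q.map (ρ.comp ψ)).Monic := hq.map _
  refine s44hi_mem_of_root 𝒪 (q.map (ρ.comp ψ)) hq' ?_ (ρ y) ?_
  · intro i _
    rw [coeff_map]
    exact hco _
  · rw [eval_map, ← hom_eval₂, h0, map_zero]

end Val

section Setup

variable {F F' E E' R R' : Type*} [Field F] [Field F'] [Field E] [Field E'] [CommRing R]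
  [CommRing R'] [Algebra F F'] [Algebra E E']

/-- the abstract setting of (E3-INV) -/
structure s44hi_Setup (β : F →+* F') (βb : E →+* E') (Wb : F →+* F) (Wb' : F' →+* F')
    (V : ValuationSubring F) (V' : ValuationSubring F') (red : ↥V →+* E) (red' : ↥V' →+* E')
    (ι : R →+* F) (ι' : R' →+* F') : Prop where
  Wb_Wb : ∀ x, Wb (Wb x) = x
  W_alpha : ∀ x, Wb' (algebraMap F F' x) = algebraMap F F' (Wb x)
  W_beta : ∀ x, Wb' (β x) = β (Wb x)
  data : s44hn_Data V V' red red'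
  red'_ker : ∀ x : ↥V', (x : F') ∈ V'.nonunits → red' x = 0
  beta_mem : ∀ x, x ∈ V → β x ∈ V'
  red_beta : ∀ (x : ↥V) (h : β (x : F) ∈ V'), red' ⟨β (x : F), h⟩ = βb (red x)
  ι_mem : ∀ c, ι c ∈ V
  ι_W : ∀ c, Wb (ι c) ∈ V
  closed : ∀ y : F, (∃ q : R[X], q.Monic ∧ q.eval₂ ι y = 0) → ∃ c, ι c = y
  ι'_mem : ∀ c', ι' c' ∈ V'
  alpha_R : ∀ c, ∃ c', ι' c' = algebraMap F F' (ι c)
  beta_R : ∀ c, ∃ c', ι' c' = β (ι c)
  int' : ∀ c', ∃ q : R[X], q.Monic ∧ q.eval₂ ((algebraMap F F').comp ι) (ι' c') = 0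

variable {β : F →+* F'} {βb : E →+* E'} {Wb : F →+* F} {Wb' : F' →+* F'}
  {V : ValuationSubring F} {V' : ValuationSubring F'} {red : ↥V →+* E} {red' : ↥V' →+* E'}
  {ι : R →+* F} {ι' : R' →+* F'}

/-- **double point**: the place `𝒪` of the `∞`-component lies on the chart `R` and on the
`0`-component. -/
def s44hi_SS (Wb : F →+* F) (V : ValuationSubring F) (red : ↥V →+* E) (ι : R →+* F)
    (hι : ∀ c, ι c ∈ V) (𝒪 : ValuationSubring E) : Prop :=
  (∀ c, red ⟨ι c, hι c⟩ ∈ 𝒪) ∧ ∀ c, Wb (ι c) ∈ V.nonunits → red ⟨ι c, hι c⟩ ∈ 𝒪.nonunits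

omit [Algebra F F'] in
/-- nonunits of a comap -/
theorem s44hi_mem_comap_nonunits_iff (W : ValuationSubring F') (φ : F →+* F') (x : F) :
    x ∈ (W.comap φ).nonunits ↔ φ x ∈ W.nonunits := by
  rw [ValuationSubring.mem_nonunits_iff_or, ValuationSubring.mem_nonunits_iff_or,
    ValuationSubring.mem_comap, map_inv₀, map_eq_zero]

/-- `β` maps `𝔪(V)` into `𝔪(V')` -/
theorem s44hi_beta_nonunits (S : s44hi_Setup β βb Wb Wb' V V' red red' ι ι') (x : F)
    (hx : x ∈ V.nonunits) : β x ∈ V'.nonunits := by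
  have hxV : x ∈ V := V.nonunits_subset hx
  have h1 := S.red_beta ⟨x, hxV⟩ (S.beta_mem x hxV)
  rw [S.data.ker ⟨x, hxV⟩ hx, map_zero] at h1
  exact s44hi_mem_nonunits_of_red (r := red') _ h1

/-- the embedding `R → V'` along `α` -/
def s44hi_psi (S : s44hi_Setup β βb Wb Wb' V V' red red' ι ι') : R →+* ↥V' :=
  ((algebraMap F F').comp ι).codRestrict V'.toSubring
    fun c => (S.data.mem_iff _).2 (S.ι_mem c)

theorem s44hi_red_psi (S : s44hi_Setup β βb Wb Wb' V V' red red' ι ι') (c : R) :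
    red' (s44hi_psi S c) = algebraMap E E' (red ⟨ι c, S.ι_mem c⟩) :=
  S.data.comp ⟨ι c, S.ι_mem c⟩ ((S.data.mem_iff _).2 (S.ι_mem c))

theorem s44hi_eval_psi (S : s44hi_Setup β βb Wb Wb' V V' red red' ι ι') (q : R[X]) (c' : R')
    (h : q.eval₂ ((algebraMap F F').comp ι) (ι' c') = 0) :
    q.eval₂ (s44hi_psi S) (⟨ι' c', S.ι'_mem c'⟩ : ↥V') = 0 := by
  apply Subtype.val_injective
  have : (V'.subtype : ↥V' →+* F') (q.eval₂ (s44hi_psi S) ⟨ι' c', S.ι'_mem c'⟩) =
      q.eval₂ ((algebraMap F F').comp ι) (ι' c') := by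
    rw [hom_eval₂]
    rfl
  show (V'.subtype : ↥V' →+* F') (q.eval₂ (s44hi_psi S) ⟨ι' c', S.ι'_mem c'⟩) = ((0 : ↥V') : F')
  rw [this, h]
  rfl

/-- a place of level `ℓ` over a place of the chart `R` lies on the chart `R'` -/
theorem s44hi_up_chart (S : s44hi_Setup β βb Wb Wb' V V' red red' ι ι')
    (𝒪' : ValuationSubring E')
    (h1 : ∀ c, red ⟨ι c, S.ι_mem c⟩ ∈ 𝒪'.comap (algebraMap E E')) (c' : R') :
    red' ⟨ι' c', S.ι'_mem c'⟩ ∈ 𝒪' := by
  obtain ⟨q, hqm, hq0⟩ := S.int' c'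
  refine s44hi_mem_of_root' (s44hi_psi S) red' 𝒪' q hqm (fun c => ?_) ⟨ι' c', S.ι'_mem c'⟩
    (s44hi_eval_psi S q c' hq0)
  rw [s44hi_red_psi]
  exact h1 c

variable [FiniteDimensional F F'] {κι : Type*} [Fintype κι] [DecidableEq κι]

/-- **points over double points are double points.** -/
theorem s44hi_up (S : s44hi_Setup β βb Wb Wb' V V' red red' ι ι') (bb : κι → E')
    (hbb : LinearIndependent E bb) (hcard : Fintype.card κι = finrank F F')
    (𝒪' : ValuationSubring E')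
    (h : s44hi_SS Wb V red ι S.ι_mem (𝒪'.comap (algebraMap E E'))) :
    s44hi_SS Wb' V' red' ι' S.ι'_mem 𝒪' := by
  obtain ⟨h1, h2⟩ := h
  refine ⟨s44hi_up_chart S 𝒪' h1, ?_⟩
  intro c' hc'
  -- `R → F` via `Wb ∘ ι`, `R → F'` via `α ∘ Wb ∘ ι = Wb' ∘ α ∘ ι`
  letI : Algebra R F := (Wb.comp ι).toAlgebra
  letI : Algebra R F' := ((algebraMap F F').comp (Wb.comp ι)).toAlgebra
  haveI : IsScalarTower R F F' := IsScalarTower.of_algebraMap_eq fun _ => rfl
  have hRW : ∀ a : R, algebraMap R F a ∈ V := fun a => S.ι_W a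
  have h5 : Wb'.comp ((algebraMap F F').comp ι) = algebraMap R F' :=
    RingHom.ext fun a => S.W_alpha (ι a)
  have hRic : ∀ y : F, IsIntegral R y → ∃ a : R, algebraMap R F a = y := by
    rintro y ⟨q, hqm, hq0⟩
    have h3 : q.eval₂ ι (Wb y) = 0 := by
      have h4 := congrArg Wb hq0
      rw [hom_eval₂, map_zero] at h4
      have h6 : Wb.comp (algebraMap R F) = ι := RingHom.ext fun a => S.Wb_Wb (ι a)
      rw [h6] at h4
      exact h4
    obtain ⟨c, hc⟩ := S.closed (Wb y) ⟨q, hqm, h3⟩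
    refine ⟨c, ?_⟩
    show Wb (ι c) = y
    rw [hc, S.Wb_Wb]
  have hx'mem : Wb' (ι' c') ∈ V' := V'.nonunits_subset hc'
  have hxint : IsIntegral R (Wb' (ι' c')) := by
    obtain ⟨q, hqm, hq0⟩ := S.int' c'
    refine ⟨q, hqm, ?_⟩
    have h4 := congrArg Wb' hq0
    rw [hom_eval₂, map_zero, h5] at h4
    exact h4
  have hx0 : red' ⟨Wb' (ι' c'), hx'mem⟩ = 0 := S.red'_ker _ hc'
  obtain ⟨q, hqm, hqlow, hq0⟩ :=
    s44hi_monic_rel S.data bb hbb hcard hRW hRic ⟨Wb' (ι' c'), hx'mem⟩ hxint hx0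
  -- transport the relation back through `Wb'`
  have hq0' : q.eval₂ ((algebraMap F F').comp ι) (ι' c') = 0 := by
    apply Wb'.injective
    rw [hom_eval₂, map_zero, h5]
    rw [aeval_def] at hq0
    exact hq0
  refine s44hi_step1 (s44hi_psi S) red' 𝒪' q hqm (fun i hi => ?_) ⟨ι' c', S.ι'_mem c'⟩
    (s44hi_up_chart S 𝒪' h1 c') (s44hi_eval_psi S q c' hq0')
  rw [s44hi_red_psi]
  exact (s44hi_mem_comap_nonunits_iff 𝒪' (algebraMap E E') _).1 (h2 _ (hqlow i hi))

omit [FiniteDimensional F F'] in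
/-- **double points map to double points**, along `β`. -/
theorem s44hi_down_beta (S : s44hi_Setup β βb Wb Wb' V V' red red' ι ι')
    (𝒪' : ValuationSubring E') (h : s44hi_SS Wb' V' red' ι' S.ι'_mem 𝒪') :
    s44hi_SS Wb V red ι S.ι_mem (𝒪'.comap βb) := by
  obtain ⟨h1, h2⟩ := h
  have key : ∀ c, βb (red ⟨ι c, S.ι_mem c⟩) = red' ⟨β (ι c), S.beta_mem _ (S.ι_mem c)⟩ :=
    fun c => (S.red_beta ⟨ι c, S.ι_mem c⟩ _).symm
  constructor
  · intro c
    rw [ValuationSubring.mem_comap, key]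
    obtain ⟨c', hc'⟩ := S.beta_R c
    have := h1 c'
    simp only [hc'] at this
    exact this
  · intro c hc
    rw [s44hi_mem_comap_nonunits_iff, key]
    obtain ⟨c', hc'⟩ := S.beta_R c
    have hW : Wb' (ι' c') ∈ V'.nonunits := by
      rw [hc', S.W_beta]
      exact s44hi_beta_nonunits S _ hc
    have := h2 c' hW
    simp only [hc'] at this
    exact this

/-- **(E3-INV), abstract**: if the image under `ᾱ` of a place of level `ℓ` is a double point, so is
its image under `β̄`. -/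
theorem s44hi_inv (S : s44hi_Setup β βb Wb Wb' V V' red red' ι ι') (bb : κι → E')
    (hbb : LinearIndependent E bb) (hcard : Fintype.card κι = finrank F F')
    (𝒪' : ValuationSubring E')
    (h : s44hi_SS Wb V red ι S.ι_mem (𝒪'.comap (algebraMap E E'))) :
    s44hi_SS Wb V red ι S.ι_mem (𝒪'.comap βb) :=
  s44hi_down_beta S 𝒪' (s44hi_up S bb hbb hcard 𝒪' h)

end Setup

end Fermat.Agent.S44
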