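/-
S44, cell [E3] HECKE-RES, sub-cell (E3-2), ABSTRACT PART (helper17; prefix `s44hv_`; Mathlib only).

`K ⊆ L` fields, `V ⊆ K`, `W ⊆ L` ANY valuation rings (no discreteness, no rank hypothesis) with
`V → W`, and "residue maps" `rV : V → κ`, `rW : W → λ` into fields `κ ⊆ λ` which are compatible and
such that `rV` kills the non-units of `V`.

* `s44hv_linIndep_lift` : lifts of `κ`-linearly independent residues are `K`-linearly independent;
* `s44hv_finrank_le`    : the FUNDAMENTAL INEQUALITY `[λ : κ] ≤ [L : K]` (for `rW` onto);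
* `s44hv_repr_mem`      : if the residues of a `K`-basis `b ⊆ W` of `L` are `κ`-independent, then
                          `W = ⊕ V b_i` (coordinates of elements of `W` lie in `V`);
* `s44hv_norm_res`      : if `[L : K] ≤ [λ : κ]` (so `=`; `e = 1`, `f = n`), then for `g ∈ W`:
                          `N_{L/K} g ∈ V` and `rV (N_{L/K} g) = N_{λ/κ} (rW g)`.
-/
import Mathlib

set_option autoImplicit false

namespace Fermat.Agent.S44

open Module

section Max

variable {K : Type*} [Field K] (V : ValuationSubring K)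

/-- among finitely many elements of `K`, not all zero, one divides all the others in `V`. -/
theorem s44hv_exists_max {ι : Type*} (s : Finset ι) (c : ι → K) (hc : ∃ i ∈ s, c i ≠ 0) :
    ∃ j ∈ s, c j ≠ 0 ∧ ∀ i ∈ s, c i / c j ∈ V := by
  obtain ⟨i0, hi0, hci0⟩ := hc
  obtain ⟨j, hj, hmax⟩ := Finset.exists_max_image s (fun i => V.valuation (c i)) ⟨i0, hi0⟩
  have hj0 : c j ≠ 0 := by
    intro h0
    have h1 := hmax i0 hi0
    simp only [h0, map_zero] at h1
    exact hci0 ((V.valuation).zero_iff.mp (le_antisymm h1 zero_le))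
  refine ⟨j, hj, hj0, fun i hi => ?_⟩
  rw [← ValuationSubring.valuation_le_one_iff, map_div₀]
  have hpos : 0 < V.valuation (c j) := zero_lt_iff.mpr ((V.valuation).ne_zero_iff.mpr hj0)
  exact (div_le_one₀ hpos).mpr (hmax i hi)

end Max

section Main

variable {K L κ lam : Type*} [Field K] [Field L] [Algebra K L] [Field κ] [Field lam]
  [Algebra κ lam]
  (V : ValuationSubring K) (W : ValuationSubring L) (rV : V →+* κ) (rW : W →+* lam)
  (hVW : ∀ x : K, x ∈ V → algebraMap K L x ∈ W)
  (hcompat : ∀ (x : K) (hx : x ∈ V),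
    rW ⟨algebraMap K L x, hVW x hx⟩ = algebraMap κ lam (rV ⟨x, hx⟩))
  (hker : ∀ (x : K) (hx : x ∈ V), x⁻¹ ∉ V → rV ⟨x, hx⟩ = 0)

include hcompat in
/-- the key computation: `rW` of a `V`-linear combination. -/
theorem s44hv_rW_sum {ι : Type*} (s : Finset ι) (c : ι → V) (b : ι → W) (w : W)
    (h : (w : L) = ∑ i ∈ s, (c i : K) • ((b i : W) : L)) :
    rW w = ∑ i ∈ s, rV (c i) • rW (b i) := by
  have h1 : w = ∑ i ∈ s, (⟨algebraMap K L (c i), hVW _ (c i).2⟩ : W) * b i := by
    apply Subtype.ext
    rw [h, AddSubmonoidClass.coe_finsetSum]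
    refine Finset.sum_congr rfl fun i _ => ?_
    rw [Algebra.smul_def]
    rfl
  rw [h1, map_sum]
  refine Finset.sum_congr rfl fun i _ => ?_
  rw [map_mul, hcompat, Algebra.smul_def]

include hcompat in
/-- **lifts of linearly independent residues are linearly independent.** -/
theorem s44hv_linIndep_lift {ι : Type*} (b : ι → W)
    (hb : LinearIndependent κ (fun i => rW (b i))) :
    LinearIndependent K (fun i => ((b i : W) : L)) := by
  classical
  rw [linearIndependent_iff']
  intro s g hsum
  by_contra hne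
  simp only [not_forall] at hne
  obtain ⟨i0, hi0, hgi0⟩ := hne
  obtain ⟨j, hj, hj0, hdiv⟩ := s44hv_exists_max V s g ⟨i0, hi0, hgi0⟩
  set c : ι → V := fun i => if h : i ∈ s then ⟨g i / g j, hdiv i h⟩ else 0 with hc
  have hcs : ∀ i ∈ s, ((c i : V) : K) = g i / g j := fun i hi => by
    rw [hc]
    simp only [dif_pos hi]
  have h0 : ((0 : W) : L) = ∑ i ∈ s, (c i : K) • ((b i : W) : L) := by
    have h1 : ∑ i ∈ s, (c i : K) • ((b i : W) : L) = (g j)⁻¹ • ∑ i ∈ s, g i • ((b i : W) : L) := by
      rw [Finset.smul_sum]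
      refine Finset.sum_congr rfl fun i hi => ?_
      rw [hcs i hi, smul_smul, div_eq_inv_mul]
    rw [h1, hsum, smul_zero]
    rfl
  have h2 := s44hv_rW_sum V W rV rW hVW hcompat s c b 0 h0
  rw [map_zero] at h2
  have h3 := (linearIndependent_iff'.mp hb) s (fun i => rV (c i)) h2.symm j hj
  have h4 : c j = 1 := by
    apply Subtype.ext
    rw [hcs j hj, div_self hj0]
    rfl
  rw [h4, map_one] at h3
  exact one_ne_zero h3

include hcompat in
/-- **the fundamental inequality** `[λ : κ] ≤ [L : K]`. -/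
theorem s44hv_finrank_le [FiniteDimensional K L] (hsurj : Function.Surjective rW) :
    Module.Finite κ lam ∧ finrank κ lam ≤ finrank K L := by
  classical
  have hrank : Module.rank κ lam ≤ (finrank K L : ℕ) := by
    apply rank_le
    intro s hs
    choose b hb using hsurj
    have hli : LinearIndependent κ (fun i : s => rW (b (i : lam))) := by
      simpa only [hb] using hs
    have h1 := s44hv_linIndep_lift V W rV rW hVW hcompat (fun i : s => b (i : lam)) hli
    have h2 := h1.fintype_card_le_finrank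
    simpa using h2
  have hfin : Module.Finite κ lam :=
    Module.rank_lt_aleph0_iff.mp (lt_of_le_of_lt hrank (Cardinal.natCast_lt_aleph0))
  refine ⟨hfin, ?_⟩
  have := Module.finrank_eq_rank κ lam
  rw [← this] at hrank
  exact_mod_cast hrank

include hcompat hker in
/-- **`W = ⊕ V b_i`**: the coordinates of an element of `W` in a `K`-basis `b ⊆ W` of `L` with
`κ`-independent residues lie in `V`. -/
theorem s44hv_repr_mem {ι : Type*} [Fintype ι] (b : ι → W)
    (hb : LinearIndependent κ (fun i => rW (b i))) (B : Basis ι K L)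
    (hB : ∀ i, B i = ((b i : W) : L)) (w : L) (hw : w ∈ W) (i : ι) : B.repr w i ∈ V := by
  classical
  by_contra hni
  have hci0 : B.repr w i ≠ 0 := fun h => hni (h ▸ V.zero_mem)
  obtain ⟨j, -, hj0, hdiv⟩ :=
    s44hv_exists_max V Finset.univ (fun i => B.repr w i) ⟨i, Finset.mem_univ _, hci0⟩
  -- `c_j ∉ V`
  have hjV : B.repr w j ∉ V := by
    intro hjV
    apply hni
    have h1 := hdiv i (Finset.mem_univ _)
    have h2 := V.mul_mem _ _ h1 hjV
    rwa [div_mul_cancel₀ _ hj0] at h2
  have hinv : (B.repr w j)⁻¹ ∈ V := (V.mem_or_inv_mem _).resolve_left hjV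
  have hr0 : rV ⟨(B.repr w j)⁻¹, hinv⟩ = 0 := hker _ hinv (by rwa [inv_inv])
  set c : ι → V := fun i => ⟨B.repr w i / B.repr w j, hdiv i (Finset.mem_univ _)⟩ with hc
  set w' : W := ⟨algebraMap K L (B.repr w j)⁻¹, hVW _ hinv⟩ * ⟨w, hw⟩ with hw'
  have h0 : ((w' : W) : L) = ∑ i ∈ Finset.univ, (c i : K) • ((b i : W) : L) := by
    have h1 : ∑ i ∈ Finset.univ, (c i : K) • ((b i : W) : L)
        = (B.repr w j)⁻¹ • ∑ i, B.repr w i • B i := by
      rw [Finset.smul_sum]
      refine Finset.sum_congr rfl fun i _ => ?_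
      show (B.repr w i / B.repr w j) • ((b i : W) : L) = _
      rw [smul_smul, hB, div_eq_inv_mul]
    rw [h1, B.sum_repr, Algebra.smul_def]
    rfl
  have h2 := s44hv_rW_sum V W rV rW hVW hcompat Finset.univ c b w' h0
  rw [hw', map_mul, hcompat _ hinv, hr0, map_zero, zero_mul] at h2
  have h3 := (linearIndependent_iff'.mp hb) Finset.univ (fun i => rV (c i)) h2.symm j
    (Finset.mem_univ _)
  have h4 : c j = 1 := by
    apply Subtype.ext
    show B.repr w j / B.repr w j = 1
    exact div_self hj0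
  rw [h4, map_one] at h3
  exact one_ne_zero h3

include hcompat hker in
/-- the norm in a lifted basis. -/
theorem s44hv_norm_res_basis {ι : Type*} [Fintype ι] [DecidableEq ι] (b : ι → W)
    (B : Basis ι K L) (hB : ∀ i, B i = ((b i : W) : L)) (Bb : Basis ι κ lam)
    (hBb : ∀ i, Bb i = rW (b i)) (g : L) (hg : g ∈ W) :
    ∃ h : Algebra.norm K g ∈ V, rV ⟨Algebra.norm K g, h⟩ = Algebra.norm κ (rW ⟨g, hg⟩) := by
  have hb : LinearIndependent κ (fun i => rW (b i)) := by
    have := Bb.linearIndependent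
    have e : (fun i => rW (b i)) = Bb := funext fun i => (hBb i).symm
    rwa [e]
  have hmem : ∀ i j, B.repr (g * B j) i ∈ V := fun i j =>
    s44hv_repr_mem V W rV rW hVW hcompat hker b hb B hB _
      (by rw [hB]; exact W.mul_mem _ _ hg (b j).2) i
  set Mat : Matrix ι ι V := fun i j => ⟨B.repr (g * B j) i, hmem i j⟩ with hMat
  have h1 : Algebra.leftMulMatrix B g = Mat.map V.subtype := by
    ext i j
    rw [Algebra.leftMulMatrix_eq_repr_mul]
    rfl
  have h2 : Algebra.norm K g = ((Mat.det : V) : K) := by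
    rw [Algebra.norm_eq_matrix_det B, h1]
    exact (RingHom.map_det V.subtype Mat).symm
  refine ⟨h2 ▸ (Mat.det).2, ?_⟩
  have h3 : (⟨Algebra.norm K g, h2 ▸ (Mat.det).2⟩ : V) = Mat.det := Subtype.ext h2
  rw [h3, RingHom.map_det, Algebra.norm_eq_matrix_det Bb]
  congr 1
  ext i j
  rw [Algebra.leftMulMatrix_eq_repr_mul]
  -- `rW (g b_j) = Σ_i rV (Mat i j) • b̄_i`
  have h4 : (((⟨g, hg⟩ : W) * b j : W) : L)
      = ∑ i ∈ Finset.univ, ((Mat i j : V) : K) • ((b i : W) : L) := by
    have := B.sum_repr (g * B j)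
    show g * ((b j : W) : L) = _
    rw [← hB j, ← this]
    refine Finset.sum_congr rfl fun i _ => ?_
    rw [hB i]
  have h5 := s44hv_rW_sum V W rV rW hVW hcompat Finset.univ (fun i => Mat i j) b _ h4
  rw [map_mul] at h5
  rw [hBb j, h5]
  have h6 : (∑ i ∈ Finset.univ, rV (Mat i j) • rW (b i)) = ∑ i, rV (Mat i j) • Bb i := by
    refine Finset.sum_congr rfl fun i _ => ?_
    rw [hBb i]
  rw [h6, Bb.repr_sum_self]
  rfl

include hcompat hker in
/-- **(E3-2), abstract form: the norm commutes with the residue maps** when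
`[L : K] ≤ [λ : κ]` (then `=`: `e = 1`, `f = n`, `W` free over `V`). -/
theorem s44hv_norm_res [FiniteDimensional K L] (hsurj : Function.Surjective rW)
    (hdeg : finrank K L ≤ finrank κ lam) (g : L) (hg : g ∈ W) :
    ∃ h : Algebra.norm K g ∈ V, rV ⟨Algebra.norm K g, h⟩ = Algebra.norm κ (rW ⟨g, hg⟩) := by
  classical
  obtain ⟨hfin, hle⟩ := s44hv_finrank_le V W rV rW hVW hcompat hsurj
  have heq : finrank κ lam = finrank K L := le_antisymm hle hdeg
  have hpos : 0 < finrank K L := Module.finrank_pos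
  let Bb : Basis (Fin (finrank κ lam)) κ lam := Module.finBasis κ lam
  choose b hb using fun i => hsurj (Bb i)
  have hli : LinearIndependent κ (fun i => rW (b i)) := by
    have e : (fun i => rW (b i)) = Bb := funext hb
    rw [e]
    exact Bb.linearIndependent
  have hliK := s44hv_linIndep_lift V W rV rW hVW hcompat b hli
  have : Nonempty (Fin (finrank κ lam)) := ⟨⟨0, heq ▸ hpos⟩⟩
  let B : Basis (Fin (finrank κ lam)) K L :=
    basisOfLinearIndependentOfCardEqFinrank hliK (by rw [Fintype.card_fin, heq])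
  exact s44hv_norm_res_basis V W rV rW hVW hcompat hker b B
    (fun i => by
      show basisOfLinearIndependentOfCardEqFinrank hliK _ i = _
      rw [coe_basisOfLinearIndependentOfCardEqFinrank])
    Bb (fun i => (hb i).symm) g hg

end Main

end Fermat.Agent.S44
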